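import Fermat.Agent.WeilPairing.Nondeg

/-!
# Isotropy of the toric part
-/

set_option autoImplicit false

noncomputable section

open AlgebraicCurve

namespace Fermat.Agent.Ribet

open Fermat.Agent.FunField Fermat.Agent.FunField.PlaceLemmas Fermat.Agent.WeilPairing

variable {K F : Type*} [Field K] [Field F] [Algebra K F] [IsAlgClosed K] [IsFF K F]

/-- change of level for the Weil pairing -/
theorem weil_level {n m : ℕ} {x y : Pic0 K F} (hx : n • x = 0) (hy : (n * m) • y = 0) :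
    weil n x (m • y) = weil (n * m) x y := by
  obtain ⟨D, hD⟩ := Pic0.mk_surjective x
  obtain ⟨f, hf0, hf⟩ := exists_fun_of_nsmul_eq_zero hx hD
  have hf' : divOf (f ^ m) = (n * m) • (D : Divisor K F) := by
    rw [divOf_pow, hf, smul_smul, mul_comm]
  obtain ⟨W, hWD, hWf, -⟩ := exists_data hy ∅ hD (pow_ne_zero m hf0) hf'
  have hdis : ∀ v, (D : Divisor K F) v = 0 ∨ (W.E : Divisor K F) v = 0 := by
    rw [← hWD]; exact W.dis
  let W' : WeilData n x (m • y) := ⟨D, m • W.E, f, W.g, hf0, W.g_ne, hD,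
      congrArg (fun z => m • z) W.mkE, hf, by
      rw [W.div_g, mul_smul]; rfl, by
      intro v
      rcases hdis v with h | h
      · exact Or.inl h
      · right
        show (m • (W.E : Divisor K F)) v = 0
        rw [Finsupp.smul_apply, h, smul_zero]⟩
  rw [weil_eq W, weil_eq W']
  unfold WeilData.value
  show ev f (m • (W.E : Divisor K F)) / ev W.g (D : Divisor K F) = _
  rw [hWD, hWf, ev_nsmul, ev_pow hf0 (dis_of_divOf_eq hf hdis)]

/-- Pairing on classes on which `s ^ 2` is multiplication by `l ^ 2`. -/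
theorem weil_pow_of_frob {p M c l : ℕ} (hp : p.Prime) (s : SemilinearAut K F)
    (hs : ∀ ζ : Kˣ, ζ ^ (p ^ M) = 1 →
      Units.map (SemilinearAut.baseAut s).toRingHom.toMonoidHom ζ = ζ ^ l)
    (hl : ¬ p ^ (c + 1) ∣ l ^ 4 - l ^ 2) (hl1 : 1 ≤ l) {x y : Pic0 K F} (hx : p ^ M • x = 0)
    (hy : p ^ M • y = 0) (hsx : s • s • x = l ^ 2 • x) (hsy : s • s • y = l ^ 2 • y) :
    (weil (p ^ M) x y) ^ (p ^ c) = 1 := by
  set ζ := weil (p ^ M) x y with hζ
  have hζ1 : ζ ^ (p ^ M) = 1 := weil_pow hx hy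
  have hsm : ∀ z : Pic0 K F, p ^ M • z = 0 → p ^ M • (s • z) = 0 := fun z hz => by
    have h := map_nsmul (DistribSMul.toAddMonoidHom (Pic0 K F) s) (p ^ M) z
    rw [hz, map_zero] at h
    exact h.symm
  have h1 : weil (p ^ M) (s • x) (s • y) = ζ ^ l := by
    rw [weil_smul s hx hy]
    exact hs _ hζ1
  have h2 : weil (p ^ M) (s • s • x) (s • s • y) = ζ ^ (l * l) := by
    rw [weil_smul s (hsm x hx) (hsm y hy), h1, map_pow]
    have := hs _ hζ1
    erw [this]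
    rw [← pow_mul]
  have h3 : weil (p ^ M) (s • s • x) (s • s • y) = ζ ^ (l ^ 2 * l ^ 2) := by
    rw [hsx, hsy, weil_nsmul_left hx (by rw [nsmul_left_comm, hy, nsmul_zero]),
      weil_nsmul_right hx hy, ← pow_mul]
  have h4 : ζ ^ (l ^ 4 - l ^ 2) = 1 := by
    have h5 : ζ ^ (l ^ 4) = ζ ^ (l ^ 2) := by
      rw [show l ^ 4 = l ^ 2 * l ^ 2 by ring, ← h3, h2, ← pow_two]
    have h6 : l ^ 2 ≤ l ^ 4 := Nat.pow_le_pow_right hl1 (by norm_num)
    have h7 : ζ ^ (l ^ 4 - l ^ 2) * ζ ^ (l ^ 2) = ζ ^ (l ^ 2) := by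
      rw [← pow_add, Nat.sub_add_cancel h6, h5]
    exact mul_eq_right.mp h7
  -- the order of `ζ` is a power of `p` dividing `l ^ 4 - l ^ 2`
  obtain ⟨k, -, hk⟩ := (Nat.dvd_prime_pow hp).mp (orderOf_dvd_of_pow_eq_one hζ1)
  have h5 : p ^ k ∣ l ^ 4 - l ^ 2 := by
    rw [← hk]
    exact orderOf_dvd_of_pow_eq_one h4
  have hkc : k ≤ c := by
    by_contra hlt
    push Not at hlt
    exact hl ((pow_dvd_pow p hlt).trans h5)
  rw [← orderOf_dvd_iff_pow_eq_one, hk]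
  exact pow_dvd_pow p hkc

/-- **Isotropy** of the `p`-torsion of a divisible tower. -/
theorem weil_eq_one_of_div {p c : ℕ} (NN : ℕ → AddSubgroup (Pic0 K F))
    (htor : ∀ b, ∀ x ∈ NN b, p ^ b • x = 0)
    (hdiv : ∀ b, ∀ x ∈ NN 1, ∃ y ∈ NN (b + 1), p ^ b • y = x)
    (hiso : ∀ x ∈ NN (c + 1), ∀ y ∈ NN (c + 1), (weil (p ^ (c + 1)) x y) ^ (p ^ c) = 1)
    {x y : Pic0 K F} (hx : x ∈ NN 1) (hy : y ∈ NN 1) : weil p x y = 1 := by
  obtain ⟨x', hx', rfl⟩ := hdiv c x hx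
  obtain ⟨y', hy', rfl⟩ := hdiv c y hy
  have h0 : p • p ^ c • x' = 0 := by
    rw [smul_smul, ← pow_succ']
    exact htor _ _ hx'
  have h1 : p ^ (c + 1) • y' = 0 := htor _ _ hy'
  rw [weil_level h0 (by rw [← pow_succ']; exact h1), ← pow_succ',
    weil_nsmul_left (htor _ _ hx') h1]
  exact hiso x' hx' y' hy'

end Fermat.Agent.Ribet
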