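import Fermat.Agent.Ribet.KV
import Fermat.Agent.TW.Base

/-!
# Comparison of the module of level `Γ₀(n)` with `k ⊗ J₀(n)[p]`: the statement
-/

set_option autoImplicit false

noncomputable section

open Module IsLocalRing

namespace Fermat.Agent.Ribet

open Fermat.Agent.MzGal Fermat.Agent.TW

/-- **[CMP]** The localised module of level `Γ₀(n)`, modulo the maximal ideal, is the localised
`k ⊗ J₀(n)[p]`, Hecke equivariantly. -/
def CmpHG (m n : ℕ) (hn : n ∣ m) (p : ℕ) [NeZero n] (O : Type) [CommRing O] [IsLocalRing O]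
    (𝔪 : Ideal (TPoly m O)) [𝔪.IsPrime] : Prop :=
  ∃ Q : Loc 𝔪 (HG m n hn O) →ₗ[TPoly m O] Loc 𝔪 (KV m n p O hn), Function.Surjective Q ∧
    ∀ x, Q x = 0 → x ∈ (maximalIdeal O • ⊤ : Submodule O (Loc 𝔪 (HG m n hn O)))

end Fermat.Agent.Ribet
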