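import Fermat.Agent.TW.Base

/-!
# The module of level `Γ₀(n)` as a group of homomorphisms
-/

set_option autoImplicit false
set_option linter.unusedSectionVars false

noncomputable section

open Module IsLocalRing

namespace Fermat.Agent.Ribet

open Fermat.Agent.TW Fermat.Agent.HeckeHom
open ModularCurve.Period CongruenceSubgroup

/-- The module of level `Γ₀(n)` is the group of homomorphisms. -/
theorem exists_hgHom {m n : ℕ} (hn0 : n ≠ 0) (hn : n ∣ m) (O : Type) [CommRing O]
    (hO : ∀ (k : ℕ) (a : O), k ≠ 0 → k • a = 0 → a = 0) :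
    ∃ E : HG m n hn O ≃ₗ[O] (Additive (Gamma0 n) →+ O),
      (∀ (l : Pr m) (hln : ¬ (l : ℕ) ∣ n) (x : HG m n hn O),
        E ((MvPolynomial.X l : TPoly m O) • x) = heckeHom l.2.1 hln O (E x)) ∧
      ∀ (l : Pr m), ((l : ℕ) : ZMod n) = 1 → ∀ x : HG m n hn O,
        E ((MvPolynomial.X l - MvPolynomial.C (((l : ℕ) : O) + 1) : TPoly m O) • x) ∈
          parabolicHoms O (Gamma0 n) O := by
  have key : ∀ (D : Type) (_ : CommGroup D) (W : TWD D) (hM : W.M ∣ m) (k : ℕ) (hk : k ∣ m),
      k = W.N * W.dd → ∃ E : HG m k hk O ≃ₗ[O] (Additive (Gamma0 k) →+ O),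
      (∀ (l : Pr m) (hln : ¬ (l : ℕ) ∣ k) (x : HG m k hk O),
        E ((MvPolynomial.X l : TPoly m O) • x) = heckeHom l.2.1 hln O (E x)) ∧
      ∀ (l : Pr m), ((l : ℕ) : ZMod W.M) = 1 → ∀ x : HG m k hk O,
        E ((MvPolynomial.X l - MvPolynomial.C (((l : ℕ) : O) + 1) : TPoly m O) • x) ∈
          parabolicHoms O (Gamma0 k) O := by
    intro D _ W hM k hk h
    subst h
    obtain ⟨b⟩ := exists_baseTW hM (O := O) rfl hk
    let S := W.shap_bor
    refine ⟨(b.symm.restrictScalars O).trans (S.equiv hM O O), fun l hln x => ?_, fun l hl x => ?_⟩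
    · obtain ⟨y, rfl⟩ := b.surjective x
      change S.equiv hM O O (b.symm ((MvPolynomial.X l : TPoly m O) • b y)) =
        heckeHom l.2.1 hln O (S.equiv hM O O (b.symm (b y)))
      rw [← map_smul, LinearEquiv.symm_apply_apply, LinearEquiv.symm_apply_apply, Stg.X_smul]
      exact S.equiv_T hM O O l hln y
    · obtain ⟨y, rfl⟩ := b.surjective x
      change S.equiv hM O O (b.symm ((MvPolynomial.X l - MvPolynomial.C (((l : ℕ) : O) + 1) :
        TPoly m O) • b y)) ∈ _
      rw [← map_smul, LinearEquiv.symm_apply_apply]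
      have h1 : (MvPolynomial.X l - MvPolynomial.C (((l : ℕ) : O) + 1) : TPoly m O) • y =
          (XF hM).T _ l y - ((l : ℕ) + 1) • y := by
        rw [sub_smul, Stg.X_smul, Stg.C_smul, ← Nat.cast_succ, Nat.cast_smul_eq_nsmul]
      rw [h1]
      exact S.parabolic hM O O (fun k a hk h => hO k a hk h) l hl y
  obtain ⟨E, h1, h2⟩ := key Unit inferInstance (W0 n hn0) (W0_dvd hn0 hn) n hn (W0_lev n hn0)
  refine ⟨E, h1, fun l hl => h2 l ?_⟩
  have h3 := W0_M n hn0
  obtain ⟨k, hk⟩ : ∃ k, (W0 n hn0).M = k := ⟨_, rfl⟩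
  rw [hk] at h3 ⊢
  subst h3
  exact hl

/-- the parabolic part -/
def parSub {m n : ℕ} {hn : n ∣ m} {O : Type} [CommRing O]
    (E : HG m n hn O ≃ₗ[O] (Additive (Gamma0 n) →+ O))
    (hE : ∀ (l : Pr m) (hln : ¬ (l : ℕ) ∣ n) (x : HG m n hn O),
        E ((MvPolynomial.X l : TPoly m O) • x) = heckeHom l.2.1 hln O (E x)) :
    Submodule (TPoly m O) (HG m n hn O) where
  carrier := {x | E x ∈ parabolicHoms O (Gamma0 n) O}
  zero_mem' := by
    change E 0 ∈ parabolicHoms O (Gamma0 n) O
    rw [map_zero]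
    exact zero_mem _
  add_mem' {x y} hx hy := by
    change E (x + y) ∈ parabolicHoms O (Gamma0 n) O
    rw [map_add]
    exact add_mem hx hy
  smul_mem' P x hx := by
    change E (P • x) ∈ parabolicHoms O (Gamma0 n) O
    induction P using MvPolynomial.induction_on generalizing x with
    | C a =>
      rw [Stg.C_smul, map_smul]
      exact Submodule.smul_mem _ _ hx
    | add P Q hP hQ =>
      rw [add_smul, map_add]
      exact add_mem (hP x hx) (hQ x hx)
    | mul_X P l hP =>
      rw [mul_smul]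
      refine hP _ ?_
      change E ((MvPolynomial.X l : TPoly m O) • x) ∈ parabolicHoms O (Gamma0 n) O
      rw [hE l (fun h => l.2.2 (h.trans hn))]
      exact heckeHom_mem_parabolicHoms l.2.1 _ hx

theorem mem_parSub {m n : ℕ} {hn : n ∣ m} {O : Type} [CommRing O]
    (E : HG m n hn O ≃ₗ[O] (Additive (Gamma0 n) →+ O))
    (hE : ∀ (l : Pr m) (hln : ¬ (l : ℕ) ∣ n) (x : HG m n hn O),
        E ((MvPolynomial.X l : TPoly m O) • x) = heckeHom l.2.1 hln O (E x)) {x : HG m n hn O} :
    x ∈ parSub E hE ↔ E x ∈ parabolicHoms O (Gamma0 n) O := Iff.rfl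

/-- **Abstract comparison.** -/
theorem exists_cmpH {m n : ℕ} {hn : n ∣ m} {O : Type} [CommRing O]
    (E : HG m n hn O ≃ₗ[O] (Additive (Gamma0 n) →+ O))
    (hE : ∀ (l : Pr m) (hln : ¬ (l : ℕ) ∣ n) (x : HG m n hn O),
        E ((MvPolynomial.X l : TPoly m O) • x) = heckeHom l.2.1 hln O (E x))
    {K : Type} [AddCommGroup K] [Module O K] [Module (TPoly m O) K]
    [IsScalarTower O (TPoly m O) K]
    (q : parabolicHoms O (Gamma0 n) O →ₗ[O] K) (hq : Function.Surjective q)
    (hqT : ∀ (l : Pr m) (hln : ¬ (l : ℕ) ∣ n) (x : parabolicHoms O (Gamma0 n) O),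
      q (parHecke O O l.2.1 hln x) = (MvPolynomial.X l : TPoly m O) • q x)
    {ϖ : O} (hk : ∀ x, q x = 0 → ∃ y, x = ϖ • y) :
    ∃ Q : parSub E hE →ₗ[TPoly m O] K, Function.Surjective Q ∧
      ∀ x, Q x = 0 → ∃ y : parSub E hE, x = ϖ • y := by
  let c : parSub E hE → parabolicHoms O (Gamma0 n) O := fun x => ⟨E x.1, x.2⟩
  have hsm : ∀ (a : O) (x : HG m n hn O), (MvPolynomial.C a : TPoly m O) • x = a • x :=
    fun a x => Stg.C_smul _ _ a x
  have hc : ∀ (P : TPoly m O) (x : parSub E hE), q (c (P • x)) = P • q (c x) := by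
    intro P
    induction P using MvPolynomial.induction_on with
    | C a =>
      intro x
      have h1 : c ((MvPolynomial.C a : TPoly m O) • x) = a • c x := by
        apply Subtype.ext
        change E ((MvPolynomial.C a : TPoly m O) • x.1) = a • E x.1
        rw [hsm, map_smul]
      rw [h1, map_smul, ← algebraMap_smul (TPoly m O) a (q (c x))]
      rfl
    | add P Q hP hQ =>
      intro x
      have h1 : c ((P + Q) • x) = c (P • x) + c (Q • x) := by
        apply Subtype.ext
        change E ((P + Q) • x.1) = E (P • x.1) + E (Q • x.1)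
        rw [add_smul, map_add]
      rw [h1, map_add, hP, hQ, add_smul]
    | mul_X P l hP =>
      intro x
      rw [mul_smul, mul_smul, hP]
      congr 1
      have hln : ¬ (l : ℕ) ∣ n := fun h => l.2.2 (h.trans hn)
      rw [← hqT l hln]
      congr 1
      exact Subtype.ext (hE l hln x.1)
  refine ⟨{ toFun := fun x => q (c x)
            map_add' := fun x y => by
              rw [← map_add]
              congr 1
              exact Subtype.ext (map_add E x.1 y.1)
            map_smul' := hc }, fun y => ?_, fun x hx => ?_⟩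
  · obtain ⟨x, rfl⟩ := hq y
    refine ⟨⟨E.symm x.1, ?_⟩, ?_⟩
    · rw [mem_parSub, LinearEquiv.apply_symm_apply]
      exact x.2
    · change q (c _) = q x
      congr 1
      exact Subtype.ext (LinearEquiv.apply_symm_apply E x.1)
  · obtain ⟨y, hy⟩ := hk (c x) hx
    refine ⟨⟨E.symm y.1, ?_⟩, ?_⟩
    · rw [mem_parSub, LinearEquiv.apply_symm_apply]
      exact y.2
    · apply Subtype.ext
      apply E.injective
      have h1 : (((ϖ • (⟨E.symm y.1, by
        rw [mem_parSub, LinearEquiv.apply_symm_apply]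
        exact y.2⟩ : parSub E hE) : parSub E hE)) : HG m n hn O) = ϖ • E.symm y.1 := rfl
      rw [h1, map_smul, LinearEquiv.apply_symm_apply]
      exact congrArg Subtype.val hy

end Fermat.Agent.Ribet
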