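import Fermat.Agent.TW.Loc
import Mathlib.RingTheory.LocalRing.ResidueField.Basic

/-!
# Comparison of localised modules: abstract form
-/

set_option autoImplicit false
set_option linter.unusedSectionVars false

noncomputable section

open Module IsLocalRing

namespace Fermat.Agent.Ribet

open Fermat.Agent.TW

variable {σ O : Type} [CommRing O] [IsLocalRing O] (𝔪 : Ideal (MvPolynomial σ O)) [𝔪.IsPrime]
  {H K : Type} [AddCommGroup H] [Module (MvPolynomial σ O) H] [Module O H]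
  [IsScalarTower O (MvPolynomial σ O) H]
  [AddCommGroup K] [Module (MvPolynomial σ O) K] [Module O K]
  [IsScalarTower O (MvPolynomial σ O) K]

theorem exists_cmp {ϖ : O} (hϖ : ϖ ∈ maximalIdeal O) (Hp : Submodule (MvPolynomial σ O) H)
    (q : Hp →ₗ[MvPolynomial σ O] K) (hq : Function.Surjective q)
    (hk : ∀ x, q x = 0 → ∃ y : Hp, x = ϖ • y)
    {s : MvPolynomial σ O} (hs : s ∉ 𝔪) (hsH : ∀ x : H, s • x ∈ Hp) :
    ∃ Q : Loc 𝔪 H →ₗ[MvPolynomial σ O] Loc 𝔪 K, Function.Surjective Q ∧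
      ∀ x, Q x = 0 → x ∈ (maximalIdeal O • ⊤ : Submodule O (Loc 𝔪 H)) := by
  let i := Loc.map 𝔪 Hp.subtype
  have hi : Function.Injective i := Loc.map_injective 𝔪 _ fun x hx =>
    ⟨1, fun h => (inferInstance : 𝔪.IsPrime).ne_top ((Ideal.eq_top_iff_one _).mpr h),
      by rw [one_smul]; exact Subtype.ext hx⟩
  have his : Function.Surjective i := by
    intro x
    obtain ⟨t, ht, h, hh⟩ := Loc.exists_smul x
    have hts : t * s ∉ 𝔪 := fun h6 => ((inferInstance : 𝔪.IsPrime).mem_or_mem h6).elim ht hs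
    obtain ⟨y, hy⟩ := (Loc.smul_bij (N := Hp) hts).2 (Loc.mk 𝔪 Hp ⟨s • h, hsH h⟩)
    refine ⟨y, (Loc.smul_bij hts).1 ?_⟩
    change (t * s) • i y = (t * s) • x
    have hy' : (t * s) • y = Loc.mk 𝔪 Hp ⟨s • h, hsH h⟩ := hy
    rw [← map_smul, hy', mul_comm, mul_smul, hh, ← map_smul]
    exact Loc.map_mk 𝔪 Hp.subtype _
  let e : Loc 𝔪 Hp ≃ₗ[MvPolynomial σ O] Loc 𝔪 H := LinearEquiv.ofBijective i ⟨hi, his⟩
  refine ⟨Loc.map 𝔪 q ∘ₗ e.symm.toLinearMap,
    (Loc.map_surjective 𝔪 q hq).comp e.symm.surjective, fun x hx => ?_⟩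
  obtain ⟨y, rfl⟩ := e.surjective x
  have h1 : Loc.map 𝔪 q y = 0 := by
    have h2 : Loc.map 𝔪 q (e.symm (e y)) = 0 := hx
    rwa [LinearEquiv.symm_apply_apply] at h2
  let f : Hp →ₗ[MvPolynomial σ O] Hp :=
    (MvPolynomial.C ϖ : MvPolynomial σ O) • (LinearMap.id : Hp →ₗ[MvPolynomial σ O] Hp)
  obtain ⟨z, hz⟩ := Loc.map_exact 𝔪 f q (fun x hx => by
    obtain ⟨y, hy⟩ := hk x hx
    refine ⟨y, ?_⟩
    change (MvPolynomial.C ϖ : MvPolynomial σ O) • y = x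
    rw [hy, ← algebraMap_smul (MvPolynomial σ O) ϖ y]
    rfl) y h1
  have h2 : Loc.map 𝔪 f = (MvPolynomial.C ϖ : MvPolynomial σ O) •
      (LinearMap.id : Loc 𝔪 Hp →ₗ[MvPolynomial σ O] Loc 𝔪 Hp) := Loc.hom_ext fun n => by
    rw [Loc.map_mk]
    change Loc.mk 𝔪 Hp ((MvPolynomial.C ϖ : MvPolynomial σ O) • n) = _
    rw [map_smul]
    rfl
  have h3 : y = ϖ • z := by
    rw [← hz, h2]
    rfl
  have h4 : e y = ϖ • e z := by
    rw [h3, ← Loc.C_smul, map_smul, Loc.C_smul]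
  rw [h4]
  exact Submodule.smul_mem_smul hϖ trivial

end Fermat.Agent.Ribet
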