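import Fermat.Agent.Ribet.CmpAbs
import Fermat.Agent.Ribet.CmpLoc
import Fermat.Agent.Ribet.CmpHom
import Fermat.Agent.Ribet.CmpDef
import Fermat.Agent.PIC.CharZero

/-!
# Comparison of the module of level `Γ₀(n)` with `k ⊗ J₀(n)[p]`
-/

set_option autoImplicit false
set_option linter.unusedSectionVars false

noncomputable section

open Module IsLocalRing
open scoped TensorProduct

namespace Fermat.Agent.Ribet

open ModularCurve ModularCurve.Period CongruenceSubgroup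
open Fermat.Agent.MzGal Fermat.Agent.TW
open Fermat.Agent.HeckeHom Fermat.Agent.TorsCmp Fermat.Agent.Tate Fermat.Agent.PIC

theorem exists_jmap (n p : ℕ) [NeZero n] [hp : Fact p.Prime] :
    ∃ j : parabolicHoms ℤ (Gamma0 n) ℤ →ₗ[ℤ] JT n p, Function.Surjective j ∧
      (∀ φ, j φ = 0 ↔ ∃ ψ, φ = p • ψ) ∧
      ∀ (l : ℕ) (hl : l.Prime) (hln : ¬ l ∣ n) (φ : parabolicHoms ℤ (Gamma0 n) ℤ),
        ((j (parHecke ℤ ℤ hl hln φ) : JT n p) : JZero n) =
          (heckeOperatorBar n ⟨l, hl⟩ : JZero n →+ JZero n) ((j φ : JT n p) : JZero n) :=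
  exists_jV (comparisonJ n p) (comparisonJ_mem_iff n p) (JT n p) (fun _ => mem_JT)
    (prJ_surjective n p 1) (fun l hl _ => (heckeOperatorBar n ⟨l, hl⟩ : JZero n →+ JZero n))
    (fun _ hl hln x => comparisonJ_hecke n p hl hln 1 x _ rfl)

section Q

variable {m n : ℕ} (hn : n ∣ m) (p : ℕ) [NeZero n] [hp : Fact p.Prime] (O : Type) [CommRing O]
  [IsLocalRing O] [IsAddTorsionFree O]

theorem exists_q0 (hpO : (p : O) ∈ maximalIdeal O) {ϖ : O}
    (hϖ : maximalIdeal O = Ideal.span {ϖ}) :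
    ∃ q : parabolicHoms O (Gamma0 n) O →ₗ[O] KV m n p O hn, Function.Surjective q ∧
      (∀ (l : Pr m) (hln : ¬ (l : ℕ) ∣ n) (x : parabolicHoms O (Gamma0 n) O),
        q (parHecke O O l.2.1 hln x) = (MvPolynomial.X l : TPoly m O) • q x) ∧
      ∀ x, q x = 0 → ∃ y, x = ϖ • y := by
  obtain ⟨j, hj, hjk, hjT⟩ := exists_jmap n p
  obtain ⟨q, hq, hqT, hqk⟩ := exists_q0_abs O (K := KV m n p O hn) (AddEquiv.refl _)
    (fun o a x => (KV.smul_tm (hn := hn) o a x).symm) j hj hjk hpO hϖ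
  refine ⟨q, hq, fun l hln x => ?_, hqk⟩
  rw [KV.X_smul]
  exact hqT l.1 l.2.1 hln (resT p (Tj l)) (KV.T l : KV m n p O hn →ₗ[O] KV m n p O hn)
    (fun φ => Subtype.ext (hjT l.1 l.2.1 hln φ)) (fun a x => KV.lift_tm _ a x) x

end Q

/-- **[CMP]** -/
theorem cmpHG {m n : ℕ} (hn : n ∣ m) {p : ℕ} [Fact p.Prime] [NeZero n] {O : Type} [CommRing O]
    [IsDomain O] [IsDiscreteValuationRing O] [CharZero O] (hpO : (p : O) ∈ maximalIdeal O)
    {𝔪 : Ideal (TPoly m O)} [𝔪.IsPrime] (hE : NonEis n 𝔪) : CmpHG m n hn p O 𝔪 := by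
  have hn0 : n ≠ 0 := NeZero.ne n
  obtain ⟨ϖ, hϖ⟩ := IsDiscreteValuationRing.exists_irreducible O
  have hϖ' : maximalIdeal O = Ideal.span {ϖ} := hϖ.maximalIdeal_eq
  obtain ⟨E, hET, hEP⟩ := exists_hgHom hn0 hn O (fun k a hk h => by
    rw [nsmul_eq_mul] at h
    exact (mul_eq_zero.mp h).resolve_left (Nat.cast_ne_zero.mpr hk))
  have htf : IsAddTorsionFree O := inferInstance
  obtain ⟨q, hq, hqT, hqk⟩ := exists_q0 (m := m) hn p O hpO hϖ'
  obtain ⟨Q, hQ, hQk⟩ := exists_cmpH E hET q hq hqT hqk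
  obtain ⟨l, hl, hl𝔪⟩ := hE
  exact exists_cmp 𝔪 (by rw [hϖ']; exact Ideal.mem_span_singleton_self ϖ) (parSub E hET) Q hQ hQk
    hl𝔪 (fun x => hEP l hl x)

end Fermat.Agent.Ribet
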