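import Fermat.Agent.Ribet.CmpDef
import Fermat.Agent.TW.HMod
import Fermat.Agent.RT8J.Joint
import Fermat.Agent.Cheb.Exist
import Fermat.Agent.Tate.Package
import Fermat.Agent.Cusps.GenusFinal

/-!
# The Eichler–Shimura relation on the localised `k ⊗ J₀(n)[p]`
-/

set_option autoImplicit false
set_option linter.unusedSectionVars false

noncomputable section

open Module IsLocalRing ModularCurve

namespace Fermat.Agent.Ribet

open Fermat.Agent.MzGal Fermat.Agent.TW Fermat.Agent.DefRing Fermat.Agent.Tate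

local notation "Qb" => AlgebraicClosure ℚ

section Points

variable (n : ℕ) [NeZero n] {p : ℕ} [hp : Fact p.Prime]

theorem smul_zero_J (g : GQ) : g • (0 : JZero n) = 0 :=
  map_zero (DistribSMul.toAddMonoidHom (JZero n) g)

theorem smul_nsmul_J (g : GQ) (k : ℕ) (x : JZero n) : g • (k • x) = k • (g • x) :=
  map_nsmul (DistribSMul.toAddMonoidHom (JZero n) g) k x

theorem smul_tors_J {g : GQ} {x : JZero n} (hx : p • x = 0) : p • (g • x) = 0 := by
  rw [← smul_nsmul_J, hx, smul_zero_J]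

/-- Eichler–Shimura in the form `T_ℓ = Φ + ℓ Φ⁻¹` on the `p`-torsion. -/
theorem hecke_tors {ℓ : ℕ} (hℓ : ℓ.Prime) (hℓn : ¬ ℓ ∣ n) (hℓp : ℓ ≠ p)
    {A : ValuationSubring Qb} (hA : A.LiesOverPrime ℓ) {Φ : GQ} (hΦ : A.IsFrobeniusAt Φ ℓ)
    {x : JZero n} (hx : p • x = 0) :
    heckeOperatorBar n ⟨ℓ, hℓ⟩ x = Φ • x + ℓ • (Φ⁻¹ • x) := by
  have h1 := frobJ_of_packages (p := p) (hasPackages_of_genusEq (Cusps.genusEq n)) ℓ hℓ hℓn hℓp
    A hA Φ hΦ (Φ⁻¹ • x) ⟨1, by rw [pow_one]; exact smul_tors_J n hx⟩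
  rw [smul_inv_smul] at h1
  rw [← sub_eq_zero, ← neg_eq_zero, ← h1]
  abel

/-- The `p`-torsion is fixed by an open subgroup. -/
theorem exists_level_tors : ∃ L : IntermediateField ℚ Qb, FiniteDimensional ℚ L ∧
    ∀ σ : GQ, (∀ z ∈ L, σ z = z) → ∀ x : JZero n, p • x = 0 → σ • x = x := by
  obtain ⟨L, hL, h⟩ := (jInput n p {q | q ∣ n} (fun _ _ h => h)
    (frobJ_of_packages (hasPackages_of_genusEq (Cusps.genusEq n)))
    (unrJ_of_packages (hasPackages_of_genusEq (Cusps.genusEq n)))).exists_level 1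
  refine ⟨L, hL, fun σ hσ x hx => h σ hσ x ?_⟩
  rw [pow_one]
  exact hx

end Points

section Loc

variable {m n : ℕ} (hn : n ∣ m) {p : ℕ} [hp : Fact p.Prime] [NeZero n] {O : Type} [CommRing O]
  [IsLocalRing O] {𝔪 : Ideal (TPoly m O)} [𝔪.IsPrime]

/-- the Eichler–Shimura relation on `k ⊗ J₀(n)[p]` -/
theorem galP_add (hpm : p ∣ m) (l : Pr m) {A : ValuationSubring Qb} (hA : A.LiesOverPrime l.1)
    {Φ σ : GQ} (hΦ : A.IsFrobeniusAt Φ l.1) (h : ∀ x : JZero n, p • x = 0 → Φ • x = σ • x)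
    (x : KV m n p O hn) :
    KV.galP σ x + ((l.1 : ℕ) : TPoly m O) • KV.galP σ⁻¹ x = (MvPolynomial.X l : TPoly m O) • x := by
  have h' : ∀ x : JZero n, p • x = 0 → Φ⁻¹ • x = σ⁻¹ • x := by
    intro x hx
    have h1 := h (σ⁻¹ • x) (smul_tors_J n hx)
    rw [smul_inv_smul] at h1
    conv_lhs => rw [← h1]
    rw [inv_smul_smul]
  have hlp : l.1 ≠ p := fun h => l.2.2 (h ▸ hpm)
  refine KV.induction x ?_ (fun a y => ?_) fun x y hx hy => ?_
  · rw [map_zero, map_zero, smul_zero, smul_zero, add_zero]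
  · have h1 : Tj l (y : JZero n) = σ • (y : JZero n) + l.1 • (σ⁻¹ • (y : JZero n)) := by
      have h2 := hecke_tors n l.2.1 (KV.prime_not_dvd hn l) hlp hA hΦ (x := y) y.2
      rw [h _ y.2, h' _ y.2] at h2
      exact h2
    rw [KV.X_smul, Nat.cast_smul_eq_nsmul]
    change KV.tm hn a _ + l.1 • KV.tm hn a _ = KV.tm hn a _
    have h3 : ∀ z : JT n p, l.1 • KV.tm (O := O) hn a z = KV.tm hn a (l.1 • z) := by
      intro z
      exact (map_nsmul (AddMonoidHom.mk' (KV.tm (O := O) hn a) (KV.tm_add_right a)) l.1 z).symm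
    rw [h3, ← KV.tm_add_right]
    congr 1
    exact Subtype.ext h1.symm
  · rw [map_add, map_add, smul_add, smul_add, ← hx, ← hy]
    abel

/-- the Eichler–Shimura relation on the localisation -/
theorem loc_galP_add (hpm : p ∣ m) (l : Pr m) {A : ValuationSubring Qb}
    (hA : A.LiesOverPrime l.1) {Φ σ : GQ} (hΦ : A.IsFrobeniusAt Φ l.1)
    (h : ∀ x : JZero n, p • x = 0 → Φ • x = σ • x) (y : Loc 𝔪 (KV m n p O hn)) :
    Loc.map 𝔪 (KV.galP σ) y + ((l.1 : ℕ) : TPoly m O) • Loc.map 𝔪 (KV.galP σ⁻¹) y =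
      (MvPolynomial.X l : TPoly m O) • y := by
  have h1 : Loc.map 𝔪 (KV.galP (O := O) (hn := hn) (p := p) σ) +
      ((l.1 : ℕ) : TPoly m O) • Loc.map 𝔪 (KV.galP σ⁻¹) =
      (MvPolynomial.X l : TPoly m O) • LinearMap.id := by
    refine Loc.hom_ext fun x => ?_
    rw [LinearMap.add_apply, LinearMap.smul_apply, Loc.map_mk, Loc.map_mk, LinearMap.smul_apply,
      LinearMap.id_apply, ← map_smul, ← map_add, galP_add hn hpm l hA hΦ h, map_smul]
  exact LinearMap.congr_fun h1 y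

/-- the maximal ideal of `O` kills `k ⊗ J₀(n)[p]` -/
theorem KV.smul_eq_zero_of_mem {a : O} (ha : a ∈ maximalIdeal O) (x : KV m n p O hn) :
    a • x = 0 := by
  refine KV.induction x (smul_zero a) (fun b y => ?_) fun x y hx hy => ?_
  · rw [KV.smul_tm, (residue_eq_zero_iff a).mpr ha, zero_mul]
    exact TensorProduct.zero_tmul _ _
  · rw [smul_add, hx, hy, add_zero]

theorem loc_smul_eq_zero_of_mem {P : TPoly m O}
    (hP : P ∈ (maximalIdeal O).map (MvPolynomial.C : O →+* TPoly m O))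
    (y : Loc 𝔪 (KV m n p O hn)) : P • y = 0 := by
  have h1 : (maximalIdeal O).map (MvPolynomial.C : O →+* TPoly m O) ≤
      Module.annihilator (TPoly m O) (Loc 𝔪 (KV m n p O hn)) := by
    rw [Ideal.map_le_iff_le_comap]
    intro a ha
    rw [Ideal.mem_comap, Module.mem_annihilator]
    intro y
    obtain ⟨s, hs, x, hx⟩ := Loc.exists_smul y
    refine Loc.eq_zero_of_smul hs ?_
    rw [smul_comm, hx, ← map_smul, KV.C_smul, KV.smul_eq_zero_of_mem hn ha, map_zero]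
  exact Module.mem_annihilator.mp (h1 hP) y

end Loc

section Mat

/-- The matrix of an element close to `σ`. -/
theorem sub_mem {T : Type} [CommRing T] {r : GQ →* M2 T} {I : Ideal T} {σ τ : GQ}
    (h : ∀ i j, (r (σ⁻¹ * τ) - 1) i j ∈ I) : ∀ i j, r τ i j - r σ i j ∈ I := by
  intro i j
  have h1 : r τ = r σ * r (σ⁻¹ * τ) := by rw [← map_mul, mul_inv_cancel_left]
  have h2 : r τ i j - r σ i j = (r σ * (r (σ⁻¹ * τ) - 1)) i j := by
    rw [mul_sub, mul_one, ← h1, Matrix.sub_apply]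
  rw [h2, Matrix.mul_apply]
  exact I.sum_mem fun k _ => I.mul_mem_left _ (h k j)

theorem trace_sub_mem {T : Type} [CommRing T] {I : Ideal T} {x y : M2 T}
    (h : ∀ i j, x i j - y i j ∈ I) : x.trace - y.trace ∈ I := by
  rw [Matrix.trace_fin_two, Matrix.trace_fin_two, add_sub_add_comm]
  exact I.add_mem (h 0 0) (h 1 1)

theorem det_sub_mem {T : Type} [CommRing T] {I : Ideal T} {x y : M2 T}
    (h : ∀ i j, x i j - y i j ∈ I) : x.det - y.det ∈ I := by
  rw [Matrix.det_fin_two, Matrix.det_fin_two]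
  have e : x 0 0 * x 1 1 - x 0 1 * x 1 0 - (y 0 0 * y 1 1 - y 0 1 * y 1 0) =
      x 1 1 * (x 0 0 - y 0 0) + y 0 0 * (x 1 1 - y 1 1) -
        (x 1 0 * (x 0 1 - y 0 1) + y 0 1 * (x 1 0 - y 1 0)) := by ring
  rw [e]
  exact I.sub_mem (I.add_mem (I.mul_mem_left _ (h 0 0)) (I.mul_mem_left _ (h 1 1)))
    (I.add_mem (I.mul_mem_left _ (h 0 1)) (I.mul_mem_left _ (h 1 0)))

end Mat

section Main

variable {m n : ℕ} (hm0 : m ≠ 0) (hn : n ∣ m) {p : ℕ} [Fact p.Prime] (hpm : p ∣ m) [NeZero n]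
  {O : Type} [CommRing O] [IsDomain O] [IsDiscreteValuationRing O]
  {rbar : GQ →* M2 (ResidueField O)} {sd : SliceData rbar} {𝔪 : Ideal (TPoly m O)} [𝔪.IsPrime]
  (H : HRep (m := m) p n sd (Loc 𝔪 (HG m n hn O)))

/-- an element whose image in the Hecke algebra is divisible by the maximal ideal kills the
localised `k ⊗ J₀(n)[p]` -/
theorem loc_smul_eq_zero (hcmp : CmpHG m n hn p O 𝔪) {P : TPoly m O}
    (hP : H.φ P ∈ (maximalIdeal O).map (algebraMap O H.C.T)) (y : Loc 𝔪 (KV m n p O hn)) :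
    P • y = 0 := by
  have h1 : (maximalIdeal O).map (algebraMap O H.C.T) =
      ((maximalIdeal O).map (MvPolynomial.C : O →+* TPoly m O)).map (H.φ : TPoly m O →+* H.C.T) := by
    rw [Ideal.map_map]
    congr 1
    exact H.φ.comp_algebraMap.symm
  rw [h1, Ideal.mem_map_iff_of_surjective (H.φ : TPoly m O →+* H.C.T) H.surj] at hP
  obtain ⟨P', hP', h2⟩ := hP
  obtain ⟨Q, hQ, -⟩ := hcmp
  obtain ⟨x, rfl⟩ := hQ y
  have h3 : H.φ (P - P') = 0 := by
    rw [map_sub, sub_eq_zero]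
    exact h2.symm
  have h4 : (P - P') • Q x = 0 := by rw [← map_smul, (H.ker _).mp h3 x, map_zero]
  rw [sub_smul, loc_smul_eq_zero_of_mem hn hP', sub_zero] at h4
  exact h4

include hm0 hpm in
/-- **The Eichler–Shimura relation** `σ + det σ⁻¹ = trace σ` on the localised `k ⊗ J₀(n)[p]`,
for all `σ`. -/
theorem es_loc (hcmp : CmpHG m n hn p O 𝔪) (σ : GQ) (y : Loc 𝔪 (KV m n p O hn))
    (t u : TPoly m O) (ht : H.φ t = (H.C.r σ).trace) (hu : H.φ u = (H.C.r σ).det) :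
    Loc.map 𝔪 (KV.galP σ) y + u • Loc.map 𝔪 (KV.galP σ⁻¹) y = t • y := by
  obtain ⟨k, hk⟩ := RT8J.exists_pow_le_map (O := O) (T := H.C.T)
  obtain ⟨L₁, hL₁, h₁⟩ := exists_level_tors n (p := p)
  obtain ⟨L₂, hL₂, h₂⟩ := H.C.cont k
  obtain ⟨l, hl, hlS, -, A, hA, Φ, hΦ, hΦσ⟩ := Cheb.exists_frobenius_eq (L₁ ⊔ L₂)
    inferInstance σ m.divisors
  have hlm : ¬ l ∣ m := fun h => hlS (Nat.mem_divisors.mpr ⟨h, hm0⟩)
  have hfix : ∀ z ∈ L₁ ⊔ L₂, (σ⁻¹ * Φ) z = z := by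
    intro z hz
    rw [AlgEquiv.mul_apply, hΦσ z hz, ← AlgEquiv.mul_apply, inv_mul_cancel, AlgEquiv.one_apply]
  have hpt : ∀ x : JZero n, p • x = 0 → Φ • x = σ • x := by
    intro x hx
    have h3 := h₁ (σ⁻¹ * Φ) (fun z hz => hfix z (le_sup_left (a := L₁) hz)) x hx
    rw [mul_smul, inv_smul_eq_iff] at h3
    exact h3
  have hmat : ∀ i j, H.C.r Φ i j - H.C.r σ i j ∈
      (maximalIdeal O).map (algebraMap O H.C.T) :=
    sub_mem fun i j => hk (h₂ (σ⁻¹ * Φ) (fun z hz => hfix z (le_sup_right (a := L₁) hz)) i j)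
  obtain ⟨htr, hdet⟩ := H.tr ⟨l, hl, hlm⟩ A hA Φ hΦ
  have h5 : ∀ z : Loc 𝔪 (KV m n p O hn), (MvPolynomial.X ⟨l, hl, hlm⟩ : TPoly m O) • z = t • z := by
    intro z
    rw [← sub_eq_zero, ← sub_smul]
    refine loc_smul_eq_zero hn H hcmp ?_ z
    rw [map_sub, ht, ← htr]
    exact trace_sub_mem hmat
  have h6 : ∀ z : Loc 𝔪 (KV m n p O hn), ((l : ℕ) : TPoly m O) • z = u • z := by
    intro z
    rw [← sub_eq_zero, ← sub_smul]
    refine loc_smul_eq_zero hn H hcmp ?_ z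
    rw [map_sub, hu, map_natCast, ← hdet]
    exact det_sub_mem hmat
  rw [← h5, ← h6]
  exact loc_galP_add hn hpm ⟨l, hl, hlm⟩ hA hΦ hpt y

end Main

end Fermat.Agent.Ribet

end
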