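import Fermat.Agent.Ribet.ExMain
import Fermat.Agent.Ribet.ESLoc
import Fermat.Agent.TW.BMod
import Fermat.Agent.RT8.ModMain
import Fermat.Agent.RTan.GX

/-!
# Exactness of `τ - 1` on the base modules of the patching systems
-/

set_option autoImplicit false
set_option linter.unusedSectionVars false
set_option linter.style.haveILetI false

noncomputable section

open AlgebraicCurve Module ModularCurve IsLocalRing

namespace Fermat.Agent.Ribet

open Fermat.Agent.TW Fermat.Agent.RTM Fermat.Agent.DefRing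

variable {O : Type} [CommRing O] [IsDomain O] [IsDiscreteValuationRing O]
  [IsAdicComplete (maximalIdeal O) O] [Finite (ResidueField O)]
  {rbar : GQ →* M2 (ResidueField O)} {sd : SliceData rbar}

/-- **Exactness for the modules of level `Γ₀(N l)`**, in terms of the comparison. -/
theorem exactM_of_cmp (W : WeierstrassCurve ℤ) (hΔ : W.Δ ≠ 0) {n N p m : ℕ} [NeZero n]
    {l : Nat.Primes} (hnl : n = N * l) (hlN : ¬ (l : ℕ) ∣ N) [hp : Fact p.Prime] (hpm : p ∣ m)
    (hp2 : p ≠ 2) (hpO : (p : O) ∈ maximalIdeal O) (h2N : 2 ∣ N) (hl2 : (l : ℕ) ≠ 2) (hm : m ≠ 0)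
    (hn : n ∣ m) (hE : NonEis n (PP W m O)) (hno : ¬ W.IsResiduallyModularOfLevel p N)
    (hspan : Submodule.span (ResidueField O) (Set.range rbar) = ⊤) {φ τ : GQ}
    (hτ : RTan.TameAt p rbar l φ τ) (R : HRep (m := m) p n sd (Loc (PP W m O) (HG m n hn O)))
    (g : ℕ) (hcmp : CmpHG m n hn p O (PP W m O)) :
    RT8.ExactM (bmod hn R g) ((bmod hn R g).C.r τ - 1) := by
  letI := R.modT
  obtain ⟨c, hc, hτc⟩ := hτ.root
  have h1 : ExM O (M := Loc (PP W m O) (HG m n hn O)) (R.C.r τ - 1) :=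
    exM_of hp.out hp2 hpO hspan R hcmp
      (fun σ y t u ht hu => es_loc hm hn hpm R hcmp σ y t u ht hu)
      (fun y hy => exact_W W hΔ hnl l.2 hlN hτ.ne.symm hp2 h2N hl2 hm hn hpO hE hno
        (c := c) hc hτ.mem hτc y hy)
      (fun P x => R.φ_smul P x)
  exact h1.pi (Fin (2 ^ g))

end Fermat.Agent.Ribet
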