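import Fermat.Agent.Ribet.Ineq2

/-!
# Orthogonality: kernel and image of `τ - 1`
-/

set_option autoImplicit false

namespace Fermat.Agent.Ribet

/-- double orthogonal -/
theorem mem_of_perp {V K : Type*} [AddCommGroup V] [Finite V] [Field K]
    (e : V →+ V →+ Additive Kˣ) (hnd : ∀ y, (∀ x, e x y = 0) → y = 0) (R : AddSubgroup V)
    (x : V) (hx : ∀ y, (∀ r ∈ R, e r y = 0) → e x y = 0) : x ∈ R := by
  let P : AddSubgroup V :=
    { carrier := {y | ∀ r ∈ R, e r y = 0}
      zero_mem' := fun r _ => map_zero _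
      add_mem' := fun {a b} ha hb r hr => by rw [map_add, ha r hr, hb r hr, add_zero]
      neg_mem' := fun {a} ha r hr => by rw [map_neg, ha r hr, neg_zero] }
  let Q : AddSubgroup V :=
    { carrier := {x | ∀ y ∈ P, e x y = 0}
      zero_mem' := fun r _ => by simp
      add_mem' := fun {a b} ha hb r hr => by
        rw [map_add, AddMonoidHom.add_apply, ha r hr, hb r hr, add_zero]
      neg_mem' := fun {a} ha r hr => by rw [map_neg, AddMonoidHom.neg_apply, ha r hr, neg_zero] }
  have hRQ : R ≤ Q := fun r hr y hy => hy r hr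
  have h1 : Nat.card V ≤ Nat.card R * Nat.card P := card_le_card_perp e R P fun y hy => hy
  -- `P` embeds in the characters of `V / Q`
  let f : P →+ (V ⧸ Q →+ Additive Kˣ) :=
    { toFun := fun y => QuotientAddGroup.lift Q (e.flip (y : V)) fun x hx => hx y y.2
      map_zero' := by
        ext x
        simp
      map_add' := fun y y' => by
        ext x
        simp }
  have hf : Function.Injective f := by
    rw [injective_iff_map_eq_zero]
    intro y hy
    apply Subtype.ext
    apply hnd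
    intro x
    exact DFunLike.congr_fun hy (x : V ⧸ Q)
  obtain ⟨hfin, hcard⟩ := card_hom_le (H := V ⧸ Q) (K := K)
  have h2 : Nat.card P ≤ Nat.card (V ⧸ Q) := (Nat.card_le_card_of_injective f hf).trans hcard
  have h3 : Nat.card V = Nat.card (V ⧸ Q) * Nat.card Q :=
    AddSubgroup.card_eq_card_quotient_mul_card_addSubgroup Q
  have hPpos : 0 < Nat.card P := Nat.card_pos
  have h4 : Nat.card Q ≤ Nat.card R := by
    refine Nat.le_of_mul_le_mul_left ?_ hPpos
    calc Nat.card P * Nat.card Q ≤ Nat.card (V ⧸ Q) * Nat.card Q := Nat.mul_le_mul_right _ h2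
      _ = Nat.card V := h3.symm
      _ ≤ Nat.card R * Nat.card P := h1
      _ = Nat.card P * Nat.card R := mul_comm _ _
  have h5 : R = Q := AddSubgroup.eq_of_le_of_card_ge hRQ h4
  rw [h5]
  exact fun y hy => hx y hy

/-- **Kernel and image of `τ - 1`**. -/
theorem exists_of_fixed {V K : Type*} [AddCommGroup V] [Finite V] [Field K]
    (e : V →+ V →+ Additive Kˣ) (hnd : ∀ y, (∀ x, e x y = 0) → y = 0)
    (τ π : V →+ V) (hτs : Function.Surjective τ) (hτ : ∀ x y, e (τ x) (τ y) = e x y)
    (hπτ : ∀ x, π (τ x) = τ (π x)) (hππ : ∀ x, π (π x) = π x)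
    (hπ : ∀ x y, e (π x) y = e x (π y)) (N : AddSubgroup V)
    (hN : ∀ x, π x = x → τ x = x → x ∈ N) (hiso : ∀ x ∈ N, ∀ y ∈ N, e x y = 0)
    {x : V} (hx : π x = x) (hx' : τ x = x) : ∃ z, π z = z ∧ τ z - z = x := by
  let D : V →+ V := τ - AddMonoidHom.id V
  have hD : ∀ z, D z = τ z - z := fun z => rfl
  have h1 : x ∈ D.range := by
    refine mem_of_perp e hnd _ x fun y hy => ?_
    have h2 : τ y = y := by
      rw [← sub_eq_zero]
      apply hnd
      intro v
      obtain ⟨w, rfl⟩ := hτs v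
      have h3 : e (D w) y = 0 := hy _ ⟨w, rfl⟩
      rw [hD, map_sub, AddMonoidHom.sub_apply, sub_eq_zero] at h3
      rw [map_sub, hτ, h3, sub_self]
    have h3 : e x y = e x (π y) := by rw [← hπ, hx]
    rw [h3]
    refine hiso x (hN x hx hx') _ (hN _ (hππ y) ?_)
    rw [← hπτ, h2]
  obtain ⟨z, hz⟩ := h1
  refine ⟨π z, hππ z, ?_⟩
  rw [← hπτ, ← map_sub, ← hD, hz, hx]

end Fermat.Agent.Ribet
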