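import Fermat.Agent.Ribet.NNTower
import Fermat.Agent.Ribet.Perp
import Fermat.Agent.BaseChangeFF.Divisible

/-!
# Divisibility of the toric part
-/

set_option autoImplicit false
set_option linter.unusedSectionVars false

noncomputable section

open AlgebraicCurve Module

namespace Fermat.Agent.Ribet

open Fermat.Agent.FunField Fermat.Agent.FunField.PlaceLemmas Fermat.Agent.BadRed
  Fermat.Agent.Degen Fermat.Agent.HeckeRed Fermat.Agent.WeilPairing

attribute [local instance] Fermat.Agent.WeilPairing.isCurveOver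

section Weil

variable {L F : Type} [Field L] [IsAlgClosed L] [CharZero L] [Field F] [Algebra L F] [IsFF L F]

theorem mem_tors {n : ℕ} {x : Pic0 L F} : x ∈ Pic0.torsion L F n ↔ n • x = 0 := by
  rw [Pic0.mem_torsion, natCast_zsmul]

theorem card_tors {n : ℕ} (hn : 0 < n) :
    Nat.card (Pic0.torsion L F n) = n ^ (2 * genusFF L F) := by
  have h1 := Fermat.Agent.BaseChangeFF.natCard_torsion_of_complex
    (fun E _ _ _ _ n hn => Fermat.Agent.S27C.natCard_torsion_complex n hn) L F n hn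
  rw [← h1]
  refine Nat.card_congr (Equiv.subtypeEquivRight fun x => ?_)
  exact Pic0.mem_torsion

theorem finite_tors {n : ℕ} (hn : 0 < n) : Finite (Pic0.torsion L F n) := by
  apply Nat.finite_of_card_ne_zero
  rw [card_tors hn]
  exact (pow_pos hn _).ne'

/-- right nondegeneracy -/
theorem weil_nondeg_right {n : ℕ} (hn : 0 < n) {y : Pic0 L F} (hy : n • y = 0)
    (h : ∀ x : Pic0 L F, n • x = 0 → weil n x y = 1) : y = 0 := by
  refine weil_nondeg (n := n) (Nat.cast_ne_zero.mpr hn.ne')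
    (fun F' _ _ _ c => BaseChangeFF.pic0_divisible L F' n hn c) hy fun x hx => ?_
  rw [weil_symm hx hy, h x hx, inv_one]

/-- left nondegeneracy -/
theorem weil_nondeg_left {n : ℕ} (hn : 0 < n) {y : Pic0 L F} (hy : n • y = 0)
    (h : ∀ x : Pic0 L F, n • x = 0 → weil n y x = 1) : y = 0 :=
  weil_nondeg (n := n) (Nat.cast_ne_zero.mpr hn.ne')
    (fun F' _ _ _ c => BaseChangeFF.pic0_divisible L F' n hn c) hy h

theorem smul_tors (s : SemilinearAut L F) {n : ℕ} {x : Pic0 L F} (hx : n • x = 0) :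
    n • (s • x) = 0 := by
  have h := map_nsmul (DistribSMul.toAddMonoidHom (Pic0 L F) s) n x
  rw [hx, map_zero] at h
  exact h.symm

/-- `s` acts on the torsion -/
def actT (s : SemilinearAut L F) (n : ℕ) : Pic0.torsion L F n →+ Pic0.torsion L F n where
  toFun x := ⟨s • (x : Pic0 L F), mem_tors.mpr (smul_tors s (mem_tors.mp x.2))⟩
  map_zero' := Subtype.ext (smul_zero s)
  map_add' x y := Subtype.ext (smul_add s _ _)

@[simp] theorem coe_actT (s : SemilinearAut L F) (n : ℕ) (x : Pic0.torsion L F n) :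
    (actT s n x : Pic0 L F) = s • (x : Pic0 L F) := rfl

/-- the adjoint of the square of a Frobenius -/
theorem weil_adj {n r : ℕ} (s : SemilinearAut L F)
    (hs : ∀ ζ : Lˣ, ζ ^ n = 1 →
      Units.map (SemilinearAut.baseAut s).toRingHom.toMonoidHom ζ = ζ ^ r)
    {x y : Pic0 L F} (hx : n • x = 0) (hy : n • y = 0) :
    weil n (s • s • x) y = weil n x (r ^ 2 • (s⁻¹ • s⁻¹ • y)) := by
  have hy1 := smul_tors s⁻¹ hy
  have hy2 := smul_tors s⁻¹ hy1
  have h1 : y = s • s • s⁻¹ • s⁻¹ • y := by rw [smul_inv_smul, smul_inv_smul]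
  have hz1 : (weil n x (s⁻¹ • s⁻¹ • y)) ^ n = 1 := weil_pow hx hy2
  conv_lhs => rw [h1]
  rw [weil_smul s (smul_tors s hx) (smul_tors s hy2), weil_smul s hx hy2,
    weil_nsmul_right hx hy2]
  have e1 := hs _ hz1
  erw [e1, map_pow, e1]
  rw [← pow_mul, pow_two]

/-- equality of the orders of the kernels of `Φ ^ 2 - 1` and `Φ ^ 2 - r ^ 2`. -/
theorem card_E_le {n r : ℕ} (hn : 0 < n) (s : SemilinearAut L F)
    (hs : ∀ ζ : Lˣ, ζ ^ n = 1 →
      Units.map (SemilinearAut.baseAut s).toRingHom.toMonoidHom ζ = ζ ^ r)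
    (E₁ E₂ : AddSubgroup (Pic0 L F)) (hE₁ : ∀ x, x ∈ E₁ ↔ x ∈ Pic0.torsion L F n ∧ s • s • x = x)
    (hE₂ : ∀ x, x ∈ E₂ ↔ x ∈ Pic0.torsion L F n ∧ s • s • x = r ^ 2 • x) :
    Nat.card E₁ ≤ Nat.card E₂ := by
  have hfin := finite_tors (L := L) (F := F) hn
  let u : Pic0.torsion L F n →+ Pic0.torsion L F n :=
    (actT s n).comp (actT s n) - AddMonoidHom.id _
  let u' : Pic0.torsion L F n →+ Pic0.torsion L F n :=
    r ^ 2 • ((actT s⁻¹ n).comp (actT s⁻¹ n)) - AddMonoidHom.id _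
  have hu : ∀ x, ((u x : Pic0.torsion L F n) : Pic0 L F) = s • s • (x : Pic0 L F) - x :=
    fun x => rfl
  have hu' : ∀ x, ((u' x : Pic0.torsion L F n) : Pic0 L F) =
      r ^ 2 • (s⁻¹ • s⁻¹ • (x : Pic0 L F)) - x := fun x => rfl
  have h := card_ker_le (V := Pic0.torsion L F n) (weilPairing L F n) u u' (by
    intro x y
    have hx := mem_tors.mp x.2
    have hy := mem_tors.mp y.2
    rw [weilPairing_apply, weilPairing_apply, hu, hu', sub_eq_add_neg, sub_eq_add_neg]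
    have h1 : n • (-(x : Pic0 L F)) = 0 := by rw [neg_nsmul, hx, neg_zero]
    have h2 : n • (-(y : Pic0 L F)) = 0 := by rw [neg_nsmul, hy, neg_zero]
    have h3 : n • (r ^ 2 • (s⁻¹ • s⁻¹ • (y : Pic0 L F))) = 0 := by
      rw [nsmul_left_comm, smul_tors s⁻¹ (smul_tors s⁻¹ hy), nsmul_zero]
    rw [weil_add_left (smul_tors s (smul_tors s hx)) h1 hy, weil_add_right hx h3 h2,
      weil_neg_left hx hy, weil_neg_right hx hy, weil_adj s hs hx hy]) (by
    intro y hy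
    apply Subtype.ext
    refine weil_nondeg_right hn (mem_tors.mp y.2) fun x hx => ?_
    have := hy ⟨x, mem_tors.mpr hx⟩
    rw [weilPairing_apply] at this
    exact this)
  have e1 : Nat.card E₁ ≤ Nat.card u.ker := by
    refine Nat.card_le_card_of_injective
      (fun x : E₁ => (⟨⟨x.1, ((hE₁ _).mp x.2).1⟩, ?_⟩ : u.ker)) ?_
    · rw [AddMonoidHom.mem_ker]
      apply Subtype.ext
      rw [hu]
      exact sub_eq_zero.mpr ((hE₁ _).mp x.2).2
    · intro x y hxy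
      exact Subtype.ext (congrArg (fun z : u.ker => ((z : Pic0.torsion L F n) : Pic0 L F)) hxy)
  have e2 : Nat.card u'.ker ≤ Nat.card E₂ := by
    have := Finite.of_injective (fun x : E₂ => (⟨x.1, ((hE₂ _).mp x.2).1⟩ : Pic0.torsion L F n))
      (fun x y hxy => Subtype.ext
        (congrArg (fun z : Pic0.torsion L F n => (z : Pic0 L F)) hxy))
    refine Nat.card_le_card_of_injective
      (fun x : u'.ker => (⟨x.1.1, ?_⟩ : E₂)) ?_
    · rw [hE₂]
      refine ⟨x.1.2, ?_⟩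
      have h1 := congrArg Subtype.val (AddMonoidHom.mem_ker.mp x.2)
      rw [hu'] at h1
      have h2 := sub_eq_zero.mp h1
      conv_lhs => rw [← h2]
      have h3 : ∀ (t : SemilinearAut L F) (z : Pic0 L F), t • (r ^ 2 • z) = r ^ 2 • (t • z) :=
        fun t z => map_nsmul (DistribSMul.toAddMonoidHom (Pic0 L F) t) (r ^ 2) z
      rw [h3, h3, smul_inv_smul, smul_inv_smul]
    · intro x y hxy
      exact Subtype.ext (Subtype.ext (congrArg (fun z : E₂ => (z : Pic0 L F)) hxy))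
  exact e1.trans (h.trans e2)

end Weil

section Main

variable {L k : Type} [Field L] [Field k] [IsAlgClosed L] [IsAlgClosed k] [CharZero L]
variable {F F₀ F₁ : Type} [Field F] [Field F₀] [Field F₁] [Algebra L F] [Algebra L F₀]
  [Algebra k F₁] [IsFF L F] [IsFF L F₀] [IsFF k F₁]
  {T : TwoVal L k F F₁} {P : FrobPencil T.toRData}
  (H : FrobPencil.Hyp P (genusFF L F) (genusFF L F₀))
  {φ : F₁ ≃+* F₁} (ND : T.NormDat F₀ φ) (α β : F₀ →ₐ[L] F)
  (hNα : ∀ f, ND.Nα f = normAlong α f) (hNβ : ∀ f, ND.Nβ f = normAlong β f)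
  (γ : TwoVal.GalV T) (hγ : ∀ a, γ.σ a = φ a) (γ₀ : SemilinearAut L F₀)
  (hα : ∀ x, pushPic α (γ.g • x) = γ₀ • pushPic α x)
  (hβ : ∀ x, pushPic β (γ.g • x) = γ₀ • pushPic β x)
  {q r : ℕ} (hq : q.Prime) (hqk : (q : k) ≠ 0) (hr : 2 ≤ r)
  (hcyc : ∀ (M : ℕ) (ζ : Lˣ), ζ ^ (q ^ M) = 1 →
    Units.map (SemilinearAut.baseAut γ.g).toRingHom.toMonoidHom ζ = ζ ^ r)
  {d : ℕ} (hd : 0 < d) (hW : ∀ (b : ℕ) (y : Pic0 L F₀), q ^ b • y = 0 →
    γ₀ • γ₀ • y = r ^ 2 • y → d • y = 0)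

include H hNα hNβ hγ hα hβ hq hqk hr hcyc hd hW

/-- **The lower bound.** -/
theorem exists_ge {t : ℕ} (ht : genusFF L F = 2 * genusFF L F₀ + t) :
    ∃ C : ℕ, ∀ b, (q ^ b) ^ (2 * t) ≤ C * q ^ b * Nat.card (T.NN (q ^ b)) ^ 2 := by
  have hr2 : 0 < r ^ 2 - 1 := by
    have : 2 ^ 2 ≤ r ^ 2 := Nat.pow_le_pow_left hr 2
    omega
  have hfW := finite_tors (L := L) (F := F₀) hd
  have hfZ := finite_tors (L := L) (F := F) hr2
  refine ⟨Nat.card (Pic0.torsion L F₀ d) * Nat.card (Pic0.torsion L F₀ d) *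
    Nat.card (Pic0.torsion L F (r ^ 2 - 1)), fun b => ?_⟩
  have hn : 0 < q ^ b := pow_pos hq.pos b
  have hfV := finite_tors (L := L) (F := F) hn
  have hfV₁ := finite_tors (L := L) (F := F₀) hn
  have hNfin : Finite (T.NN (q ^ b)) := (tower_NN H hq hqk).fin b
  let Φ : Pic0 L F →+ Pic0 L F := DistribSMul.toAddMonoidHom (Pic0 L F) γ.g
  let Φ₁ : Pic0 L F₀ →+ Pic0 L F₀ := DistribSMul.toAddMonoidHom (Pic0 L F₀) γ₀
  let E₁ : AddSubgroup (Pic0 L F) :=
    Pic0.torsion L F (q ^ b) ⊓ (Φ.comp Φ - AddMonoidHom.id _).ker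
  let E₂ : AddSubgroup (Pic0 L F) :=
    Pic0.torsion L F (q ^ b) ⊓ (Φ.comp Φ - r ^ 2 • AddMonoidHom.id _).ker
  have hE₁ : ∀ x, x ∈ E₁ ↔ x ∈ Pic0.torsion L F (q ^ b) ∧ γ.g • γ.g • x = x := by
    intro x
    rw [AddSubgroup.mem_inf, AddMonoidHom.mem_ker]
    exact and_congr_right fun _ => sub_eq_zero
  have hE₂ : ∀ x, x ∈ E₂ ↔ x ∈ Pic0.torsion L F (q ^ b) ∧ γ.g • γ.g • x = r ^ 2 • x := by
    intro x
    rw [AddSubgroup.mem_inf, AddMonoidHom.mem_ker]
    exact and_congr_right fun _ => sub_eq_zero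
  have key := ge_of_frob (J := Pic0 L F) (J₁ := Pic0 L F₀) (l := r) hn ht
    (Pic0.torsion L F (q ^ b)) (card_tors hn) (Pic0.torsion L F₀ (q ^ b)) (card_tors hn)
    Φ Φ₁ (pushPic α) (pushPic β)
    (fun x hx => by
      rw [mem_tors] at hx ⊢
      rw [← map_nsmul, hx, map_zero])
    (fun x hx => by
      rw [mem_tors] at hx ⊢
      rw [← map_nsmul, hx, map_zero])
    hα hβ (T.NN (q ^ b))
    (fun x hx h1 h2 => TwoVal.smul_smul_sub_mem_NN ND α β hNα hNβ γ hγ hn.ne' hx h1 h2)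
    (Pic0.torsion L F₀ d)
    (fun y hy h1 => mem_tors.mpr (hW b y (mem_tors.mp hy) h1)) le_rfl
    E₁ E₂ hE₁ hE₂ (card_E_le hn γ.g (hcyc b) E₁ E₂ hE₁ hE₂)
    (Pic0.torsion L F (r ^ 2 - 1))
    (fun x _ hx => by
      rw [mem_tors]
      have h1 : (r ^ 2 - 1) • x + x = x := by
        conv_rhs => rw [← hx]
        rw [← succ_nsmul, Nat.sub_add_cancel (by
          have : 1 ≤ r ^ 2 := Nat.one_le_pow _ _ (by omega)
          exact this)]
      exact add_eq_right.mp h1) le_rfl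
  refine key.trans ?_
  have h1 : 1 ≤ q ^ b := hn
  refine Nat.mul_le_mul_right _ ?_
  exact Nat.le_mul_of_pos_right _ hn

/-- **Divisibility of the toric part.** -/
theorem exists_div_NN (b : ℕ) {x : Pic0 L F} (hx : x ∈ T.NN (q ^ 1)) :
    ∃ y ∈ T.NN (q ^ (b + 1)), q ^ b • y = x := by
  have hT := tower_NN H hq hqk
  have hstr := (P.structure_fibre H.hRR H.hRR₁ H.hpos).2.1
  have hle : ∀ b, Nat.card (T.NN (q ^ b)) ≤ (q ^ b) ^ (Nat.card P.Pt - 1) := fun b =>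
    (TwoVal.card_NN_le H (by rw [Nat.cast_pow]; exact pow_ne_zero b hqk)).2
  rcases Nat.eq_zero_or_pos (Nat.card P.Pt) with h0 | hpos
  · have h1 := hle 1
    rw [h0] at h1
    have hf : Finite (T.NN (q ^ 1)) := hT.fin 1
    have h2 : Subsingleton (T.NN (q ^ 1)) :=
      Finite.card_le_one_iff_subsingleton.mp (by simpa using h1)
    have h3 : x = 0 := by
      have := h2.elim (⟨x, hx⟩ : T.NN (q ^ 1)) 0
      exact congrArg Subtype.val this
    exact ⟨0, (T.NN _).zero_mem, by rw [smul_zero, h3]⟩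
  · have ht : genusFF L F = 2 * genusFF L F₀ + (Nat.card P.Pt - 1) := by
      omega
    obtain ⟨C, hC⟩ := exists_ge H ND α β hNα hNβ γ hγ γ₀ hα hβ hq hqk hr hcyc hd hW ht
    exact hT.exists_div hq hle hC b hx

/-- **Isotropy of the toric part.** -/
theorem weil_NN (hPr : P.r = r) (hγ' : ∀ a, γ.σ a = P.φ a) (ht : γ.g • (P.t : F) = P.t)
    {x y : Pic0 L F}
    (hx : x ∈ T.NN q) (hy : y ∈ T.NN q) : weil q x y = 1 := by
  have hT := tower_NN H hq hqk
  have hr4 : 0 < r ^ 4 - r ^ 2 := by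
    have h1 : r ^ 2 < r ^ 4 := Nat.pow_lt_pow_right (by omega) (by norm_num)
    omega
  obtain ⟨c, hc⟩ : ∃ c, ¬ q ^ (c + 1) ∣ r ^ 4 - r ^ 2 := by
    refine ⟨r ^ 4 - r ^ 2, fun h => ?_⟩
    have h1 := Nat.le_of_dvd hr4 h
    have h2 : r ^ 4 - r ^ 2 + 1 < q ^ (r ^ 4 - r ^ 2 + 1) := Nat.lt_pow_self hq.one_lt
    omega
  have hx' : x ∈ T.NN (q ^ 1) := by rwa [pow_one]
  have hy' : y ∈ T.NN (q ^ 1) := by rwa [pow_one]
  have hfrob : ∀ z ∈ T.NN (q ^ (c + 1)), γ.g • γ.g • z = r ^ 2 • z := fun z hz => by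
    rw [TwoVal.frob_sq H (by rw [Nat.cast_pow]; exact pow_ne_zero _ hqk) γ hγ' ht hz, hPr, pow_two]
  exact weil_eq_one_of_div (fun b => T.NN (q ^ b)) (fun b x hx => hT.tor b x hx)
    (fun b x hx => exists_div_NN H ND α β hNα hNβ γ hγ γ₀ hα hβ hq hqk hr hcyc hd hW b hx)
    (fun x hx y hy => weil_pow_of_frob hq γ.g (hcyc (c + 1)) hc (by omega) (hT.tor _ _ hx)
      (hT.tor _ _ hy) (hfrob x hx) (hfrob y hy)) hx' hy'

end Main

end Fermat.Agent.Ribet
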