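import Mathlib.RingTheory.Artinian.Ring
import Mathlib.RingTheory.Ideal.IdempotentFG
import Mathlib.RingTheory.Ideal.Maximal
import Mathlib.Algebra.Module.Torsion.Basic
import Mathlib.Tactic.LinearCombination

/-!
# Idempotents attached to maximal ideals, for finite modules
-/

set_option autoImplicit false

namespace Fermat.Agent.Ribet

theorem exists_idem_ring {B : Type*} [CommRing B] [Finite B] (𝔪 : Ideal B) :
    ∃ (f : B) (k : ℕ), f * f = f ∧ 𝔪 ^ (k + 1) = Ideal.span {f} := by
  have hA : IsArtinianRing B := inferInstance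
  have hN : IsNoetherianRing B := inferInstance
  let F : ℕ →o (Ideal B)ᵒᵈ := ⟨fun k => OrderDual.toDual (𝔪 ^ k), fun a b h =>
    Ideal.pow_le_pow_right h⟩
  obtain ⟨k, hk⟩ := IsArtinian.monotone_stabilizes F
  have hk' : ∀ j, k ≤ j → 𝔪 ^ k = 𝔪 ^ j := fun j hj => hk j hj
  have h1 : IsIdempotentElem (𝔪 ^ (k + 1)) := by
    show 𝔪 ^ (k + 1) * 𝔪 ^ (k + 1) = 𝔪 ^ (k + 1)
    rw [← pow_add, ← hk' (k + 1) (by omega), ← hk' _ (by omega)]
  have hfg : (𝔪 ^ (k + 1)).FG := IsNoetherian.noetherian _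
  obtain ⟨f, hf, hf'⟩ := (Ideal.isIdempotentElem_iff_of_fg _ hfg).mp h1
  exact ⟨f, k, hf, hf'⟩

theorem finite_quot_ann {R V : Type*} [CommRing R] [AddCommGroup V] [Module R V] [Finite V] :
    Finite (R ⧸ Module.annihilator R V) := by
  let f : R ⧸ Module.annihilator R V → (V → V) := fun b => Quotient.liftOn' b
    (fun r x => r • x) (fun r s h => by
      funext x
      have h1 : r - s ∈ Module.annihilator R V := by
        have := (Submodule.quotientRel_def _).mp h
        exact this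
      have h2 := Module.mem_annihilator.mp h1 x
      rw [sub_smul, sub_eq_zero] at h2
      exact h2)
  refine Finite.of_injective f fun b c hbc => ?_
  obtain ⟨r, rfl⟩ := Ideal.Quotient.mk_surjective b
  obtain ⟨s, rfl⟩ := Ideal.Quotient.mk_surjective c
  rw [Ideal.Quotient.mk_eq_mk_iff_sub_mem, Module.mem_annihilator]
  intro x
  rw [sub_smul, sub_eq_zero]
  exact congrFun hbc x

/-- **The idempotent of a maximal ideal.** -/
theorem exists_idem {R V : Type*} [CommRing R] [AddCommGroup V] [Module R V] [Finite V]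
    (𝔪 : Ideal R) [h𝔪 : 𝔪.IsMaximal] :
    ∃ (e : R) (k : ℕ), (∀ x : V, e • e • x = e • x) ∧
      (∀ t ∈ 𝔪 ^ k, ∀ x : V, t • e • x = 0) ∧
      (∀ s ∉ 𝔪, ∀ x : V, e • x = x → s • x = 0 → x = 0) ∧
      ∀ x : V, ∃ s ∉ 𝔪, s • (x - e • x) = 0 := by
  let I := Module.annihilator R V
  have hfin : Finite (R ⧸ I) := finite_quot_ann
  obtain ⟨f, k, hf, hk⟩ := exists_idem_ring (𝔪.map (Ideal.Quotient.mk I))
  obtain ⟨f, rfl⟩ := Ideal.Quotient.mk_surjective f
  have hann : ∀ t : R, Ideal.Quotient.mk I t = 0 → ∀ x : V, t • x = 0 := fun t ht x =>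
    Module.mem_annihilator.mp (Ideal.Quotient.eq_zero_iff_mem.mp ht) x
  have h2 : ∀ t ∈ 𝔪 ^ (k + 1), ∀ x : V, t • (1 - f) • x = 0 := by
    intro t ht x
    rw [smul_smul]
    refine hann _ ?_ x
    have h3 : Ideal.Quotient.mk I t ∈ Ideal.span {Ideal.Quotient.mk I f} := by
      rw [← hk, ← Ideal.map_pow]
      exact Ideal.mem_map_of_mem _ ht
    rw [Ideal.mem_span_singleton] at h3
    obtain ⟨c, hc⟩ := h3
    rw [map_mul, map_sub, map_one, hc]
    linear_combination (-c) * hf
  refine ⟨1 - f, k + 1, fun x => ?_, h2, fun s hs x hx hsx => ?_, fun x => ?_⟩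
  · rw [smul_smul, ← sub_eq_zero, ← sub_smul]
    refine hann _ ?_ x
    rw [map_sub, map_mul, map_sub, map_one]
    linear_combination hf
  · have hco : IsCoprime (Ideal.span {s}) (𝔪 ^ (k + 1)) := by
      apply IsCoprime.pow_right
      rw [Ideal.isCoprime_iff_sup_eq]
      refine h𝔪.1.2 _ (lt_of_le_of_ne le_sup_right fun h => hs ?_)
      rw [h]
      exact Ideal.mem_sup_left (Ideal.mem_span_singleton_self s)
    rw [Ideal.isCoprime_iff_sup_eq, Ideal.eq_top_iff_one, Submodule.mem_sup] at hco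
    obtain ⟨y, hy, t, ht, hyt⟩ := hco
    obtain ⟨u, rfl⟩ := Ideal.mem_span_singleton'.mp hy
    calc x = (1 : R) • x := (one_smul _ _).symm
      _ = (u * s) • x + t • x := by rw [← hyt, add_smul]
      _ = 0 := by
        rw [mul_smul, hsx, smul_zero, zero_add]
        conv_lhs => rw [← hx]
        exact h2 t ht x
  · by_cases hI : I ≤ 𝔪
    · refine ⟨1 - f, fun h => ?_, ?_⟩
      · have h3 : Ideal.Quotient.mk I f ∈ 𝔪.map (Ideal.Quotient.mk I) := by
          have h4 : Ideal.Quotient.mk I f ∈ (𝔪.map (Ideal.Quotient.mk I)) ^ (k + 1) := by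
            rw [hk]; exact Ideal.mem_span_singleton_self _
          exact Ideal.pow_le_self (Nat.succ_ne_zero k) h4
        have h4 : f ∈ 𝔪 := by
          have h5 : f ∈ (𝔪.map (Ideal.Quotient.mk I)).comap (Ideal.Quotient.mk I) := h3
          rw [Ideal.comap_map_of_surjective _ Ideal.Quotient.mk_surjective,
            ← RingHom.ker_eq_comap_bot, Ideal.mk_ker, sup_eq_left.mpr hI] at h5
          exact h5
        have h5 := 𝔪.add_mem h h4
        rw [sub_add_cancel] at h5
        exact h𝔪.ne_top ((Ideal.eq_top_iff_one _).mpr h5)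
      · have e1 : x - (1 - f) • x = f • x := by rw [sub_smul, one_smul, sub_sub_cancel]
        rw [e1, smul_smul]
        refine hann _ ?_ x
        rw [map_mul, map_sub, map_one]
        linear_combination (-1 : R ⧸ I) * hf
    · obtain ⟨s, hs, hs'⟩ := SetLike.not_le_iff_exists.mp hI
      exact ⟨s, hs', Module.mem_annihilator.mp hs _⟩

end Fermat.Agent.Ribet
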