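import Fermat.Agent.Ribet.Perp
import Fermat.Agent.Ribet.Div
import Fermat.Agent.Ribet.Idem
import Fermat.Agent.MazLQ.Adj
import Fermat.Agent.QuadRep.RootsOfUnity
import Fermat.Agent.TW.Hecke

/-!
# Exactness of `τ - 1` on the localised `p`-torsion of `J₀(M)`
-/

set_option autoImplicit false
set_option linter.unusedSectionVars false
set_option linter.style.haveILetI false

noncomputable section

open AlgebraicCurve Module ModularCurve

namespace Fermat.Agent.Ribet

open Fermat.Agent.FunField Fermat.Agent.WeilPairing Fermat.Agent.MzGal Fermat.Agent.TW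

local notation "Qb" => AlgebraicClosure ℚ
local notation "Γ" => (AlgebraicClosure ℚ ≃ₐ[ℚ] AlgebraicClosure ℚ)

variable {M m : ℕ} [NeZero M] (hm : ∀ q : ℕ, q.Prime → q ∣ M → q ∣ m)

/-- the good prime attached to an index -/
def prG (l : Pr m) : GoodPrime M := ⟨⟨l.1, l.2.1⟩, fun h => l.2.2 (hm l.1 l.2.1 h)⟩

/-- restriction to the primes not dividing `m` -/
def ren : TPoly m ℤ →+* HRing M := (MvPolynomial.rename (prG hm)).toRingHom

theorem ren_X (l : Pr m) : ren hm (MvPolynomial.X l) = genT M (prG hm l) :=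
  MvPolynomial.rename_X _ _

theorem ren_C (a : ℤ) : ren hm (MvPolynomial.C a) = MvPolynomial.C a :=
  MvPolynomial.rename_C _ _

/-- the Hecke operator -/
abbrev Tj (l : Pr m) : JZero M →+ JZero M :=
  (heckeOperatorBar M ⟨l.1, l.2.1⟩ : Module.End ℤ (JZero M)).toAddMonoidHom

theorem ren_X_smul (l : Pr m) (x : JZero M) :
    ren hm (MvPolynomial.X l) • x = Tj l x := by
  rw [ren_X, genT_smul]
  rfl

theorem ren_int_smul (a : ℤ) (x : JZero M) : ren hm (MvPolynomial.C a) • x = a • x := by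
  rw [ren_C, C_smul]

theorem ren_sub_smul (l : Pr m) (a : ℤ) (x : JZero M) :
    ren hm (MvPolynomial.X l - MvPolynomial.C a) • x = Tj l x - a • x := by
  rw [map_sub, sub_smul, ren_X_smul, ren_int_smul]

theorem ren_smul_gal (t : TPoly m ℤ) (σ : Γ) (x : JZero M) :
    ren hm t • (σ • x) = σ • (ren hm t • x) := (smul_comm σ (ren hm t) x).symm

/-- **Local data** at a prime exactly dividing the level. -/
structure LocDat (p m : ℕ) (A : ValuationSubring Qb) (NN Z : AddSubgroup (JZero M)) {C : Type}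
    [AddCommGroup C] (sp : Z →+ C × C) (Tc : Pr m → C →+ C) : Prop where
  iso : ∀ x ∈ NN, ∀ y ∈ NN, weil p x y = 1
  ker : ∀ z : Z, sp z = 0 → (z : JZero M) ∈ NN
  stab : ∀ (l : Pr m) (z : Z), ∃ h : Tj l (z : JZero M) ∈ Z,
    sp ⟨Tj l (z : JZero M), h⟩ = (Tc l (sp z).1, Tc l (sp z).2)
  eis : ∀ (l : Pr m) (y : JZero M), p • y = 0 → (∀ σ ∈ A.inertiaSubgroupIn ℚ, σ • y = y) →
    Tj l y - (l.1 + 1) • y ∈ Z

section Main

variable {p : ℕ} {A : ValuationSubring Qb} {NN Z : AddSubgroup (JZero M)} {C : Type}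
    [AddCommGroup C] {sp : Z →+ C × C} {Tc : Pr m → C →+ C} (D : LocDat p m A NN Z sp Tc)
    (𝔪 : Ideal (TPoly m ℤ)) [h𝔪 : 𝔪.IsMaximal] (a : Pr m → ℤ)
    (ha : ∀ l, (MvPolynomial.X l - MvPolynomial.C (a l) : TPoly m ℤ) ∈ 𝔪)
    (hne : ∃ l : Pr m, (MvPolynomial.X l - MvPolynomial.C ((l.1 : ℤ) + 1) : TPoly m ℤ) ∉ 𝔪)
    (hno : ∀ c : C, p • c = 0 → (∀ l, Tc l c = a l • c) → c = 0)

include D ha hne hno

theorem mem_Z_of_pow (k : ℕ) : ∀ x : JZero M, p • x = 0 →
    (∀ σ ∈ A.inertiaSubgroupIn ℚ, σ • x = x) → (∀ t ∈ 𝔪 ^ k, ren hm t • x = 0) →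
    ∃ h : x ∈ Z, sp ⟨x, h⟩ = 0 := by
  obtain ⟨l₀, hl₀⟩ := hne
  induction k with
  | zero =>
    intro x _ _ hk
    have h1 := hk 1 (by rw [pow_zero, Ideal.one_eq_top]; exact Submodule.mem_top)
    rw [map_one, one_smul] at h1
    subst h1
    exact ⟨Z.zero_mem, map_zero sp⟩
  | succ k ih =>
    intro x hx hσ hk
    -- membership in `Z`
    set s : TPoly m ℤ := MvPolynomial.X l₀ - MvPolynomial.C ((l₀.1 : ℤ) + 1) with hs
    have hco : IsCoprime (Ideal.span {s}) (𝔪 ^ (k + 1)) := by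
      apply IsCoprime.pow_right
      rw [Ideal.isCoprime_iff_sup_eq]
      refine h𝔪.1.2 _ (lt_of_le_of_ne le_sup_right fun h => hl₀ ?_)
      rw [h]
      exact Ideal.mem_sup_left (Ideal.mem_span_singleton_self s)
    rw [Ideal.isCoprime_iff_sup_eq, Ideal.eq_top_iff_one, Submodule.mem_sup] at hco
    obtain ⟨y, hy, t, ht, hyt⟩ := hco
    obtain ⟨u, rfl⟩ := Ideal.mem_span_singleton'.mp hy
    have hxs : ren hm s • (ren hm u • x) = x := by
      have h1 : ren hm (u * s) • x + ren hm t • x = x := by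
        rw [← add_smul, ← map_add, hyt, map_one, one_smul]
      rw [hk t ht, add_zero, map_mul] at h1
      rw [smul_smul, mul_comm]
      exact h1
    have hux : p • (ren hm u • x) = 0 := MazLQ.hsmul_tors _ hx
    have huσ : ∀ σ ∈ A.inertiaSubgroupIn ℚ, σ • (ren hm u • x) = ren hm u • x := fun σ hσ' => by
      rw [← ren_smul_gal, hσ σ hσ']
    have hxZ : x ∈ Z := by
      have h1 := D.eis l₀ _ hux huσ
      rw [hs, ren_sub_smul] at hxs
      rw [← hxs]
      have h2 : ((l₀.1 : ℤ) + 1) • (ren hm u • x) = (l₀.1 + 1) • (ren hm u • x) := by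
        rw [← natCast_zsmul]
        push_cast
        rfl
      rw [h2]
      exact h1
    refine ⟨hxZ, ?_⟩
    -- the specialisation is an eigenclass
    have key : ∀ l : Pr m, ∃ h : Tj l x ∈ Z, sp ⟨Tj l x, h⟩ = a l • sp ⟨x, hxZ⟩ := by
      intro l
      obtain ⟨h1, h2⟩ := ih (ren hm (MvPolynomial.X l - MvPolynomial.C (a l)) • x)
        (MazLQ.hsmul_tors _ hx) (fun σ hσ' => by rw [← ren_smul_gal, hσ σ hσ'])
        (fun t ht => by
          rw [smul_smul, ← map_mul]
          refine hk _ ?_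
          rw [pow_succ]
          exact Ideal.mul_mem_mul ht (ha l))
      obtain ⟨h3, h4⟩ := D.stab l ⟨x, hxZ⟩
      refine ⟨h3, ?_⟩
      have h5 : (⟨_, h1⟩ : Z) = ⟨Tj l x, h3⟩ - a l • ⟨x, hxZ⟩ := by
        apply Subtype.ext
        rw [AddSubgroup.coe_sub, AddSubgroup.coe_zsmul]
        exact ren_sub_smul hm l (a l) x
      rw [h5, map_sub, map_zsmul, sub_eq_zero] at h2
      exact h2
    have hp0 : p • sp ⟨x, hxZ⟩ = 0 := by
      rw [← map_nsmul]
      have h1 : p • (⟨x, hxZ⟩ : Z) = 0 := Subtype.ext hx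
      rw [h1, map_zero]
    have h1 : (sp ⟨x, hxZ⟩).1 = 0 := by
      refine hno _ (congrArg Prod.fst hp0) fun l => ?_
      obtain ⟨h3, h4⟩ := D.stab l ⟨x, hxZ⟩
      obtain ⟨h5, h6⟩ := key l
      rw [h4] at h6
      exact congrArg Prod.fst h6
    have h2 : (sp ⟨x, hxZ⟩).2 = 0 := by
      refine hno _ (congrArg Prod.snd hp0) fun l => ?_
      obtain ⟨h3, h4⟩ := D.stab l ⟨x, hxZ⟩
      obtain ⟨h5, h6⟩ := key l
      rw [h4] at h6
      exact congrArg Prod.snd h6
    exact Prod.ext h1 h2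

/-- inertia invariants of the localised `p`-torsion are toric -/
theorem mem_NN_of_pow (k : ℕ) {x : JZero M} (hx : p • x = 0)
    (hσ : ∀ σ ∈ A.inertiaSubgroupIn ℚ, σ • x = x) (hk : ∀ t ∈ 𝔪 ^ k, ren hm t • x = 0) :
    x ∈ NN := by
  obtain ⟨h1, h2⟩ := mem_Z_of_pow hm D 𝔪 a ha hne hno k x hx hσ hk
  exact D.ker _ h2

variable {r : ℕ} (hr : r.Prime) (hA : A.LiesOverPrime r) (hp : 0 < p) (hpr : p.Coprime r)
  {e : TPoly m ℤ} {k : ℕ}
  (he : ∀ x : JZero M, p • x = 0 → ren hm e • ren hm e • x = ren hm e • x)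
  (hek : ∀ t ∈ 𝔪 ^ k, ∀ x : JZero M, p • x = 0 → ren hm t • ren hm e • x = 0)
  {τ : Γ} (hτ : τ ∈ A.inertiaSubgroupIn ℚ)
  (hgen : ∀ x : JZero M, p • x = 0 → τ • x = x → ∀ σ ∈ A.inertiaSubgroupIn ℚ, σ • x = x)

include hr hA hp hpr he hek hτ hgen in
/-- **Exactness of `τ - 1`** on the localised `p`-torsion. -/
theorem exact_J {x : JZero M} (hx : p • x = 0) (hex : ren hm e • x = x) (hτx : τ • x = x) :
    ∃ z : JZero M, p • z = 0 ∧ ren hm e • z = z ∧ τ • z - z = x := by
  have hfin : Finite (Pic0.torsion Qb (laurentBaseChange Qb (modularFunctionFieldFull M)) p) :=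
    finite_tors hp
  let V := Pic0.torsion Qb (laurentBaseChange Qb (modularFunctionFieldFull M)) p
  let πe : V →+ V :=
    { toFun := fun x => ⟨ren hm e • (x : JZero M),
        mem_tors.mpr (MazLQ.hsmul_tors _ (mem_tors.mp x.2))⟩
      map_zero' := Subtype.ext (smul_zero (ren hm e))
      map_add' := fun x y => Subtype.ext (smul_add (ren hm e) _ _) }
  have hπe : ∀ x : V, ((πe x : V) : JZero M) = ren hm e • (x : JZero M) := fun _ => rfl
  let s := arithmeticGalois (modularFunctionFieldFull M) τ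
  let T : V →+ V := actT s p
  have hT : ∀ x : V, ((T x : V) : JZero M) = τ • (x : JZero M) := fun _ => rfl
  let N' : AddSubgroup V := NN.comap (AddSubgroup.subtype _)
  have h1 := exists_of_fixed (weilPairing Qb (laurentBaseChange Qb (modularFunctionFieldFull M)) p)
    (fun y hy => by
      apply Subtype.ext
      refine weil_nondeg_right hp (mem_tors.mp y.2) fun x hx => ?_
      have := hy ⟨x, mem_tors.mpr hx⟩
      rw [weilPairing_apply] at this
      exact this) T πe
    (fun y => ⟨actT s⁻¹ p y, Subtype.ext (smul_inv_smul s (y : JZero M))⟩)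
    (fun x y => by
      rw [weilPairing_apply, weilPairing_apply]
      congr 1
      refine (weil_smul s (mem_tors.mp x.2) (mem_tors.mp y.2)).trans ?_
      have h2 : (weil p (x : JZero M) y) ^ p = 1 := weil_pow (mem_tors.mp x.2) (mem_tors.mp y.2)
      apply Units.ext
      show τ ((weil p (x : JZero M) y : Qbˣ) : Qb) = _
      refine QuadRep.inertia_smul_root hr hA hτ hp hpr _ ?_
      rw [← Units.val_pow_eq_pow_val, h2, Units.val_one])
    (fun x => Subtype.ext (ren_smul_gal hm e τ x))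
    (fun x => Subtype.ext (he _ (mem_tors.mp x.2)))
    (fun x y => by
      rw [weilPairing_apply, weilPairing_apply, hπe, hπe,
        MazLQ.weil_hsmul M (ren hm e) (mem_tors.mp x.2) (mem_tors.mp y.2)])
    N' (fun y hy hy' => by
      have h2 : ren hm e • (y : JZero M) = y := congrArg Subtype.val hy
      have h3 : τ • (y : JZero M) = y := congrArg Subtype.val hy'
      have h4 : (y : JZero M) ∈ NN := by
        refine mem_NN_of_pow hm D 𝔪 a ha hne hno k (mem_tors.mp y.2)
          (hgen _ (mem_tors.mp y.2) h3) fun t ht => ?_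
        rw [← h2]
        exact hek t ht _ (mem_tors.mp y.2)
      exact h4)
    (fun x hx y hy => by
      have h4 : weil p (x : JZero M) (y : JZero M) = 1 := D.iso _ hx _ hy
      rw [weilPairing_apply, h4]
      rfl)
    (x := ⟨x, mem_tors.mpr hx⟩) (Subtype.ext hex) (Subtype.ext hτx)
  obtain ⟨z, hz1, hz2⟩ := h1
  exact ⟨z, mem_tors.mp z.2, congrArg Subtype.val hz1, congrArg Subtype.val hz2⟩

end Main

end Fermat.Agent.Ribet
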