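import Fermat.Agent.PIC.CharZero
import Fermat.Agent.ZTqb.Inj
import Fermat.Agent.ZTqb.Max
import Fermat.Agent.S22

/-!
# Classes on which Frobenius squared is multiplication by `r ^ 2`
-/

set_option autoImplicit false

noncomputable section

namespace Fermat.Agent.Ribet

open AlgebraicCurve ModularCurve CongruenceSubgroup
open Fermat.Agent.HeckeHom Fermat.Agent.Tate Fermat.Agent.TorsCmp Fermat.Agent.GalJ
  Fermat.Agent.PIC Fermat.Agent.ZTqb

/-- `T_r ^ 2 - (r + 1) ^ 2` divides a nonzero integer in the Hecke algebra. -/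
theorem exists_rel (M r : ℕ) [NeZero M] (hr : r.Prime) (hrM : ¬ r ∣ M) :
    ∃ (S : Set ℕ) (hS : ∀ q : ℕ, q.Prime → q ∣ M → q ∈ S) (hrS : r ∉ S)
      (y : FreeAlgebra ℤ (Idx M S)) (c : ℤ), c ≠ 0 ∧
      toHecke hS (y * (FreeAlgebra.ι ℤ ⟨r, hr, hrM, hrS⟩ * FreeAlgebra.ι ℤ ⟨r, hr, hrM, hrS⟩ -
        algebraMap ℤ _ (((r : ℤ) + 1) ^ 2)) + algebraMap ℤ _ c) = 0 := by
  let S : Set ℕ := {q | q.Prime ∧ q ∣ M}
  have hS : ∀ q : ℕ, q.Prime → q ∣ M → q ∈ S := fun q h1 h2 => ⟨h1, h2⟩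
  have hrS : r ∉ S := fun h => hrM h.2
  refine ⟨S, hS, hrS, ?_⟩
  let i : Idx M S := ⟨r, hr, hrM, hrS⟩
  let n : ℤ := ((r : ℤ) + 1) ^ 2
  let x : FreeAlgebra ℤ (Idx M S) := FreeAlgebra.ι ℤ i * FreeAlgebra.ι ℤ i - algebraMap ℤ _ n
  let a : CuspForm.heckeAlgebra M 2 S := toHecke hS x
  have ha : ∀ f, (a : Module.End ℂ (CuspForm (Gamma0 M) 2)) f =
      CuspForm.heckeTLin 2 hr hrM (CuspForm.heckeTLin 2 hr hrM f) - ((r : ℂ) + 1) ^ 2 • f := by
    intro f
    have e1 : a = CuspForm.heckeAlgebra.T hr hrM hrS * CuspForm.heckeAlgebra.T hr hrM hrS -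
        algebraMap ℤ _ n := by
      simp only [a, x, map_sub, map_mul, AlgHom.commutes]
      rw [toHecke_ι hS hr hrM hrS]
    rw [e1]
    show (CuspForm.heckeTLin 2 hr hrM * CuspForm.heckeTLin 2 hr hrM -
      algebraMap ℤ (Module.End ℂ (CuspForm (Gamma0 M) 2)) n) f = _
    rw [LinearMap.sub_apply, Module.End.mul_apply, Module.algebraMap_end_apply]
    congr 1
    rw [← Int.cast_smul_eq_zsmul ℂ]
    congr 1
    simp only [n]
    push_cast
    ring
  have hainj : ∀ f, (a : Module.End ℂ (CuspForm (Gamma0 M) 2)) f = 0 → f = 0 := by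
    intro f hf
    rw [ha, sub_eq_zero] at hf
    exact cusp_eq_zero f hr hrM hf
  have hint : IsIntegral ℤ a := by
    have hfin : Module.Finite ℤ (CuspForm.heckeAlgebra M 2 S) := Fermat.Agent.S22.result M 2 S
    exact IsIntegral.of_finite ℤ _
  obtain ⟨P, hPm, hP⟩ := hint
  obtain ⟨Q, hQ, hQ0⟩ := Polynomial.exists_eq_pow_rootMultiplicity_mul_and_not_dvd P hPm.ne_zero 0
  have haev : Polynomial.aeval a P = 0 := hP
  have hpow : ∀ (k : ℕ) (f : CuspForm (Gamma0 M) 2),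
      ((a ^ k : CuspForm.heckeAlgebra M 2 S) : Module.End ℂ (CuspForm (Gamma0 M) 2)) f = 0 →
        f = 0 := by
    intro k
    induction k with
    | zero => intro f hf; exact hf
    | succ k ih =>
      intro f hf
      rw [pow_succ] at hf
      exact hainj f (ih _ hf)
  have hQa : Polynomial.aeval a Q = 0 := by
    rw [hQ, map_mul, map_pow, map_sub, Polynomial.aeval_X, Polynomial.C_0, map_zero, sub_zero]
      at haev
    apply Subtype.ext
    refine LinearMap.ext fun f => hpow (Polynomial.rootMultiplicity 0 P) _ ?_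
    exact LinearMap.congr_fun (congrArg Subtype.val haev) f
  have hc : Q.coeff 0 ≠ 0 := by
    intro hc
    apply hQ0
    rw [Polynomial.C_0, sub_zero]
    exact Polynomial.X_dvd_iff.mpr hc
  refine ⟨Polynomial.aeval x Q.divX, Q.coeff 0, hc, ?_⟩
  have hz : Polynomial.aeval x Q.divX * x + algebraMap ℤ _ (Q.coeff 0) = Polynomial.aeval x Q := by
    conv_rhs => rw [← Polynomial.divX_mul_X_add Q]
    rw [map_add, map_mul, Polynomial.aeval_X, Polynomial.aeval_C]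
  show toHecke hS (Polynomial.aeval x Q.divX * x + algebraMap ℤ _ (Q.coeff 0)) = 0
  rw [hz, ← Polynomial.aeval_algHom_apply]
  exact hQa

/-- Torsion classes with `T_r ^ 2 = (r + 1) ^ 2` are killed by a fixed integer. -/
theorem exists_bound (M r : ℕ) [NeZero M] (hr : r.Prime) (hrM : ¬ r ∣ M) :
    ∃ d : ℕ, 0 < d ∧ ∀ (q : ℕ) [Fact q.Prime] (b : ℕ) (y : JZero M), q ^ b • y = 0 →
      heckeOperatorBar M ⟨r, hr⟩ (heckeOperatorBar M ⟨r, hr⟩ y) = (r + 1) ^ 2 • y → d • y = 0 := by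
  obtain ⟨S, hS, hrS, u, c, hc, h⟩ := exists_rel M r hr hrM
  refine ⟨c.natAbs, Int.natAbs_pos.mpr hc, fun q hq b y hy hT => ?_⟩
  have h1 := actJ_eq_zero M S q hS h hy
  have h2 : actJ M S (FreeAlgebra.ι ℤ (⟨r, hr, hrM, hrS⟩ : Idx M S) *
      FreeAlgebra.ι ℤ ⟨r, hr, hrM, hrS⟩ - algebraMap ℤ _ (((r : ℤ) + 1) ^ 2)) y = 0 := by
    rw [map_sub, map_mul, AlgHom.commutes, LinearMap.sub_apply, Module.End.mul_apply, actJ_ι,
      actJ_ι, end_intCast_apply, hT, sub_eq_zero, ← natCast_zsmul]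
    congr 1
  rw [map_add, map_mul, AlgHom.commutes, LinearMap.add_apply, Module.End.mul_apply, h2, map_zero,
    zero_add, end_intCast_apply] at h1
  rcases Int.natAbs_eq c with h3 | h3
  · rw [h3, natCast_zsmul] at h1
    exact h1
  · rw [h3, neg_smul, natCast_zsmul, neg_eq_zero] at h1
    exact h1

/-- Torsion classes on which the square of a Frobenius is multiplication by `r ^ 2`. -/
theorem exists_bound_frob (M r : ℕ) [NeZero M] (hr : r.Prime) (hrM : ¬ r ∣ M) :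
    ∃ d : ℕ, 0 < d ∧ ∀ (q : ℕ) [Fact q.Prime], q ≠ r → FrobJ M q →
      ∀ A : ValuationSubring (AlgebraicClosure ℚ), A.LiesOverPrime r →
        ∀ σ : AlgebraicClosure ℚ ≃ₐ[ℚ] AlgebraicClosure ℚ, A.IsFrobeniusAt σ r →
        ∀ (b : ℕ) (y : JZero M), q ^ b • y = 0 → σ • σ • y = r ^ 2 • y → d • y = 0 := by
  obtain ⟨d, hd, hbound⟩ := exists_bound M r hr hrM
  refine ⟨d, hd, fun q hq hqr hF A hA σ hσ b y hy hσy => hbound q b y hy ?_⟩
  set T : Module.End ℤ (JZero M) := heckeOperatorBar M ⟨r, hr⟩ with hT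
  set s : JZero M →+ JZero M := DistribSMul.toAddMonoidHom (JZero M) σ with hs
  have e0 : ∀ x : JZero M, σ • x = s x := fun _ => rfl
  have e1 : ∀ x : JZero M, q ^ b • x = 0 → s (s x) - T (s x) + r • x = 0 := fun x hx =>
    hF r hr hrM hqr.symm A hA σ hσ x ⟨b, hx⟩
  have e2 : ∀ x : JZero M, T (s x) = s (T x) := fun x => heckeOperatorBar_smul M ⟨r, hr⟩ σ x
  have e3 : s (s y) = r ^ 2 • y := hσy
  have e4 : T (s y) = (r ^ 2 + r) • y := by
    have h1 := e1 y hy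
    rw [e3] at h1
    rw [add_smul]
    have h2 : r ^ 2 • y + r • y - T (s y) = 0 := by rw [← h1]; abel
    exact (sub_eq_zero.mp h2).symm
  have e5 : r ^ 2 • T y = (r ^ 2 + r) • s y := by
    rw [← map_nsmul T, ← e3, e2, e2, ← map_nsmul s, ← e4, e2]
  have e6 : r ^ 2 • (T (T y)) = r ^ 2 • ((r + 1) ^ 2 • y) := by
    rw [← map_nsmul T, e5, map_nsmul, e4, smul_smul, smul_smul]
    congr 1
    ring
  -- cancel `r ^ 2`
  have e7 : r ^ 2 • (T (T y) - (r + 1) ^ 2 • y) = 0 := by rw [nsmul_sub, e6, sub_self]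
  have e8 : q ^ b • (T (T y) - (r + 1) ^ 2 • y) = 0 := by
    rw [nsmul_sub, ← map_nsmul, ← map_nsmul, hy, map_zero, map_zero, nsmul_left_comm, hy,
      nsmul_zero, sub_zero]
  have hco : Nat.Coprime (r ^ 2) (q ^ b) :=
    Nat.Coprime.pow _ _ ((Nat.coprime_primes hr hq.out).mpr hqr.symm)
  have e9 : addOrderOf (T (T y) - (r + 1) ^ 2 • y) = 1 := by
    have := Nat.dvd_gcd (addOrderOf_dvd_of_nsmul_eq_zero e7) (addOrderOf_dvd_of_nsmul_eq_zero e8)
    rw [hco] at this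
    exact Nat.dvd_one.mp this
  exact sub_eq_zero.mp (AddMonoid.addOrderOf_eq_one_iff.mp e9)

end Fermat.Agent.Ribet
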