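import Fermat.Agent.PIC.Final

/-!
# Classes of order `q` in `Pic⁰` of `X₀(N)` modulo `p ≠ q`
-/

set_option autoImplicit false

noncomputable section

namespace Fermat.Agent.Ribet

open AlgebraicCurve ModularCurve CongruenceSubgroup
open Fermat.Agent.HeckeHom Fermat.Agent.Tate Fermat.Agent.HeckeRed Fermat.Agent.FunField
  Fermat.Agent.ModDeg Fermat.Agent.ModPoly Fermat.Agent.Deuring Fermat.Agent.PIC
  Fermat.Agent.TorsCmp Fermat.Agent.GalJ

section Qbar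

variable {N : ℕ} [NeZero N] {p : ℕ} [hp : Fact p.Prime]
  (A : ValuationSubring (AlgebraicClosure ℚ)) {κ : Type} [Field κ] [IsAlgClosed κ] [CharP κ p]
  [PerfectRing κ p]
  (π : A →+* κ) [IsLocalHom π] (hπ : Function.Surjective π) (hN : (N : κ) ≠ 0)
  {r : Place (AlgebraicClosure ℚ) (laurentBaseChange (AlgebraicClosure ℚ)
    (modularFunctionFieldFull N)) → Place κ (modularFunctionFieldFullC κ N)}
  (hr : IsReduction (dat A π hπ N hN) r) {S : Set ℕ}

include hr in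
/-- **Main theorem**: relations in the Hecke algebra kill the `q`-power torsion of `Pic⁰`. -/
theorem actC_eq_zero_aux₂ (hA : A.LiesOverPrime p)
    (hfr : ∀ σ : AlgebraicClosure ℚ ≃ₐ[ℚ] AlgebraicClosure ℚ, A.IsFrobeniusAt σ p →
      ∃ σA : A →+* A, (∀ a : A, σ a = σA a) ∧
      ∀ a : A, frobenius κ p (π a) = π (σA a))
    (hpS : p ∈ S) (hS : ∀ q : ℕ, q.Prime → q ∣ N → q ∈ S) {a : FreeAlgebra ℤ (Idx N S)}
    (ha : toHecke hS a = 0) (q : ℕ) [hq : Fact q.Prime]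
    {c : Pic0 κ (modularFunctionFieldFullC κ N)} {n : ℕ}
    (hc : q ^ n • c = 0) : actC κ N S a c = 0 := by
  obtain ⟨y, hy⟩ := spHom_surjective hr c
  change JZero N at y
  obtain ⟨E, hE, hEy⟩ := level_JZero N y
  have hgal : IsGalois ℚ (AlgebraicClosure ℚ) :=
    have : Normal ℚ (AlgebraicClosure ℚ) := IsAlgClosure.normal ℚ (AlgebraicClosure ℚ)
    {}
  obtain ⟨σ₀, hσ₀⟩ := Fermat.Agent.Frob.exists_isFrobeniusAt hp.out hA
  obtain ⟨m, hm, hmE⟩ := exists_pow_fixes E σ₀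
  have hσy : (σ₀ ^ m) • y = y := hEy _ hmE
  -- Frobenius on the specialization
  obtain ⟨σA, hσ1, hσ2⟩ := hfr σ₀ hσ₀
  have hsp : ∀ x : JZero N, spHom hr (σ₀ • x) = frobC κ N p • spHom hr x := fun x =>
    spHom_galois A π hπ N hN hr σ₀ (frobC κ N p) σA _ hσ1 hσ2 (coe_frobAut_smul _ (full_stable N) p)
      x
  have hsp' : ∀ (j : ℕ) (x : JZero N), spHom hr ((σ₀ ^ j) • x) = frobC κ N p ^ j • spHom hr x := by
    intro j
    induction j with
    | zero =>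
      intro x
      rw [pow_zero, pow_zero]
      exact (congrArg (spHom hr) (one_smul _ x)).trans (one_smul _ _).symm
    | succ j ih =>
      intro x
      rw [pow_succ', pow_succ', mul_smul (frobC κ N p)]
      have h1 : (σ₀ * σ₀ ^ j) • x = σ₀ • ((σ₀ ^ j) • x) := mul_smul σ₀ (σ₀ ^ j) x
      exact (congrArg (spHom hr) h1).trans ((hsp _).trans (congrArg _ (ih x)))
  -- the divisibility
  have hpow : ∀ k : ℕ, ∃ y' : JZero N, q ^ k • y' = y := by
    intro k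
    induction k with
    | zero => exact ⟨y, by rw [pow_zero, one_smul]⟩
    | succ k ih =>
      obtain ⟨y', hy'⟩ := ih
      obtain ⟨y'', hy''⟩ := exists_p_smul (L := AlgebraicClosure ℚ) iotaQbar N q y'
      refine ⟨y'', ?_⟩
      have h2 : q • (y'' : JZero N) = y' := hy''
      rw [pow_succ, mul_smul, h2, hy']
  have hfin : Finite (fixC κ N p m) := (finite_fixedC (κ := κ) (N := N) (p := p) m hm).to_subtype
  refine eq_zero_of_divisible (p := q) (fixC κ N p m) (n := n) ?_ ?_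
  · rw [← map_nsmul, hc, map_zero]
  · intro k
    obtain ⟨y', hy'⟩ := hpow k
    have hz : ∀ x : JZero N, ∀ j : ℕ, (σ₀ ^ m) • (j • x) = j • ((σ₀ ^ m) • x) := fun x j =>
      map_nsmul (DistribSMul.toAddMonoidHom (JZero N) (σ₀ ^ m)) j x
    have h1 : q ^ k • ((σ₀ ^ m) • y' - y') = 0 := by
      rw [nsmul_sub, ← hz, hy', hσy, sub_self]
    have h2 : actJ N S a ((σ₀ ^ m) • y' - y') = 0 := actJ_eq_zero N S q hS ha h1
    have h3 : (σ₀ ^ m) • actJ N S a y' = actJ N S a y' := by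
      rw [map_sub, actJ_smul, sub_eq_zero] at h2
      exact h2
    refine ⟨spHom hr (actJ N S a y'), ?_, ?_⟩
    · show frobC κ N p ^ m • spHom hr (actJ N S a y') = spHom hr (actJ N S a y')
      rw [← hsp']
      exact congrArg (spHom hr) h3
    · rw [← hy]
      have h4 : actC κ N S a (spHom hr y) = spHom hr (actJ N S a y) :=
        (spHom_act A π hπ hN hr hpS a y).symm
      rw [h4]
      have h5 : actJ N S a y = q ^ k • actJ N S a y' := by rw [← map_nsmul, hy']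
      exact (congrArg (spHom hr) h5).trans (map_nsmul (spHom hr) _ _)

end Qbar

/-- **Eigenclasses of order `q` in `Pic⁰` of `X₀(N)` modulo `p` give eigenforms.** -/
theorem exists_eigenform_of_classC_aux₂ {N : ℕ} [NeZero N] {S : Set ℕ}
    (hS : ∀ q : ℕ, q.Prime → q ∣ N → q ∈ S) {p : ℕ}
    [hp : Fact p.Prime] (hpN : ¬ p ∣ N) (hpS : p ∈ S) (A : ValuationSubring (AlgebraicClosure ℚ))
    (hA : A.LiesOverPrime p) {κ : Type} [Field κ] [IsAlgClosed κ] [CharP κ p] [PerfectRing κ p]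
    (π : A →+* κ) [IsLocalHom π] (hπ : Function.Surjective π)
    (hfr : ∀ σ : AlgebraicClosure ℚ ≃ₐ[ℚ] AlgebraicClosure ℚ, A.IsFrobeniusAt σ p →
      ∃ σA : A →+* A, (∀ a : A, σ a = σA a) ∧
      ∀ a : A, frobenius κ p (π a) = π (σA a)) (a : ℕ → ℤ)
    {g : ℤ} (hRR : Deuring.RRLarge (AlgebraicClosure ℚ) (modularFunctionFieldBar N) g)
    (hRR₁ : Deuring.RRLarge κ (modularFunctionFieldFullC κ N) g) (q : ℕ) [hq : Fact q.Prime]
    {c : Pic0 κ (modularFunctionFieldFullC κ N)} (hc0 : c ≠ 0) (hpc : q • c = 0)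
    (hc : ∀ (ℓ : ℕ) (_ : ℓ.Prime) [NeZero ℓ], ¬ ℓ ∣ N → ℓ ∉ S → heckeC κ N ℓ c = a ℓ • c) :
    ∃ (f : CuspForm (Gamma0 N) 2) (𝔪 : Ideal (integralClosure ℤ ℂ)),
      f.IsNormalizedEigenform ∧ 𝔪.IsMaximal ∧ (q : integralClosure ℤ ℂ) ∈ 𝔪 ∧
      ∀ ℓ : ℕ, ℓ.Prime → ¬ ℓ ∣ N → ℓ ∉ S →
        ∃ b : integralClosure ℤ ℂ, (b : ℂ) = ModularFormClass.qCoeff f ℓ ∧
          b - ((a ℓ : ℤ) : integralClosure ℤ ℂ) ∈ 𝔪 := by
  have hN : (N : κ) ≠ 0 := fun h => hpN ((CharP.cast_eq_zero_iff _ p N).mp h)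
  obtain ⟨r, hr1, hr2⟩ := (dat A π hπ N hN).exists_reduction hRR hRR₁
  have hr : IsReduction (dat A π hπ N hN) r := ⟨hr1, hr2⟩
  obtain ⟨χ, hχ⟩ := exists_char_of_eigen hS hq.out (actC κ N S) a hc0 hpc
    (fun i => by
      have h1 : NeZero i.1 := ⟨i.2.1.ne_zero⟩
      rw [actC_ι]
      exact hc i.1 i.2.1 i.2.2.1 i.2.2.2)
    (fun x hx => actC_eq_zero_aux₂ A π hπ hN hr hA hfr hpS hS hx q (n := 1)
      (by rw [pow_one]; exact hpc))
  exact exists_eigenform_of_residual_int hq.out (by simp) χ a hχ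

set_option synthInstance.maxHeartbeats 400000 in
/-- **Eigenclasses of order `q` in `Pic⁰` of `X₀(N)` modulo `p` give eigenforms.** -/
theorem exists_eigenform_of_classC₂ {N : ℕ} [NeZero N] {S : Set ℕ}
    (hS : ∀ q : ℕ, q.Prime → q ∣ N → q ∈ S) {p : ℕ}
    [hp : Fact p.Prime] (hpN : ¬ p ∣ N) (hpS : p ∈ S) (A : ValuationSubring (AlgebraicClosure ℚ))
    (hA : A.LiesOverPrime p) [IsAlgClosed (IsLocalRing.ResidueField A)] (a : ℕ → ℤ)
    (q : ℕ) [hq : Fact q.Prime]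
    {c : Pic0 (IsLocalRing.ResidueField A)
      (modularFunctionFieldFullC (IsLocalRing.ResidueField A) N)} (hc0 : c ≠ 0) (hpc : q • c = 0)
    (hc : ∀ (ℓ : ℕ) (_ : ℓ.Prime) [NeZero ℓ], ¬ ℓ ∣ N → ℓ ∉ S →
      heckeC (IsLocalRing.ResidueField A) N ℓ c = a ℓ • c) :
    ∃ (f : CuspForm (Gamma0 N) 2) (𝔪 : Ideal (integralClosure ℤ ℂ)),
      f.IsNormalizedEigenform ∧ 𝔪.IsMaximal ∧ (q : integralClosure ℤ ℂ) ∈ 𝔪 ∧
      ∀ ℓ : ℕ, ℓ.Prime → ¬ ℓ ∣ N → ℓ ∉ S →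
        ∃ b : integralClosure ℤ ℂ, (b : ℂ) = ModularFormClass.qCoeff f ℓ ∧
          b - ((a ℓ : ℤ) : integralClosure ℤ ℂ) ∈ 𝔪 := by
  have i2 : CharP (IsLocalRing.ResidueField A) p := charP_residueField hp.out hA
  have i4 : PerfectRing (IsLocalRing.ResidueField A) p := inferInstance
  have i5 : IsLocalHom (IsLocalRing.residue A) := inferInstance
  have hN : (N : IsLocalRing.ResidueField A) ≠ 0 := fun h =>
    hpN ((CharP.cast_eq_zero_iff _ p N).mp h)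
  obtain ⟨g, hRR, hRR₁⟩ := Fermat.Agent.Cusps.genusEq N A hN
  exact exists_eigenform_of_classC_aux₂ hS hpN hpS A hA (IsLocalRing.residue A)
    IsLocalRing.residue_surjective (fun σ hσ => exists_of_frobenius hσ) a hRR hRR₁ q hc0 hpc hc

end Fermat.Agent.Ribet
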