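import Fermat.Agent.Tate.Abs
import Fermat.Agent.Tate.Iso
import Mathlib.LinearAlgebra.TensorProduct.RightExactness
import Mathlib.RingTheory.DiscreteValuationRing.Basic
import Mathlib.RingTheory.LocalRing.ResidueField.Basic

/-!
# Reduction of parabolic homomorphisms: abstract form
-/

set_option autoImplicit false
set_option linter.unusedSectionVars false

noncomputable section

open Module IsLocalRing
open scoped TensorProduct

namespace Fermat.Agent.Ribet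

open ModularCurve.Period CongruenceSubgroup
open Fermat.Agent.HeckeHom Fermat.Agent.Tate

section J

variable {n p : ℕ} [NeZero n] [hp : Fact p.Prime] {J : Type} [AddCommGroup J]
  (C : Comparison p J (Gamma0 n))
  (hC : ∀ φ, φ ∈ parabolicHoms ℤ_[p] (Gamma0 n) ℤ_[p] ↔ ∀ k, red k φ ∈ Set.range (C.e k))

/-- reduction of integral parabolic homomorphisms -/
def jA : parabolicHoms ℤ (Gamma0 n) ℤ →+ tor p J 1 :=
  (pr C (parabolicHoms ℤ_[p] (Gamma0 n) ℤ_[p]) hC 1).comp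
    (castPar ℤ_[p] (Gamma0 n)).toAddMonoidHom

theorem jA_apply (φ : parabolicHoms ℤ (Gamma0 n) ℤ) :
    jA C hC φ = pr C (parabolicHoms ℤ_[p] (Gamma0 n) ℤ_[p]) hC 1 (castPar ℤ_[p] (Gamma0 n) φ) := rfl

theorem jA_surjective
    (hs : Function.Surjective (pr C (parabolicHoms ℤ_[p] (Gamma0 n) ℤ_[p]) hC 1)) :
    Function.Surjective (jA C hC) := by
  intro x
  obtain ⟨φ, rfl⟩ := hs x
  obtain ⟨y, rfl⟩ := tensorMap_surjective ℤ_[p] (Gamma0 n) φ
  induction y using TensorProduct.induction_on with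
  | zero => exact ⟨0, by rw [map_zero, map_zero, map_zero]⟩
  | tmul a ψ =>
    refine ⟨(PadicInt.toZModPow 1 a).val • ψ, ?_⟩
    rw [tensorMap_tmul, map_nsmul, jA_apply]
    exact (pr_smul C _ hC 1 a (castPar ℤ_[p] (Gamma0 n) ψ)).symm
  | add y y' hy hy' =>
    obtain ⟨z, hz⟩ := hy
    obtain ⟨z', hz'⟩ := hy'
    refine ⟨z + z', ?_⟩
    rw [map_add, hz, hz', map_add, map_add]

theorem exists_of_jA_eq_zero {φ : parabolicHoms ℤ (Gamma0 n) ℤ} (h : jA C hC φ = 0) :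
    ∃ ψ, φ = p • ψ := by
  have h1 : C.e 1 (pr C _ hC 1 (castPar ℤ_[p] (Gamma0 n) φ)) =
      red 1 (castPar ℤ_[p] (Gamma0 n) φ : Additive (Gamma0 n) →+ ℤ_[p]) := e_pr C _ hC 1 _
  have h0 : pr C _ hC 1 (castPar ℤ_[p] (Gamma0 n) φ) = 0 := h
  rw [h0, map_zero] at h1
  have h2 : ∀ γ, (p : ℤ) ∣ (φ : Additive (Gamma0 n) →+ ℤ) γ := by
    intro γ
    have h3 := congrArg (fun f : Additive (Gamma0 n) →+ ZMod (p ^ 1) => f γ) h1
    have h4 : PadicInt.toZModPow 1 (((φ : Additive (Gamma0 n) →+ ℤ) γ : ℤ) : ℤ_[p]) = 0 :=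
      h3.symm
    rw [map_intCast, ZMod.intCast_zmod_eq_zero_iff_dvd, pow_one] at h4
    exact h4
  choose y hy using h2
  have hp0 : (p : ℤ) ≠ 0 := by exact_mod_cast hp.out.ne_zero
  refine ⟨⟨{ toFun := y
             map_zero' := by
               have := hy 0
               rw [map_zero] at this
               exact (mul_eq_zero.mp this.symm).resolve_left hp0
             map_add' := fun a b => by
               apply mul_left_cancel₀ hp0
               rw [mul_add, ← hy, ← hy, ← hy, map_add] }, fun γ hγ => ?_⟩, ?_⟩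
  · have h3 := φ.2 γ hγ
    rw [hy] at h3
    exact (mul_eq_zero.mp h3).resolve_left hp0
  · apply Subtype.ext
    refine AddMonoidHom.ext fun γ => ?_
    rw [hy]
    exact (nsmul_eq_mul p (y γ)).symm

/-- Hecke equivariance -/
theorem jA_hecke {l : ℕ} (hl : l.Prime) (hln : ¬ l ∣ n) (T : tor p J 1 → tor p J 1)
    (hT : ∀ x, C.e 1 (T x) = heckeHom hl hln (ZMod (p ^ 1)) (C.e 1 x))
    (φ : parabolicHoms ℤ (Gamma0 n) ℤ) :
    jA C hC (parHecke ℤ ℤ hl hln φ) = T (jA C hC φ) := by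
  have h0 : castPar ℤ_[p] (Gamma0 n) (parHecke ℤ ℤ hl hln φ) =
      parHecke ℤ_[p] ℤ_[p] hl hln (castPar ℤ_[p] (Gamma0 n) φ) := by
    apply Subtype.ext
    rw [coe_parHecke]
    exact (heckeHom_comp hl hln (Int.castAddHom ℤ_[p]) _).symm
  rw [jA_apply, jA_apply, h0, pr_eq_iff, hT, e_pr]
  exact heckeHom_comp hl hln ((PadicInt.toZModPow 1 : ℤ_[p] →+* ZMod (p ^ 1)) :
    ℤ_[p] →+ ZMod (p ^ 1)) _

/-- reduction of integral parabolic homomorphisms, all properties -/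
theorem exists_jV (V : AddSubgroup J) (hV : ∀ x, x ∈ V ↔ p • x = 0)
    (hs : Function.Surjective (pr C (parabolicHoms ℤ_[p] (Gamma0 n) ℤ_[p]) hC 1))
    (T : ∀ l : ℕ, l.Prime → ¬ l ∣ n → J →+ J)
    (hT : ∀ (l : ℕ) (hl : l.Prime) (hln : ¬ l ∣ n) (x : tor p J 1),
      C.e 1 ⟨T l hl hln x, map_mem_tor p _ x.2⟩ = heckeHom hl hln (ZMod (p ^ 1)) (C.e 1 x)) :
    ∃ j : parabolicHoms ℤ (Gamma0 n) ℤ →ₗ[ℤ] V, Function.Surjective j ∧
      (∀ φ, j φ = 0 ↔ ∃ ψ, φ = p • ψ) ∧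
      ∀ (l : ℕ) (hl : l.Prime) (hln : ¬ l ∣ n) (φ : parabolicHoms ℤ (Gamma0 n) ℤ),
        ((j (parHecke ℤ ℤ hl hln φ) : V) : J) = T l hl hln ((j φ : V) : J) := by
  have h1 : ∀ x, x ∈ tor p J 1 ↔ x ∈ V := fun x => by rw [mem_tor, pow_one, hV]
  refine ⟨((AddSubgroup.inclusion (fun x hx => (h1 x).mp hx)).comp (jA C hC)).toIntLinearMap,
    fun x => ?_, fun φ => ⟨fun h => ?_, ?_⟩, fun l hl hln φ => ?_⟩
  · obtain ⟨φ, hφ⟩ := jA_surjective C hC hs ⟨(x : J), (h1 _).mpr x.2⟩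
    refine ⟨φ, Subtype.ext ?_⟩
    change ((jA C hC φ : tor p J 1) : J) = x
    rw [hφ]
  · have h2 : ((jA C hC φ : tor p J 1) : J) = 0 := congrArg (fun z : V => (z : J)) h
    exact exists_of_jA_eq_zero C hC (Subtype.ext h2)
  · rintro ⟨ψ, rfl⟩
    rw [map_nsmul]
    apply Subtype.ext
    change p • ((jA C hC ψ : tor p J 1) : J) = 0
    exact (hV _).mp ((h1 _).mp (jA C hC ψ).2)
  · change ((jA C hC (parHecke ℤ ℤ hl hln φ) : tor p J 1) : J) = _
    rw [jA_hecke C hC hl hln (fun x => ⟨T l hl hln x, map_mem_tor p _ x.2⟩) (hT l hl hln) φ]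
    rfl

end J

section Q

variable {P V : Type} [AddCommGroup P] [Module ℤ P] [AddCommGroup V] (O : Type) [CommRing O]
  [IsLocalRing O]

/-- the residue map, as an additive map -/
def resL : O →ₗ[ℤ] ResidueField O := (residue O).toAddMonoidHom.toIntLinearMap

theorem resL_apply (a : O) : resL O a = residue O a := rfl

variable (j : P →ₗ[ℤ] V)

/-- reduction on the tensor product -/
def qt : O ⊗[ℤ] P →+ ResidueField O ⊗[ℤ] V := (TensorProduct.map (resL O) j).toAddMonoidHom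

theorem qt_tmul (a : O) (φ : P) : qt O j (a ⊗ₜ[ℤ] φ) = (residue O a) ⊗ₜ[ℤ] (j φ) := rfl

theorem qt_surjective (hj : Function.Surjective j) : Function.Surjective (qt O j) := by
  have h : Function.Surjective (TensorProduct.map (resL O) j) :=
    TensorProduct.map_surjective residue_surjective hj
  exact h

variable {O}

theorem qt_ker {p : ℕ} (hpO : (p : O) ∈ maximalIdeal O) {ϖ : O}
    (hϖ : maximalIdeal O = Ideal.span {ϖ}) (hj : Function.Surjective j)
    (hjk : ∀ φ, j φ = 0 ↔ ∃ ψ, φ = p • ψ)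
    {x : O ⊗[ℤ] P} (hx : qt O j x = 0) : ∃ y, x = ϖ • y := by
  have hdvd : ∀ a ∈ maximalIdeal O, ∃ b, a = ϖ * b := fun a ha => by
    rw [hϖ] at ha
    exact Ideal.mem_span_singleton.mp ha
  obtain ⟨c, hc⟩ := hdvd _ hpO
  let f : maximalIdeal O →ₗ[ℤ] O := (maximalIdeal O).subtype.restrictScalars ℤ
  let f' : P →ₗ[ℤ] P := p • LinearMap.id
  have e1 : Function.Exact f (resL O) := by
    intro a
    constructor
    · intro h
      exact ⟨⟨a, (residue_eq_zero_iff a).mp h⟩, rfl⟩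
    · rintro ⟨b, rfl⟩
      exact (residue_eq_zero_iff _).mpr b.2
  have e2 : Function.Exact f' j := by
    intro φ
    rw [hjk]
    constructor
    · rintro ⟨ψ, hψ⟩
      exact ⟨ψ, hψ.symm⟩
    · rintro ⟨ψ, rfl⟩
      exact ⟨ψ, rfl⟩
  have h1 : x ∈ LinearMap.ker (TensorProduct.map (resL O) j) := hx
  rw [TensorProduct.map_ker e1 residue_surjective e2 hj, Submodule.mem_sup] at h1
  obtain ⟨_, ⟨u, rfl⟩, _, ⟨v, rfl⟩, rfl⟩ := h1
  have h2 : ∃ y, (LinearMap.lTensor O f') u = ϖ • y := by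
    clear hx
    induction u using TensorProduct.induction_on with
    | zero => exact ⟨0, by rw [map_zero, smul_zero]⟩
    | tmul a φ =>
      refine ⟨(c * a) ⊗ₜ[ℤ] φ, ?_⟩
      have h3 : f' φ = p • φ := rfl
      have h4 : ∀ k : ℕ, a ⊗ₜ[ℤ] (k • φ) = (k • a) ⊗ₜ[ℤ] φ := by
        intro k
        induction k with
        | zero => rw [zero_smul, zero_smul, TensorProduct.tmul_zero, TensorProduct.zero_tmul]
        | succ k ih =>
          rw [succ_nsmul, succ_nsmul, TensorProduct.tmul_add, TensorProduct.add_tmul, ih]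
      rw [LinearMap.lTensor_tmul, h3, h4, TensorProduct.smul_tmul', smul_eq_mul, ← mul_assoc,
        ← hc, nsmul_eq_mul]
    | add u u' hu hu' =>
      obtain ⟨y, hy⟩ := hu
      obtain ⟨y', hy'⟩ := hu'
      exact ⟨y + y', by rw [map_add, hy, hy', smul_add]⟩
  have h3 : ∃ y, (LinearMap.rTensor P f) v = ϖ • y := by
    clear hx h2
    induction v using TensorProduct.induction_on with
    | zero => exact ⟨0, by rw [map_zero, smul_zero]⟩
    | tmul a φ =>
      obtain ⟨b, hb⟩ := hdvd _ a.2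
      refine ⟨b ⊗ₜ[ℤ] φ, ?_⟩
      rw [LinearMap.rTensor_tmul]
      show (a : O) ⊗ₜ[ℤ] φ = _
      rw [TensorProduct.smul_tmul', smul_eq_mul, ← hb]
    | add u u' hu hu' =>
      obtain ⟨y, hy⟩ := hu
      obtain ⟨y', hy'⟩ := hu'
      exact ⟨y + y', by rw [map_add, hy, hy', smul_add]⟩
  obtain ⟨y, hy⟩ := h2
  obtain ⟨y', hy'⟩ := h3
  exact ⟨y + y', by rw [hy, hy', smul_add]⟩

end Q

section Par

variable {n : ℕ} [NeZero n] (O : Type) [CommRing O] [IsAddTorsionFree O]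

/-- Hecke operators on the tensor product -/
theorem tensorEquiv_hecke {l : ℕ} (hl : l.Prime) (hln : ¬ l ∣ n)
    (y : O ⊗[ℤ] parabolicHoms ℤ (Gamma0 n) ℤ) :
    parHecke O O hl hln (tensorEquiv O (Gamma0 n) y) =
      tensorEquiv O (Gamma0 n) (TensorProduct.map (LinearMap.id : O →ₗ[ℤ] O)
        (parHecke ℤ ℤ hl hln) y) := by
  induction y using TensorProduct.induction_on with
  | zero => rw [map_zero, map_zero, map_zero, map_zero]
  | tmul a φ =>
    rw [TensorProduct.map_tmul, tensorEquiv_tmul, tensorEquiv_tmul, map_smul]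
    congr 1
    apply Subtype.ext
    rw [coe_parHecke]
    exact heckeHom_comp hl hln (Int.castAddHom O) _
  | add y y' hy hy' => rw [map_add, map_add, map_add, map_add, hy, hy']

end Par

end Fermat.Agent.Ribet

namespace Fermat.Agent.Ribet

section Abs

/-- **Reduction of parabolic homomorphisms**, abstract form. -/
theorem exists_q_abs {p : ℕ} {O : Type} [CommRing O] [IsLocalRing O]
    {P PO V K : Type} [AddCommGroup P] [Module ℤ P] [AddCommGroup PO] [Module O PO]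
    [AddCommGroup V] [AddCommGroup K] [Module O K] (e : O ⊗[ℤ] P ≃ₗ[O] PO)
    (c : ResidueField O ⊗[ℤ] V ≃+ K)
    (hc : ∀ (o : O) (a : ResidueField O) (x : V),
      c ((residue O o * a) ⊗ₜ[ℤ] x) = o • c (a ⊗ₜ[ℤ] x))
    (j : P →ₗ[ℤ] V) (hj : Function.Surjective j)
    (hjk : ∀ φ, j φ = 0 ↔ ∃ ψ, φ = p • ψ) (hpO : (p : O) ∈ maximalIdeal O) {ϖ : O}
    (hϖ : maximalIdeal O = Ideal.span {ϖ}) :
    ∃ q : PO →ₗ[O] K, Function.Surjective q ∧
      (∀ (TP : P → P) (TPO : PO → PO) (u : O ⊗[ℤ] P →+ O ⊗[ℤ] P) (T : V → V) (TK : K →+ K),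
        (∀ a φ, u (a ⊗ₜ[ℤ] φ) = a ⊗ₜ[ℤ] (TP φ)) → (∀ y, TPO (e y) = e (u y)) →
        (∀ φ, j (TP φ) = T (j φ)) → (∀ a x, TK (c (a ⊗ₜ[ℤ] x)) = c (a ⊗ₜ[ℤ] (T x))) →
        ∀ x : PO, q (TPO x) = TK (q x)) ∧
      ∀ x, q x = 0 → ∃ y, x = ϖ • y := by
  let Q : O ⊗[ℤ] P →+ K := c.toAddMonoidHom.comp (qt O j)
  have hQt : ∀ (a : O) (φ : P),
      Q (a ⊗ₜ[ℤ] φ) = c ((residue O a) ⊗ₜ[ℤ] (j φ)) := fun _ _ => rfl
  have hQd : ∀ x, Q x = c (qt O j x) := fun _ => rfl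
  have hQs : ∀ (a : O) x, Q (a • x) = a • Q x := by
    intro a x
    induction x using TensorProduct.induction_on with
    | zero => rw [smul_zero, map_zero, smul_zero]
    | tmul b φ => rw [TensorProduct.smul_tmul', hQt, hQt, ← hc, smul_eq_mul, map_mul]
    | add x y hx hy => rw [smul_add, map_add, map_add, hx, hy, smul_add]
  clear_value Q
  obtain ⟨q, hq⟩ : ∃ q : PO →ₗ[O] K, ∀ x, q x = Q (e.symm x) :=
    ⟨{ toFun := fun x => Q (e.symm x)
       map_add' := fun x y => by rw [map_add, map_add]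
       map_smul' := fun a x => by rw [map_smul, hQs]; rfl }, fun _ => rfl⟩
  refine ⟨q, fun y => ?_, fun TP TPO u T TK hut hu hT hTK x => ?_, fun x hx => ?_⟩
  · obtain ⟨y, rfl⟩ := c.surjective y
    obtain ⟨x, rfl⟩ := qt_surjective O j hj y
    refine ⟨e x, ?_⟩
    rw [hq, LinearEquiv.symm_apply_apply, hQd]
  · obtain ⟨y, rfl⟩ := e.surjective x
    rw [hu, hq, hq, LinearEquiv.symm_apply_apply, LinearEquiv.symm_apply_apply]
    clear hu
    induction y using TensorProduct.induction_on with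
    | zero => rw [map_zero, map_zero, map_zero]
    | tmul a φ => rw [hut, hQt, hQt, hTK, hT]
    | add y y' hy hy' => rw [map_add, map_add, map_add, map_add, hy, hy']
  · rw [hq, hQd] at hx
    obtain ⟨y, hy⟩ := qt_ker j hpO hϖ hj hjk (c.map_eq_zero_iff.mp hx)
    refine ⟨e y, ?_⟩
    rw [← map_smul, ← hy, LinearEquiv.apply_symm_apply]

end Abs

open ModularCurve.Period CongruenceSubgroup
open Fermat.Agent.HeckeHom Fermat.Agent.Tate

/-- **Reduction of parabolic homomorphisms**, abstract form. -/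
theorem exists_q0_abs {n p : ℕ} [NeZero n] (O : Type) [CommRing O] [IsLocalRing O]
    [IsAddTorsionFree O] {V K : Type} [AddCommGroup V] [AddCommGroup K] [Module O K]
    (c : ResidueField O ⊗[ℤ] V ≃+ K)
    (hc : ∀ (o : O) (a : ResidueField O) (x : V),
      c ((residue O o * a) ⊗ₜ[ℤ] x) = o • c (a ⊗ₜ[ℤ] x))
    (j : parabolicHoms ℤ (Gamma0 n) ℤ →ₗ[ℤ] V) (hj : Function.Surjective j)
    (hjk : ∀ φ, j φ = 0 ↔ ∃ ψ, φ = p • ψ) (hpO : (p : O) ∈ maximalIdeal O) {ϖ : O}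
    (hϖ : maximalIdeal O = Ideal.span {ϖ}) :
    ∃ q : parabolicHoms O (Gamma0 n) O →ₗ[O] K, Function.Surjective q ∧
      (∀ (l : ℕ) (hl : l.Prime) (hln : ¬ l ∣ n) (T : V → V) (TK : K →+ K),
        (∀ φ, j (parHecke ℤ ℤ hl hln φ) = T (j φ)) →
        (∀ a x, TK (c (a ⊗ₜ[ℤ] x)) = c (a ⊗ₜ[ℤ] (T x))) →
        ∀ x : parabolicHoms O (Gamma0 n) O, q (parHecke O O hl hln x) = TK (q x)) ∧
      ∀ x, q x = 0 → ∃ y, x = ϖ • y := by
  obtain ⟨q, hq, hqT, hqk⟩ := exists_q_abs (tensorEquiv O (Gamma0 n)) c hc j hj hjk hpO hϖ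
  exact ⟨q, hq, fun l hl hln T TK hT hTK => hqT (parHecke ℤ ℤ hl hln) (parHecke O O hl hln)
    (TensorProduct.map (LinearMap.id : O →ₗ[ℤ] O) (parHecke ℤ ℤ hl hln)).toAddMonoidHom T TK
    (fun _ _ => rfl) (fun y => tensorEquiv_hecke O hl hln y) hT hTK, hqk⟩

end Fermat.Agent.Ribet
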