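import Fermat.Agent.Ribet.Div
import Fermat.Agent.BadRed.LocalPkg

/-!
# Isotropy of the toric part of `J₀(N r)` at `r`
-/

set_option autoImplicit false
set_option linter.unusedSectionVars false

noncomputable section

open AlgebraicCurve Module IntermediateField ModularCurve HahnSeries

namespace Fermat.Agent.Ribet

open Fermat.Agent.FunField Fermat.Agent.Igusa Fermat.Agent.Deuring Fermat.Agent.AtkinLehner
  Fermat.Agent.HeckeRed Fermat.Agent.Degen Fermat.Agent.BadRed Fermat.Agent.WeilPairing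

attribute [local instance] Fermat.Agent.WeilPairing.isCurveOver

section

variable {L : Type} [Field L]

theorem baseAut_of_isCoeff {E : IntermediateField L (LaurentSeries L)} {σ : L ≃+* L}
    {g : SemilinearAut L E} (hg : IsCoeff σ g) (c : L) : SemilinearAut.baseAut g c = σ c := by
  have h1 := hg (algebraMap L E c)
  rw [SemilinearAut.smul_algebraMap] at h1
  have h2 : ∀ c : L, ((algebraMap L E c : E) : LaurentSeries L) = algebraMap L (LaurentSeries L) c :=
    fun c => rfl
  rw [h2, h2, AtkinLehner.coeffMap_algebraMap] at h1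
  exact (algebraMap L (LaurentSeries L)).injective h1

/-- the degeneracy `α` intertwines the coefficientwise automorphisms -/
theorem intertwines_alpha {E E₀ : IntermediateField L (LaurentSeries L)} {σ : L ≃+* L}
    {g : SemilinearAut L E} {g₀ : SemilinearAut L E₀} (hg : IsCoeff σ g) (hg₀ : IsCoeff σ g₀)
    (α : E₀ →ₐ[L] E) (hα : ∀ x, (α x : LaurentSeries L) = x) :
    SemilinearAut.IntertwinesAlong α.toRingHom g₀ g := by
  intro x
  apply Subtype.ext
  have h1 := hg (α x)
  rw [hα] at h1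
  refine h1.trans ?_
  have h2 : ((α (g₀ • x) : E) : LaurentSeries L) = ((g₀ • x : E₀) : LaurentSeries L) := hα _
  exact (h2.trans (hg₀ x)).symm

/-- the degeneracy `β` intertwines the coefficientwise automorphisms -/
theorem intertwines_beta {E E₀ : IntermediateField L (LaurentSeries L)} {σ : L ≃+* L}
    {g : SemilinearAut L E} {g₀ : SemilinearAut L E₀} (hg : IsCoeff σ g) (hg₀ : IsCoeff σ g₀)
    {r : ℕ} [NeZero r] (β : E₀ →ₐ[L] E) (hβ : ∀ x, (β x : LaurentSeries L) = qExpand L r x) :
    SemilinearAut.IntertwinesAlong β.toRingHom g₀ g := by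
  intro x
  apply Subtype.ext
  have h1 := hg (β x)
  rw [hβ] at h1
  refine h1.trans ?_
  have h2 : ((β (g₀ • x) : E) : LaurentSeries L) = qExpand L r ((g₀ • x : E₀) : LaurentSeries L) :=
    hβ _
  rw [coeffMap_qExpand, ← hg₀ x]
  exact h2.symm

end

variable {L : Type} [Field L] [IsAlgClosed L] [CharZero L] (A : ValuationSubring L)
  {κ : Type} [Field κ] [IsAlgClosed κ] (π : A →+* κ) [IsLocalHom π] (hπ : Function.Surjective π)
  (harch : ArchA π)
  (N r : ℕ) [hr : Fact r.Prime] [hN : NeZero N] [CharP κ r] (hrN : ¬ r ∣ N)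

variable (hg : genusFF κ (modularFunctionFieldFullC κ N) =
    genusFF L (modularFunctionFieldFullC L N))
  (d : CP.DecAut A π) (hd : CP.IsFrob d r)

include hπ harch hrN hg hd

/-- **Isotropy**, concrete form. -/
theorem weil_NN_full {q : ℕ} (hq : q.Prime) (hqκ : (q : κ) ≠ 0)
    (α β : modularFunctionFieldFullC L N →ₐ[L] modularFunctionFieldFullC L (N * r))
    (hα : ∀ x, (α x : LaurentSeries L) = x) (hβ : ∀ x, (β x : LaurentSeries L) =
      (haveI : NeZero r := ⟨hr.out.ne_zero⟩; qExpand L r (x : LaurentSeries L)))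
    {g : SemilinearAut L (modularFunctionFieldFullC L (N * r))} (hgc : IsCoeff d.σ g)
    {g₀ : SemilinearAut L (modularFunctionFieldFullC L N)} (hg₀ : IsCoeff d.σ g₀)
    (hcyc : ∀ (M : ℕ) (ζ : Lˣ), ζ ^ (q ^ M) = 1 →
      Units.map d.σ.toRingHom.toMonoidHom ζ = ζ ^ r)
    {D : ℕ} (hD : 0 < D)
    (hW : ∀ (b : ℕ) (y : Pic0 L (modularFunctionFieldFullC L N)), q ^ b • y = 0 →
      g₀ • g₀ • y = r ^ 2 • y → D • y = 0)
    {x y : Pic0 L (modularFunctionFieldFullC L (N * r))}
    (hx : x ∈ (twoVal A π hπ harch N r hrN).NN q) (hy : y ∈ (twoVal A π hπ harch N r hrN).NN q) :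
    haveI : NeZero (N * r) := ⟨mul_ne_zero (NeZero.ne N) hr.out.ne_zero⟩
    weil q x y = 1 := by
  have i0 : NeZero (N * r) := ⟨mul_ne_zero (NeZero.ne N) hr.out.ne_zero⟩
  have i1 : NeZero r := ⟨hr.out.ne_zero⟩
  have H := CP.pen_hyp A π hπ harch N r hrN hg d hd
  rw [hg] at H
  have hs' : ∀ a : A, π ⟨d.σ a, (d.mem_iff a).mpr a.2⟩ = d.τ (π a) := d.res
  let γ := galV A π hπ harch N r hrN (fun a => (d.mem_iff a).symm) hs' hgc
  let ND := normDat A π hπ harch N r hrN hd
  have hincl : inclNr L N r = α :=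
    AlgHom.ext fun x => Subtype.ext ((coe_inclNr L N r x).trans (hα x).symm)
  have e1 : ∀ f, ND.Nα f = normAlong α f := by
    intro f
    show normNr L N r f = _
    rw [normNr_apply, hincl]
  have e2 : ∀ f, ND.Nβ f = normAlong β f := by
    intro f
    show normNr L N r (ww L N r hrN f) = _
    rw [normNr_apply, hincl]
    exact (normAlong_beta _ _ _ α β hα hβ f).symm
  have hba : ∀ c, SemilinearAut.baseAut g c = d.σ c := baseAut_of_isCoeff hgc
  refine weil_NN H ND α β e1 e2 γ (fun a => rfl) g₀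
    (fun x => pushPic_smul α (intertwines_alpha hgc hg₀ α hα) x)
    (fun x => pushPic_smul β (intertwines_beta hgc hg₀ β hβ) x) hq hqκ hr.out.two_le
    (fun M ζ hζ => ?_) hD hW (CP.pen_r A π hπ harch N r hrN hg d hd) (fun a => ?_)
    (CP.smul_pen_t A π hπ harch N r hrN hg d hd hgc) hx hy
  · rw [← hcyc M ζ hζ]
    apply Units.ext
    exact hba _
  · apply Subtype.ext
    rw [CP.pen_φ]
    show coeffMap (d.τ : κ →+* κ) (a : LaurentSeries κ) = _
    ext m
    rw [coeffMap_coeff, coeffMap_coeff, frobenius_def]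
    exact hd _

end Fermat.Agent.Ribet
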