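import Mathlib.GroupTheory.Index
import Mathlib.GroupTheory.PGroup
import Mathlib.GroupTheory.QuotientGroup.Basic
import Mathlib.Data.Nat.Prime.Basic
import Mathlib.Tactic.Linarith
import Mathlib.Tactic.Abel
import Mathlib.Algebra.Order.Group.Nat

/-!
# Counting: divisibility of the toric part
-/

set_option autoImplicit false

namespace Fermat.Agent.Ribet

variable {J : Type*} [AddCommGroup J]

/-- A tower of finite subgroups of the `p`-power torsion, saturated. -/
structure Tower (p : ℕ) (A : ℕ → AddSubgroup J) : Prop where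
  tor : ∀ b, ∀ x ∈ A b, p ^ b • x = 0
  mono : ∀ b, ∀ x ∈ A b, x ∈ A (b + 1)
  sat : ∀ b, ∀ x ∈ A (b + 1), p ^ b • x = 0 → x ∈ A b
  fin : ∀ b, Finite (A b)

namespace Tower

variable {p : ℕ} {A : ℕ → AddSubgroup J} (h : Tower p A)

include h

theorem mono' {a b : ℕ} (hab : a ≤ b) {x : J} (hx : x ∈ A a) : x ∈ A b := by
  induction b, hab using Nat.le_induction with
  | base => exact hx
  | succ b _ ih => exact h.mono b x ih

theorem sat' {a b : ℕ} {x : J} (hx : x ∈ A b) (ha : p ^ a • x = 0) : x ∈ A a := by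
  rcases le_total b a with hab | hab
  · exact h.mono' hab hx
  · induction b, hab using Nat.le_induction with
    | base => exact hx
    | succ b hb ih =>
      refine ih (h.sat b x hx ?_)
      obtain ⟨c, rfl⟩ := Nat.exists_eq_add_of_le hb
      rw [pow_add, mul_comm, mul_smul, ha, smul_zero]

/-- multiplication by `p ^ b` from level `b + 1` to level `1` -/
def toOne (b : ℕ) : A (b + 1) →+ A 1 where
  toFun x := ⟨p ^ b • (x : J), h.sat' ((A (b + 1)).nsmul_mem x.2 _) (by
    rw [smul_smul, ← pow_add, add_comm]; exact h.tor _ _ x.2)⟩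
  map_zero' := by ext; simp
  map_add' x y := by ext; simp

theorem coe_toOne (b : ℕ) (x : A (b + 1)) : (h.toOne b x : J) = p ^ b • (x : J) := rfl

theorem card_step (b : ℕ) : Nat.card (A (b + 1)) = Nat.card (A b) * Nat.card (h.toOne b).range := by
  have h1 : Nat.card (A (b + 1)) = Nat.card (h.toOne b).ker * Nat.card (h.toOne b).range := by
    rw [← AddSubgroup.card_mul_index (h.toOne b).ker, AddSubgroup.index_ker]
  rw [h1]
  congr 1
  refine Nat.card_congr ⟨fun x => ⟨x.1.1, h.sat b _ x.1.2 ?_⟩,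
    fun x => ⟨⟨x.1, h.mono b _ x.2⟩, ?_⟩, fun x => rfl, fun x => rfl⟩
  · have := x.2
    rw [AddMonoidHom.mem_ker] at this
    exact congrArg Subtype.val this
  · rw [AddMonoidHom.mem_ker]
    exact Subtype.ext (h.tor b _ x.2)

theorem range_anti (b : ℕ) : (h.toOne (b + 1)).range ≤ (h.toOne b).range := by
  rintro _ ⟨x, rfl⟩
  refine ⟨⟨p • (x : J), h.sat' ((A _).nsmul_mem x.2 _) ?_⟩, ?_⟩
  · rw [smul_smul, ← pow_succ]
    exact h.tor _ _ x.2
  · apply Subtype.ext
    show p ^ b • (p • (x : J)) = p ^ (b + 1) • (x : J)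
    rw [smul_smul, ← pow_succ]

theorem range_anti' {a b : ℕ} (hab : a ≤ b) : (h.toOne b).range ≤ (h.toOne a).range := by
  induction b, hab using Nat.le_induction with
  | base => exact le_rfl
  | succ b _ ih => exact (h.range_anti b).trans ih

theorem card_le_of_range {t : ℕ} {b₀ : ℕ} (hr : Nat.card (h.toOne b₀).range ≤ p ^ t) (b : ℕ)
    (hb : b₀ ≤ b) : Nat.card (A b) ≤ Nat.card (A b₀) * p ^ (t * (b - b₀)) := by
  induction b, hb using Nat.le_induction with
  | base => simp
  | succ b hb ih =>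
    rw [h.card_step b]
    have h1 : Nat.card (h.toOne b).range ≤ p ^ t := by
      refine le_trans ?_ hr
      have := h.fin 1
      exact Nat.card_le_card_of_injective _ (AddSubgroup.inclusion_injective (h.range_anti' hb))
    calc Nat.card (A b) * Nat.card (h.toOne b).range
        ≤ (Nat.card (A b₀) * p ^ (t * (b - b₀))) * p ^ t := Nat.mul_le_mul ih h1
      _ = Nat.card (A b₀) * p ^ (t * (b + 1 - b₀)) := by
        rw [mul_assoc, ← pow_add]
        congr 2
        rw [Nat.succ_sub hb, Nat.mul_succ]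

/-- a subgroup of `A 1` has order a power of `p` -/
theorem card_range_pow (hp : p.Prime) (b : ℕ) : ∃ k, Nat.card (h.toOne b).range = p ^ k := by
  have := h.fin 1
  have : Fact p.Prime := ⟨hp⟩
  have h1 : IsPGroup p (Multiplicative (h.toOne b).range) := by
    intro x
    refine ⟨1, ?_⟩
    have h2 : p ^ 1 • (Multiplicative.toAdd x) = 0 :=
      Subtype.ext (Subtype.ext (h.tor 1 _ (Multiplicative.toAdd x).1.2))
    exact congrArg Multiplicative.ofAdd h2
  have : Finite (Multiplicative (h.toOne b).range) :=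
    inferInstanceAs (Finite (h.toOne b).range)
  obtain ⟨k, hk⟩ := IsPGroup.iff_card.mp h1
  exact ⟨k, hk⟩

/-- **Divisibility from counting.** -/
theorem range_eq_top (hp : p.Prime) {t C : ℕ} (hle : ∀ b, Nat.card (A b) ≤ (p ^ b) ^ t)
    (hge : ∀ b, (p ^ b) ^ (2 * t) ≤ C * p ^ b * Nat.card (A b) ^ 2) (b : ℕ) :
    (h.toOne b).range = ⊤ := by
  have hfin := h.fin 1
  obtain ⟨k, hk⟩ := h.card_range_pow hp b
  have hp1 : 1 < p := hp.one_lt
  have hkt : t ≤ k := by
    by_contra hlt
    push Not at hlt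
    obtain ⟨t', rfl⟩ : ∃ t', t = t' + 1 := ⟨t - 1, by omega⟩
    have hr : Nat.card (h.toOne b).range ≤ p ^ t' := by
      rw [hk]
      exact Nat.pow_le_pow_right hp.pos (by omega)
    -- growth
    obtain ⟨c, hc⟩ : ∃ c, C * p ^ (2 * b) < p ^ (b + c) := by
      obtain ⟨c, hc⟩ := (tendsto_pow_atTop_aux hp1 (C * p ^ (2 * b)))
      exact ⟨c, hc.trans_le (Nat.pow_le_pow_right hp.pos (by omega))⟩
    have h1 := h.card_le_of_range hr (b + c) (by omega)
    have h2 := hge (b + c)
    have h3 := hle b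
    have h4 : Nat.card (A (b + c)) ≤ p ^ (b * (t' + 1) + t' * c) := by
      refine h1.trans ?_
      rw [Nat.add_sub_cancel_left, pow_add p (b * (t' + 1)), pow_mul p b]
      exact Nat.mul_le_mul_right _ h3
    have h5 : (p ^ (b + c)) ^ (2 * (t' + 1)) ≤ C * p ^ (b + c) *
        (p ^ (b * (t' + 1) + t' * c)) ^ 2 :=
      h2.trans (Nat.mul_le_mul_left _ (Nat.pow_le_pow_left h4 2))
    have h6 : (p ^ (b + c)) ^ (2 * (t' + 1)) =
        p ^ (b + c) * (p ^ (b + c) * (p ^ (b + c)) ^ (2 * t')) := by ring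
    have h7 : C * p ^ (b + c) * (p ^ (b * (t' + 1) + t' * c)) ^ 2 =
        (C * p ^ (2 * b)) * (p ^ (b + c) * (p ^ (b + c)) ^ (2 * t')) := by
      ring
    rw [h6, h7] at h5
    have h8 : 0 < p ^ (b + c) * (p ^ (b + c)) ^ (2 * t') := by positivity
    exact absurd (Nat.le_of_mul_le_mul_right h5 h8) (by omega)
  have h1 : Nat.card (A 1) ≤ Nat.card (h.toOne b).range := by
    rw [hk]
    refine (hle 1).trans ?_
    rw [pow_one]
    exact Nat.pow_le_pow_right hp.pos hkt
  have h2 : Function.Injective (AddSubgroup.subtype (h.toOne b).range) :=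
    AddSubgroup.subtype_injective _
  apply AddSubgroup.eq_top_of_card_eq
  refine le_antisymm ?_ h1
  exact Nat.card_le_card_of_injective _ h2
where
  tendsto_pow_atTop_aux {p : ℕ} (hp1 : 1 < p) (M : ℕ) : ∃ c, M < p ^ c :=
    ⟨M, Nat.lt_pow_self hp1⟩

/-- every element of `A 1` is divisible in the tower -/
theorem exists_div (hp : p.Prime) {t C : ℕ} (hle : ∀ b, Nat.card (A b) ≤ (p ^ b) ^ t)
    (hge : ∀ b, (p ^ b) ^ (2 * t) ≤ C * p ^ b * Nat.card (A b) ^ 2) (b : ℕ) {x : J}
    (hx : x ∈ A 1) : ∃ y ∈ A (b + 1), p ^ b • y = x := by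
  have h1 : (⟨x, hx⟩ : A 1) ∈ (h.toOne b).range := by
    rw [h.range_eq_top hp hle hge b]
    trivial
  obtain ⟨y, hy⟩ := h1
  exact ⟨y, y.2, congrArg Subtype.val hy⟩

end Tower

end Fermat.Agent.Ribet
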