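import Fermat.Agent.Ribet.Transfer
import Fermat.Agent.RT8.Sys

/-!
# The group ring surjects onto the matrix ring
-/

set_option autoImplicit false
set_option linter.unusedSectionVars false

noncomputable section

open IsLocalRing Module

namespace Fermat.Agent.Ribet

open Fermat.Agent.DefRing

variable {O : Type} [CommRing O] [IsLocalRing O] {rbar : GQ →* M2 (ResidueField O)}
  {sd : SliceData rbar}

theorem mem_smul_top_matrix {A : Type*} [CommRing A] (I : Ideal A) (m : Matrix (Fin 2) (Fin 2) A)
    (h : ∀ i j, m i j ∈ I) : m ∈ (I • ⊤ : Submodule A (Matrix (Fin 2) (Fin 2) A)) := by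
  rw [Matrix.matrix_eq_sum_single m]
  refine Submodule.sum_mem _ fun i _ => Submodule.sum_mem _ fun j _ => ?_
  have h1 : Matrix.single i j (m i j) = m i j • Matrix.single i j (1 : A) := by
    rw [Matrix.smul_single, smul_eq_mul, mul_one]
  rw [h1]
  exact Submodule.smul_mem_smul (h i j) trivial

theorem rr_surjective (hspan : Submodule.span (ResidueField O) (Set.range rbar) = ⊤)
    (C : RT8.Cpt sd) : Function.Surjective (rr C.r) := by
  have key : ∀ N : M2 (ResidueField O), ∃ c : GQ →₀ O,
      Finsupp.linearCombination O rbar c = N := by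
    intro N
    have h1 : N ∈ Submodule.span O (Set.range rbar) := by
      rw [← Submodule.restrictScalars_span O (ResidueField O) (by
        rw [IsLocalRing.ResidueField.algebraMap_eq]
        exact residue_surjective)]
      rw [hspan]; trivial
    obtain ⟨c, hc⟩ := (Finsupp.mem_span_range_iff_exists_finsupp).mp h1
    exact ⟨c, hc⟩
  have htop : (LinearMap.range (rr C.r).toLinearMap) = ⊤ := by
    rw [← top_le_iff]
    refine Submodule.le_of_le_smul_of_le_jacobson_bot (I := maximalIdeal C.T)
      Module.Finite.fg_top (maximalIdeal_le_jacobson _) ?_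
    intro m _
    rw [Matrix.matrix_eq_sum_single m]
    refine Submodule.sum_mem _ fun i _ => Submodule.sum_mem _ fun j _ => ?_
    have h1 : Matrix.single i j (m i j) = m i j • Matrix.single i j (1 : C.T) := by
      rw [Matrix.smul_single, smul_eq_mul, mul_one]
    rw [h1]
    refine Submodule.smul_mem _ _ ?_
    obtain ⟨c, hc⟩ := key (Matrix.single i j 1)
    have h2 : Finsupp.linearCombination O C.r c ∈ LinearMap.range (rr C.r).toLinearMap := by
      rw [Finsupp.linearCombination_apply, Finsupp.sum]
      refine Submodule.sum_mem _ fun σ _ => ?_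
      have h3 : c σ • C.r σ = algebraMap O C.T (c σ) • C.r σ := (algebraMap_smul _ _ _).symm
      rw [h3]
      refine Submodule.smul_mem _ _ ⟨MonoidAlgebra.of C.T GQ σ, ?_⟩
      exact rr_of C.r σ
    have h4 : Matrix.single i j (1 : C.T) - Finsupp.linearCombination O C.r c ∈
        (maximalIdeal C.T • ⊤ : Submodule C.T (Matrix (Fin 2) (Fin 2) C.T)) := by
      refine mem_smul_top_matrix _ _ fun a b => ?_
      have h5 := lc_red C.red c a b ((Matrix.single i j 1 : M2 O) a b) (by
        rw [hc]
        by_cases h : i = a ∧ j = b
        · obtain ⟨rfl, rfl⟩ := h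
          rw [Matrix.single_apply_same, Matrix.single_apply_same, map_one]
        · rw [Matrix.single_apply_of_ne (h := h), Matrix.single_apply_of_ne (h := h), map_zero])
      have h6 : algebraMap O C.T ((Matrix.single i j 1 : M2 O) a b) =
          (Matrix.single i j 1 : M2 C.T) a b := by
        by_cases h : i = a ∧ j = b
        · obtain ⟨rfl, rfl⟩ := h
          rw [Matrix.single_apply_same, Matrix.single_apply_same, map_one]
        · rw [Matrix.single_apply_of_ne (h := h), Matrix.single_apply_of_ne (h := h), map_zero]
      rw [h6] at h5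
      rw [Matrix.sub_apply, ← neg_sub]
      exact Ideal.neg_mem_iff _ |>.mpr h5
    have h7 : Matrix.single i j (1 : C.T) = Finsupp.linearCombination O C.r c +
        (Matrix.single i j (1 : C.T) - Finsupp.linearCombination O C.r c) := by abel
    rw [h7]
    exact Submodule.add_mem_sup h2 h4
  intro m
  have h := LinearMap.range_eq_top.mp htop m
  exact h

end Fermat.Agent.Ribet
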