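import Fermat.Agent.Ribet.ExW
import Fermat.Agent.Ribet.CmpDef
import Fermat.Agent.Ribet.Span
import Fermat.Agent.TW.HMod

/-!
# Exactness in matrix form
-/

set_option autoImplicit false
set_option linter.unusedSectionVars false
set_option linter.style.haveILetI false

noncomputable section

open AlgebraicCurve Module ModularCurve IsLocalRing

namespace Fermat.Agent.Ribet

open Fermat.Agent.MzGal Fermat.Agent.TW Fermat.Agent.RTM Fermat.Agent.DefRing

section Lift

variable {R T Y : Type*} [CommRing R] [CommRing T] [AddCommGroup Y] [Module R Y] (φ : R →+* T)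
  (hφ : Function.Surjective φ) (hk : ∀ P, φ P = 0 → ∀ y : Y, P • y = 0)

include hk in
theorem smul_eq_of (P Q : R) (h : φ P = φ Q) (y : Y) : P • y = Q • y := by
  rw [← sub_eq_zero, ← sub_smul]
  exact hk _ (by rw [map_sub, h, sub_self]) y

/-- a module over a quotient ring -/
@[implicit_reducible]
def modT : Module T Y where
  smul t y := Function.surjInv hφ t • y
  one_smul y := (smul_eq_of φ hk _ 1 (by rw [Function.surjInv_eq hφ, map_one]) y).trans (one_smul R y)
  mul_smul s t y := (smul_eq_of φ hk _ (Function.surjInv hφ s * Function.surjInv hφ t) (by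
    rw [Function.surjInv_eq hφ, map_mul, Function.surjInv_eq hφ, Function.surjInv_eq hφ]) y).trans
      (mul_smul _ _ _)
  smul_zero t := smul_zero (Function.surjInv hφ t)
  smul_add t x y := smul_add (Function.surjInv hφ t) x y
  add_smul s t y := (smul_eq_of φ hk _ (Function.surjInv hφ s + Function.surjInv hφ t) (by
    rw [Function.surjInv_eq hφ, map_add, Function.surjInv_eq hφ, Function.surjInv_eq hφ]) y).trans
      (add_smul _ _ _)
  zero_smul y := (smul_eq_of φ hk _ 0 (by rw [Function.surjInv_eq hφ, map_zero]) y).trans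
    (zero_smul R y)

theorem modT_smul (P : R) (y : Y) :
    (letI := modT φ hφ hk; φ P • y) = P • y :=
  smul_eq_of φ hk _ _ (Function.surjInv_eq hφ _) y

end Lift

theorem pi_mem_smul_top {R ι M : Type*} [CommRing R] [Fintype ι] [AddCommGroup M] [Module R M]
    (I : Ideal R) (x : ι → M) :
    x ∈ (I • ⊤ : Submodule R (ι → M)) ↔ ∀ i, x i ∈ (I • ⊤ : Submodule R M) := by
  classical
  constructor
  · intro h i
    have h1 := Submodule.mem_map_of_mem (f := LinearMap.proj (R := R) (φ := fun _ : ι => M) i) h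
    rw [Submodule.map_smul''] at h1
    exact Submodule.smul_mono le_rfl le_top h1
  · intro h
    have h1 : x = ∑ i, LinearMap.single R (fun _ : ι => M) i (x i) := by
      ext j
      rw [Finset.sum_apply]
      simp [LinearMap.single_apply, Pi.single_apply]
    rw [h1]
    refine Submodule.sum_mem _ fun i _ => ?_
    have h2 := Submodule.mem_map_of_mem (f := LinearMap.single R (fun _ : ι => M) i) (h i)
    rw [Submodule.map_smul''] at h2
    exact Submodule.smul_mono le_rfl le_top h2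

/-- the exactness statement for a matrix over `T` acting on `M × M`, modulo `𝔪_O` -/
def ExM (O : Type) [CommRing O] [IsLocalRing O] {T M : Type} [CommRing T] [AddCommGroup M]
    [Module O M] [Module T M] (N : M2 T) : Prop :=
  ∀ x y : M, N 0 0 • x + N 0 1 • y ∈ (maximalIdeal O • ⊤ : Submodule O M) →
    N 1 0 • x + N 1 1 • y ∈ (maximalIdeal O • ⊤ : Submodule O M) →
    ∃ u v : M, x - (N 0 0 • u + N 0 1 • v) ∈ (maximalIdeal O • ⊤ : Submodule O M) ∧
      y - (N 1 0 • u + N 1 1 • v) ∈ (maximalIdeal O • ⊤ : Submodule O M)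

theorem ExM.pi {O : Type} [CommRing O] [IsLocalRing O] {T M : Type} [CommRing T] [AddCommGroup M]
    [Module O M] [Module T M] {N : M2 T} (h : ExM O (M := M) N) (ι : Type) [Fintype ι] :
    ExM O (M := ι → M) N := by
  intro x y h1 h2
  rw [pi_mem_smul_top] at h1 h2
  choose u v hu hv using fun i => h (x i) (y i) (h1 i) (h2 i)
  refine ⟨u, v, ?_, ?_⟩
  · rw [pi_mem_smul_top]
    exact hu
  · rw [pi_mem_smul_top]
    exact hv

section Main

variable {m n p : ℕ} [NeZero n] {hn : n ∣ m} {O : Type} [CommRing O] [IsLocalRing O]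
  {𝔪 : Ideal (TPoly m O)} [𝔪.IsPrime] {rbar : GQ →* M2 (ResidueField O)} {sd : SliceData rbar}

theorem KV.smul_eq_zero {a : O} (ha : a ∈ maximalIdeal O) (v : KV m n p O hn) : a • v = 0 := by
  refine KV.induction v (smul_zero a) (fun b x => ?_) fun x y hx hy => by
    rw [smul_add, hx, hy, add_zero]
  rw [KV.smul_tm, (residue_eq_zero_iff a).mpr ha, zero_mul]
  exact TensorProduct.zero_tmul _ _

theorem Loc_KV_smul_eq_zero {a : O} (ha : a ∈ maximalIdeal O) (y : Loc 𝔪 (KV m n p O hn)) :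
    a • y = 0 := by
  obtain ⟨s, hs, v, hv⟩ := Loc.exists_smul y
  apply (Loc.smul_bij (𝔪 := 𝔪) hs).1
  show s • (a • y) = s • 0
  rw [← Loc.C_smul, smul_comm, hv, ← map_smul, KV.C_smul, KV.smul_eq_zero ha, map_zero, smul_zero]

/-- the Galois action on the localisation -/
def rhoY (𝔪 : Ideal (TPoly m O)) [𝔪.IsPrime] :
    GQ →* Module.End (TPoly m O) (Loc 𝔪 (KV m n p O hn)) where
  toFun σ := Loc.map 𝔪 (KV.galP σ)
  map_one' := by
    have h : KV.galP (O := O) (hn := hn) (n := n) (p := p) 1 = LinearMap.id :=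
      LinearMap.ext fun x => LinearMap.congr_fun KV.gal_one x
    rw [h, Loc.map_id]
    rfl
  map_mul' σ τ := by
    have h : KV.galP (O := O) (hn := hn) (n := n) (p := p) (σ * τ) =
        KV.galP σ ∘ₗ KV.galP τ :=
      LinearMap.ext fun x => LinearMap.congr_fun (KV.gal_mul σ τ) x
    rw [h, Loc.map_comp]
    rfl

/-- **Exactness, matrix form**, given the comparison and the Eichler-Shimura relation. -/
theorem exM_of (hp : p.Prime) (hp2 : p ≠ 2) (hpO : (p : O) ∈ maximalIdeal O)
    (hspan : Submodule.span (ResidueField O) (Set.range rbar) = ⊤)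
    (H : HRep (m := m) p n sd (Loc 𝔪 (HG m n hn O))) (hcmp : CmpHG m n hn p O 𝔪)
    (hES : ∀ (σ : GQ) (y : Loc 𝔪 (KV m n p O hn)) (t u : TPoly m O),
      H.φ t = (H.C.r σ).trace → H.φ u = (H.C.r σ).det →
      Loc.map 𝔪 (KV.galP σ) y + u • Loc.map 𝔪 (KV.galP σ⁻¹) y = t • y) {τ : GQ}
    (hτ : ∀ y : Loc 𝔪 (KV m n p O hn), Loc.map 𝔪 (KV.galP τ) y = y →
      ∃ z, Loc.map 𝔪 (KV.galP τ) z - z = y)
    [Module H.C.T (Loc 𝔪 (HG m n hn O))]
    (hact : ∀ (P : TPoly m O) (x : Loc 𝔪 (HG m n hn O)), H.φ P • x = P • x) :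
    ExM O (M := Loc 𝔪 (HG m n hn O)) (H.C.r τ - 1) := by
  obtain ⟨Q, hQ, hQk⟩ := hcmp
  have hk : ∀ P, (H.φ : TPoly m O →+* H.C.T) P = 0 →
      ∀ y : Loc 𝔪 (KV m n p O hn), P • y = 0 := by
    intro P hP y
    obtain ⟨x, rfl⟩ := hQ y
    rw [← map_smul, (H.ker P).mp hP x, map_zero]
  letI : Module H.C.T (Loc 𝔪 (KV m n p O hn)) :=
    modT (H.φ : TPoly m O →+* H.C.T) H.surj hk
  have hsm : ∀ (P : TPoly m O) (y : Loc 𝔪 (KV m n p O hn)), H.φ P • y = P • y :=
    modT_smul (H.φ : TPoly m O →+* H.C.T) H.surj hk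
  have hQT : ∀ (t : H.C.T) x, Q (t • x) = t • Q x := by
    intro t x
    obtain ⟨P, rfl⟩ := H.surj t
    rw [hact, hsm, map_smul]
  -- the Galois representation, linear over the Hecke algebra
  let ρ : GQ →* Module.End H.C.T (Loc 𝔪 (KV m n p O hn)) :=
    { toFun := fun σ =>
        { toFun := rhoY 𝔪 σ
          map_add' := map_add _
          map_smul' := fun t y => by
            obtain ⟨P, rfl⟩ := H.surj t
            rw [hsm, map_smul, RingHom.id_apply, hsm] }
      map_one' := LinearMap.ext fun y => LinearMap.congr_fun (map_one (rhoY 𝔪)) y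
      map_mul' := fun σ τ => LinearMap.ext fun y => LinearMap.congr_fun (map_mul (rhoY 𝔪) σ τ) y }
  have hρ : ∀ σ y, ρ σ y = Loc.map 𝔪 (KV.galP σ) y := fun _ _ => rfl
  have hES' : ∀ g, ρ g + (H.C.r g).det • ρ g⁻¹ =
      (H.C.r g).trace • (1 : Module.End H.C.T (Loc 𝔪 (KV m n p O hn))) := by
    intro g
    refine LinearMap.ext fun y => ?_
    obtain ⟨t, ht⟩ := H.surj (H.C.r g).trace
    obtain ⟨u, hu⟩ := H.surj (H.C.r g).det
    have h1 := hES g y t u ht hu
    rw [LinearMap.add_apply, LinearMap.smul_apply, LinearMap.smul_apply, Module.End.one_apply,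
      ← ht, ← hu, hsm, hsm, hρ, hρ]
    exact h1
  have h2 : IsUnit (2 : H.C.T) := by
    have h3 : IsUnit (2 : O) := by
      by_contra h4
      have h5 : (2 : O) ∈ maximalIdeal O := h4
      have h6 : (1 : O) ∈ maximalIdeal O := by
        obtain ⟨k, hk⟩ := hp.odd_of_ne_two hp2
        have h7 : (1 : O) = (p : O) - k * 2 := by
          rw [hk]
          push_cast
          ring
        rw [h7]
        exact Ideal.sub_mem _ hpO (Ideal.mul_mem_left _ _ h5)
      exact (maximalIdeal.isMaximal O).ne_top ((Ideal.eq_top_iff_one _).mpr h6)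
    have h8 := h3.map (algebraMap O H.C.T)
    rwa [map_ofNat] at h8
  intro x y hx hy
  have hQ0 : ∀ z ∈ (maximalIdeal O • ⊤ : Submodule O (Loc 𝔪 (HG m n hn O))), Q z = 0 := by
    intro z hz
    refine Submodule.smul_induction_on hz (fun a ha z _ => ?_) fun z w hz hw => by
      rw [map_add, hz, hw, add_zero]
    rw [← Loc.C_smul, map_smul, Loc.C_smul]
    exact Loc_KV_smul_eq_zero ha _
  have hx' := hQ0 _ hx
  have hy' := hQ0 _ hy
  rw [map_add, hQT, hQT] at hx' hy'
  obtain ⟨u, v, hu, hv⟩ := exact_transfer hES' h2 (rr_surjective hspan H.C) τ (fun y hy => hτ y hy)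
    hx' hy'
  obtain ⟨u, rfl⟩ := hQ u
  obtain ⟨v, rfl⟩ := hQ v
  refine ⟨u, v, hQk _ ?_, hQk _ ?_⟩
  · rw [map_sub, map_add, hQT, hQT, hu, sub_self]
  · rw [map_sub, map_add, hQT, hQT, hv, sub_self]

end Main

end Fermat.Agent.Ribet
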