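import Fermat.Agent.Ribet.KV
import Fermat.Agent.TW.Loc
import Mathlib.Algebra.Module.ZMod
import Mathlib.Algebra.Algebra.ZMod
import Mathlib.LinearAlgebra.FreeModule.Finite.Basic

/-!
# Exactness of `τ - 1` on the localisation of `k ⊗ J₀(n)[p]`
-/

set_option autoImplicit false
set_option linter.unusedSectionVars false
set_option linter.style.haveILetI false

noncomputable section

open AlgebraicCurve Module ModularCurve IsLocalRing
open scoped TensorProduct

namespace Fermat.Agent.Ribet

open Fermat.Agent.MzGal Fermat.Agent.TW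

local notation "Qb" => AlgebraicClosure ℚ
local notation "Γ" => (AlgebraicClosure ℚ ≃ₐ[ℚ] AlgebraicClosure ℚ)

section mod

variable {n m : ℕ} [NeZero n] (p : ℕ) (hm : ∀ q : ℕ, q.Prime → q ∣ n → q ∣ m)

/-- the polynomial ring over `ℤ` acts on the torsion -/
@[implicit_reducible]
def modJT : Module (TPoly m ℤ) (JT n p) where
  smul P x := ⟨ren hm P • (x : JZero n), MazLQ.hsmul_tors _ x.2⟩
  one_smul x := Subtype.ext (by
    show ren hm 1 • (x : JZero n) = x
    rw [map_one, one_smul])
  mul_smul P Q x := Subtype.ext (by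
    show ren hm (P * Q) • (x : JZero n) = ren hm P • ren hm Q • (x : JZero n)
    rw [map_mul, mul_smul])
  smul_zero P := Subtype.ext (smul_zero (ren hm P))
  smul_add P x y := Subtype.ext (smul_add (ren hm P) (x : JZero n) y)
  add_smul P Q x := Subtype.ext (by
    show ren hm (P + Q) • (x : JZero n) = ren hm P • (x : JZero n) + ren hm Q • (x : JZero n)
    rw [map_add, add_smul])
  zero_smul x := Subtype.ext (by
    show ren hm 0 • (x : JZero n) = 0
    rw [map_zero]
    exact zero_smul (HRing n) (x : JZero n))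

theorem finite_JT (hp : 0 < p) : Finite (JT n p) := by
  have h := finite_tors (L := Qb) (F := laurentBaseChange Qb (modularFunctionFieldFull n)) hp
  refine Finite.of_injective (fun x : JT n p =>
    (⟨(x : JZero n), mem_tors.mpr x.2⟩ :
      Pic0.torsion Qb (laurentBaseChange Qb (modularFunctionFieldFull n)) p)) fun x y hxy => ?_
  exact Subtype.ext (congrArg (fun z : Pic0.torsion Qb
    (laurentBaseChange Qb (modularFunctionFieldFull n)) p => (z : JZero n)) hxy)

/-- **The idempotent** of a maximal ideal. -/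
theorem exists_idem_JT (hp : 0 < p) (𝔪 : Ideal (TPoly m ℤ)) [𝔪.IsMaximal] :
    ∃ (e : TPoly m ℤ) (k : ℕ),
      (∀ x : JZero n, p • x = 0 → ren hm e • ren hm e • x = ren hm e • x) ∧
      (∀ t ∈ 𝔪 ^ k, ∀ x : JZero n, p • x = 0 → ren hm t • ren hm e • x = 0) ∧
      ∀ x : JZero n, p • x = 0 → ∃ s ∉ 𝔪, ren hm s • (x - ren hm e • x) = 0 := by
  letI := modJT p hm
  have := finite_JT (n := n) p hp
  obtain ⟨e, k, h1, h2, -, h4⟩ := exists_idem (V := JT n p) 𝔪
  refine ⟨e, k, fun x hx => congrArg Subtype.val (h1 ⟨x, hx⟩),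
    fun t ht x hx => congrArg Subtype.val (h2 t ht ⟨x, hx⟩), fun x hx => ?_⟩
  obtain ⟨s, hs, h⟩ := h4 ⟨x, hx⟩
  exact ⟨s, hs, congrArg Subtype.val h⟩

end mod

namespace KV

variable {m n : ℕ} {hn : n ∣ m} {p : ℕ} [NeZero n] {O : Type} [CommRing O] [IsLocalRing O]

section coord

variable [hp : Fact p.Prime]

/-- the `p`-torsion as a vector space -/
@[implicit_reducible]
def zmodJT : Module (ZMod p) (JT n p) := AddCommGroup.zmodModule fun x => Subtype.ext x.2

attribute [local instance] zmodJT

variable [Algebra (ZMod p) (ResidueField O)]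

/-- coordinates -/
def coord (b : ResidueField O →ₗ[ZMod p] ZMod p) : KV m n p O hn →+ JT n p :=
  (TensorProduct.lift (LinearMap.mk₂ ℤ (fun (a : ResidueField O) (x : JT n p) => b a • x)
    (fun a a' x => by rw [map_add, add_smul]) (fun c a x => by rw [map_zsmul, smul_assoc])
    (fun a x y => smul_add _ _ _) (fun c a x => by rw [smul_comm])) :
    ResidueField O ⊗[ℤ] JT n p →ₗ[ℤ] JT n p).toAddMonoidHom

theorem coord_tm (b : ResidueField O →ₗ[ZMod p] ZMod p) (a : ResidueField O) (x : JT n p) :
    coord b (tm hn a x) = b a • x := rfl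

theorem tm_zmod_smul (a : ResidueField O) (c : ZMod p) (x : JT n p) :
    tm hn a (c • x) = tm hn (c • a) x := by
  obtain ⟨c, rfl⟩ := ZMod.intCast_surjective c
  have h1 : ((c : ℤ) : ZMod p) • x = c • x := Int.cast_smul_eq_zsmul _ _ _
  have h2 : ((c : ℤ) : ZMod p) • a = c • a := Int.cast_smul_eq_zsmul _ _ _
  rw [h1, h2, tm_zsmul]

variable {ι : Type} [Fintype ι] (b : Basis ι (ZMod p) (ResidueField O))

theorem sum_coord (v : KV m n p O hn) : ∑ i, tm hn (b i) (coord (b.coord i) v) = v := by
  refine induction v ?_ (fun a x => ?_) fun x y hx hy => ?_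
  · simp only [map_zero, tm_zero, Finset.sum_const_zero]
  · simp only [coord_tm, tm_zmod_smul, Basis.coord_apply]
    have h1 : ∀ s : Finset ι, ∀ f : ι → ResidueField O,
        ∑ i ∈ s, tm hn (f i) x = tm hn (∑ i ∈ s, f i) x := by
      classical
      intro s f
      induction s using Finset.induction_on with
      | empty =>
        rw [Finset.sum_empty, Finset.sum_empty]
        exact (TensorProduct.zero_tmul _ _).symm
      | insert i s hi ih => rw [Finset.sum_insert hi, Finset.sum_insert hi, ih, tm_add_left]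
    rw [h1, b.sum_repr]
  · simp only [map_add, tm_add_right, Finset.sum_add_distrib]
    rw [hx, hy]

theorem coord_lift (c : ResidueField O →ₗ[ZMod p] ZMod p) (f : JT n p →ₗ[ℤ] JT n p)
    (v : KV m n p O hn) : coord c (lift f v) = f (coord c v) := by
  refine induction v ?_ (fun a x => ?_) fun x y hx hy => ?_
  · simp only [map_zero]
  · rw [lift_tm, coord_tm, coord_tm]
    obtain ⟨z, hz⟩ := ZMod.intCast_surjective (c a)
    have h1 : ∀ y : JT n p, c a • y = z • y := fun y => by
      rw [← hz]; exact Int.cast_smul_eq_zsmul _ _ _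
    rw [h1, h1, map_zsmul]
  · simp only [map_add, hx, hy]

end coord

section exact

variable (hm : ∀ q : ℕ, q.Prime → q ∣ n → q ∣ m)

/-- the action of an integral polynomial, as a linear map -/
def eL (P : TPoly m ℤ) : JT n p →ₗ[ℤ] JT n p :=
  AddMonoidHom.toIntLinearMap
    { toFun := fun x => ⟨ren hm P • (x : JZero n), MazLQ.hsmul_tors _ x.2⟩
      map_zero' := Subtype.ext (smul_zero (ren hm P))
      map_add' := fun x y => Subtype.ext (smul_add (ren hm P) (x : JZero n) y) }

theorem pz_smul (P : TPoly m ℤ) (v : KV m n p O hn) :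
    (MvPolynomial.map (Int.castRingHom O) P : TPoly m O) • v = lift (eL hm P) v := by
  refine induction v ?_ (fun a x => ?_) fun x y hx hy => ?_
  · rw [smul_zero, map_zero]
  · rw [map_smul_tm hm]
    rfl
  · rw [smul_add, hx, hy, map_add]

variable [hp : Fact p.Prime] [CharP (ResidueField O) p] [Finite (ResidueField O)]
  {e : TPoly m ℤ}
  (τ : Γ) (hexact : ∀ x : JZero n, p • x = 0 → ren hm e • x = x → τ • x = x →
    ∃ z : JZero n, p • z = 0 ∧ ren hm e • z = z ∧ τ • z - z = x)

include hexact in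
/-- exactness before localisation -/
theorem exact_aux (v : KV m n p O hn)
    (hv : (MvPolynomial.map (Int.castRingHom O) e : TPoly m O) • v = v)
    (hτ : gal τ v = v) : ∃ w : KV m n p O hn, gal τ w - w = v := by
  letI : Algebra (ZMod p) (ResidueField O) := ZMod.algebra _ p
  letI := zmodJT (n := n) (p := p)
  have hfree : Module.Free (ZMod p) (ResidueField O) := inferInstance
  have hfinM : Module.Finite (ZMod p) (ResidueField O) := inferInstance
  let b := Module.finBasis (ZMod p) (ResidueField O)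
  have key : ∀ i, ∃ z : JT n p, resT p (DistribSMul.toAddMonoidHom (JZero n) τ) z - z =
      coord (b.coord i) v := by
    intro i
    have h1 := congrArg (coord (b.coord i)) hv
    rw [pz_smul hm, coord_lift] at h1
    have h2 := congrArg (coord (b.coord i)) hτ
    rw [gal, coord_lift] at h2
    obtain ⟨z, hz1, hz2, hz3⟩ := hexact (coord (b.coord i) v : JT n p) (coord (b.coord i) v).2
      (congrArg Subtype.val h1) (congrArg Subtype.val h2)
    exact ⟨⟨z, hz1⟩, Subtype.ext hz3⟩
  choose z hz using key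
  refine ⟨∑ i, tm hn (b i) (z i), ?_⟩
  conv_rhs => rw [← sum_coord b v]
  rw [map_sum, ← Finset.sum_sub_distrib]
  refine Finset.sum_congr rfl fun i _ => ?_
  rw [← hz, gal_tm]
  have h3 : ∀ x y : JT n p, tm hn (b i) (x - y) = tm (O := O) hn (b i) x - tm hn (b i) y :=
    fun x y => TensorProduct.tmul_sub _ _ _
  rw [h3]

variable (𝔪 : Ideal (TPoly m O)) [𝔪.IsPrime]
  (h4 : ∀ x : JZero n, p • x = 0 →
    ∃ s ∉ 𝔪.comap (MvPolynomial.map (Int.castRingHom O)), ren hm s • (x - ren hm e • x) = 0)

include h4 in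
theorem mk_e (v : KV m n p O hn) :
    Loc.mk 𝔪 _ ((MvPolynomial.map (Int.castRingHom O) e : TPoly m O) • v) = Loc.mk 𝔪 _ v := by
  refine induction v ?_ (fun a x => ?_) fun x y hx hy => ?_
  · rw [smul_zero]
  · obtain ⟨s, hs, h⟩ := h4 x x.2
    rw [Ideal.mem_comap] at hs
    apply (Loc.smul_bij (𝔪 := 𝔪) hs).1
    show (MvPolynomial.map (Int.castRingHom O) s : TPoly m O) • _ =
      (MvPolynomial.map (Int.castRingHom O) s : TPoly m O) • _
    rw [← map_smul, ← map_smul, map_smul_tm hm, map_smul_tm hm, map_smul_tm hm]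
    congr 2
    apply Subtype.ext
    show ren hm s • ren hm e • (x : JZero n) = ren hm s • (x : JZero n)
    rw [smul_sub, sub_eq_zero] at h
    exact h.symm
  · rw [smul_add, map_add, map_add, hx, hy]

variable (he : ∀ x : JZero n, p • x = 0 → ren hm e • ren hm e • x = ren hm e • x)

include hexact h4 he in
/-- **Exactness on the localisation.** -/
theorem exact_loc (y : Loc 𝔪 (KV m n p O hn)) (hy : Loc.map 𝔪 (galP τ) y = y) :
    ∃ z, Loc.map 𝔪 (galP τ) z - z = y := by
  obtain ⟨s, hs, v, hv⟩ := Loc.exists_smul y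
  have h1 : Loc.mk 𝔪 _ (galP τ v - v) = 0 := by
    rw [map_sub, ← Loc.map_mk, ← hv, map_smul, hy, sub_self]
  obtain ⟨t, ht, h2⟩ := Loc.mk_eq_zero.mp h1
  set e' : TPoly m O := MvPolynomial.map (Int.castRingHom O) e with he'
  have h3 : galP τ (t • v) = t • v := by
    rw [map_smul, ← sub_eq_zero, ← smul_sub, h2]
  have hee : e' • e' • (t • v) = e' • (t • v) := by
    rw [he', pz_smul hm, pz_smul hm, ← Module.End.mul_apply, lift_mul]
    congr 2
    exact LinearMap.ext fun x => Subtype.ext (he x x.2)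
  obtain ⟨w, hw⟩ := exact_aux hm τ hexact (e' • (t • v)) hee (by
    have h5 : galP τ (e' • (t • v)) = e' • (t • v) := by rw [map_smul, h3]
    exact h5)
  have hts : t * s ∉ 𝔪 := fun h => ((inferInstance : 𝔪.IsPrime).mem_or_mem h).elim ht hs
  obtain ⟨z, hz⟩ := (Loc.smul_bij (N := KV m n p O hn) hts).2 (Loc.mk 𝔪 _ w)
  have hz' : (t * s) • z = Loc.mk 𝔪 _ w := hz
  refine ⟨z, (Loc.smul_bij (𝔪 := 𝔪) hts).1 ?_⟩
  show (t * s) • (Loc.map 𝔪 (galP τ) z - z) = (t * s) • y
  rw [smul_sub, ← map_smul, hz', Loc.map_mk, ← map_sub]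
  have h6 : galP τ w - w = e' • (t • v) := hw
  rw [h6, he', mk_e hm 𝔪 h4, map_smul, mul_smul, hv]

end exact

end KV

end Fermat.Agent.Ribet
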