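import Fermat.Agent.Ribet.KV
import Fermat.Agent.TWP.Tame2
import Fermat.Agent.NewPoint.Final
import Fermat.Agent.GalJ.Level

/-!
# Tame generators act like inertia on the `p`-torsion at a prime exactly dividing the level
-/

set_option autoImplicit false
set_option linter.unusedSectionVars false
set_option linter.style.haveILetI false

noncomputable section

open AlgebraicCurve Module ModularCurve

namespace Fermat.Agent.Ribet

open Fermat.Agent.MzGal

local notation "Qb" => AlgebraicClosure ℚ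
local notation "Γ" => (AlgebraicClosure ℚ ≃ₐ[ℚ] AlgebraicClosure ℚ)

/-- Galois action on the torsion -/
@[implicit_reducible]
def actJT (n p : ℕ) [NeZero n] : MulAction Γ (JT n p) where
  smul σ x := resT p (DistribSMul.toAddMonoidHom (JZero n) σ) x
  one_smul x := Subtype.ext (one_smul Γ (x : JZero n))
  mul_smul σ τ x := Subtype.ext (mul_smul σ τ (x : JZero n))

theorem pow_smul_of_unip {n : ℕ} [NeZero n] (σ : Γ) (x : JZero n)
    (h : σ • (σ • x - x) = σ • x - x) (k : ℕ) : σ ^ k • x = x + k • (σ • x - x) := by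
  induction k with
  | zero =>
    rw [pow_zero, one_smul]
    exact ((congrArg (x + ·) (zero_nsmul (σ • x - x))).trans (add_zero x)).symm
  | succ k ih =>
    have h1 : ∀ j : ℕ, σ • (j • (σ • x - x)) = j • (σ • x - x) := fun j => by
      have h2 := map_nsmul (DistribSMul.toAddMonoidHom (JZero n) σ) j (σ • x - x)
      have h3 : σ • (j • (σ • x - x)) = j • (σ • (σ • x - x)) := h2
      rw [h3, h]
    rw [pow_succ', mul_smul, ih, smul_add, h1, succ_nsmul]
    abel

theorem exists_level_JT (n p : ℕ) [NeZero n] (hp : 0 < p) :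
    ∃ L : IntermediateField ℚ Qb, FiniteDimensional ℚ L ∧
      ∀ σ : Γ, (∀ z ∈ L, σ z = z) → ∀ x : JZero n, p • x = 0 → σ • x = x := by
  have hfin : Finite (JT n p) := by
    have h := finite_tors (L := Qb) (F := laurentBaseChange Qb (modularFunctionFieldFull n)) hp
    refine Finite.of_injective (fun x : JT n p =>
      (⟨(x : JZero n), mem_tors.mpr x.2⟩ :
        Pic0.torsion Qb (laurentBaseChange Qb (modularFunctionFieldFull n)) p)) fun x y hxy => ?_
    exact Subtype.ext (congrArg (fun z : Pic0.torsion Qb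
      (laurentBaseChange Qb (modularFunctionFieldFull n)) p => (z : JZero n)) hxy)
  choose E hE1 hE2 using fun x : JT n p => GalJ.level_JZero n (x : JZero n)
  have := hE1
  refine ⟨⨆ x, E x, IntermediateField.finiteDimensional_iSup_of_finite, fun σ hσ x hx => ?_⟩
  exact hE2 ⟨x, hx⟩ σ fun z hz => hσ z ((le_iSup E ⟨x, hx⟩ : E ⟨x, hx⟩ ≤ _) hz)

/-- **A tame generator detects inertia invariants.** -/
theorem tame_JT {n p : ℕ} [NeZero n] [hp : Fact p.Prime] {q : Nat.Primes} (hq : (q : ℕ) ≠ p)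
    (hqn : (q : ℕ) ∣ n) (hq2 : ¬ (q : ℕ) ^ 2 ∣ n) {c : Qb} (hc : c ^ p = ((q : ℕ) : Qb)) {τ : Γ}
    (hτ : τ ∈ (TWP.Pl q).inertiaSubgroupIn ℚ) (hτc : τ c ≠ c) (x : JZero n) (hx : p • x = 0)
    (hτx : τ • x = x) (σ : Γ) (hσ : σ ∈ (TWP.Pl q).inertiaSubgroupIn ℚ) : σ • x = x := by
  letI := actJT n p
  obtain ⟨L, hL, hLx⟩ := exists_level_JT n p hp.out.pos
  let f : ↥((TWP.Pl q).inertiaSubgroupIn ℚ) →* Equiv.Perm (JT n p) :=
    (MulAction.toPermHom Γ (JT n p)).comp (Subgroup.subtype _)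
  have hf : ∀ (s : ↥((TWP.Pl q).inertiaSubgroupIn ℚ)) (y : JT n p),
      ((f s y : JT n p) : JZero n) = s.1 • (y : JZero n) := fun _ _ => rfl
  obtain ⟨j, hj⟩ := TWP.tame_gen hq hc hτ hτc f L
    (fun s hs => Equiv.ext fun y => Subtype.ext (by
      rw [hf, hLx s.1 hs _ y.2]
      rfl))
    (fun s => ⟨1, Equiv.ext fun y => Subtype.ext (by
      rw [pow_one, ← map_pow, hf]
      have h1 := NewPoint.unipotent_torsion hp.out q.2 hq hqn hq2 (TWP.Pl q) (TWP.Pl_lies q)
        s.1 s.2 (y : JZero n) ⟨1, by rw [pow_one]; exact y.2⟩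
      have h2 := pow_smul_of_unip s.1 (y : JZero n) h1 p
      have h3 : p • (s.1 • (y : JZero n) - y) = 0 := by
        have h4 : p • (s.1 • (y : JZero n)) = 0 := (resT p
          (DistribSMul.toAddMonoidHom (JZero n) s.1) y).2
        rw [nsmul_sub, h4, show p • (y : JZero n) = 0 from y.2, sub_zero]
      rw [h3, add_zero] at h2
      exact h2)⟩) ⟨σ, hσ⟩
  have h1 : f ⟨τ, hτ⟩ ⟨x, hx⟩ = ⟨x, hx⟩ := Subtype.ext (by rw [hf]; exact hτx)
  have h2 : ((f ⟨τ, hτ⟩) ^ j) ⟨x, hx⟩ = (⟨x, hx⟩ : JT n p) := by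
    have h3 : f ⟨τ, hτ⟩ ∈ MulAction.stabilizer (Equiv.Perm (JT n p)) (⟨x, hx⟩ : JT n p) := h1
    exact Subgroup.zpow_mem _ h3 j
  have h3 : f ⟨σ, hσ⟩ ⟨x, hx⟩ = ⟨x, hx⟩ := by rw [hj]; exact h2
  have h4 := congrArg Subtype.val h3
  rw [hf] at h4
  exact h4

end Fermat.Agent.Ribet
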