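import Fermat.Agent.Ribet.LocJ
import Fermat.Agent.Ribet.ClassC
import Fermat.Agent.Ribet.KVExact
import Fermat.Agent.Ribet.Tame
import Fermat.Agent.RTM.NonEis

/-!
# Exactness of `τ - 1` on the localised `k ⊗ J₀(N r)[p]`
-/

set_option autoImplicit false
set_option linter.unusedSectionVars false
set_option linter.style.haveILetI false

noncomputable section

open AlgebraicCurve Module ModularCurve IsLocalRing

namespace Fermat.Agent.Ribet

open Fermat.Agent.HeckeRed Fermat.Agent.MzGal Fermat.Agent.TW Fermat.Agent.RTM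

local notation "Qb" => AlgebraicClosure ℚ
local notation "Γ" => (AlgebraicClosure ℚ ≃ₐ[ℚ] AlgebraicClosure ℚ)

/-- no eigenclasses with the eigenvalues of `W` -/
theorem no_class (W : WeierstrassCurve ℤ) (hΔ : W.Δ ≠ 0) {N r p m : ℕ} [NeZero N] (hr : r.Prime)
    (hrN : ¬ r ∣ N) (hp : p.Prime) (hm : m ≠ 0) (hNm : N * r ∣ m) {A : ValuationSubring Qb}
    (hA : A.LiesOverPrime r) [IsAlgClosed (ResidueField A)]
    (hno : ¬ W.IsResiduallyModularOfLevel p N)
    (c : Pic0 (ResidueField A) (modularFunctionFieldFullC (ResidueField A) N)) (hc : p • c = 0)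
    (h : ∀ l : Pr m, (haveI : NeZero l.1 := ⟨l.2.1.ne_zero⟩; Tk A N l.1) c =
      W.apOfModel l • c) : c = 0 := by
  by_contra hc0
  apply hno
  have i0 : Fact r.Prime := ⟨hr⟩
  have i1 : Fact p.Prime := ⟨hp⟩
  obtain ⟨f, 𝔪, hf, h𝔪, hp𝔪, hfa⟩ := exists_eigenform_of_classC₂ (N := N) (S := {q | q ∣ m})
    (fun q hq hqN => hqN.trans ((Dvd.intro r rfl).trans hNm)) hrN
    ((Dvd.intro_left N rfl).trans hNm) A hA W.apOfModel p hc0 hc (fun ℓ hℓ _ hℓN hℓS =>
      h ⟨ℓ, hℓ, hℓS⟩)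
  refine ⟨f, 𝔪, hf, h𝔪, hp𝔪, fun ℓ hℓ hg hℓN hℓp => ?_⟩
  refine congr_of_ae_form (W := W) (hΔ := hΔ) hf hp 𝔪 hp𝔪 m.divisors (fun q hq hqN hqm => ?_) hℓ
    hℓN hℓp hg
  exact hfa q hq hqN fun h' => hqm (Nat.mem_divisors.mpr ⟨h', hm⟩)

section Max

variable (W : WeierstrassCurve ℤ) {O : Type} [CommRing O] [IsLocalRing O] (m : ℕ) {p : ℕ}

/-- the contracted ideal is maximal -/
theorem isMaximal_comap (hp : p.Prime) (hpO : (p : O) ∈ maximalIdeal O) :
    ((PP W m O).comap (TWD.Shap.pz m O)).IsMaximal := by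
  have i1 : Fact p.Prime := ⟨hp⟩
  have h0 : (p : ResidueField O) = 0 := by
    rw [← map_natCast (residue O), residue_eq_zero_iff]
    exact hpO
  have hchar : CharP (ResidueField O) p := (CharP.charP_iff_prime_eq_zero hp).mpr h0
  let F : TPoly m ℤ →+* ZMod p :=
    MvPolynomial.eval₂Hom (Int.castRingHom (ZMod p)) (fun l => ((W.apOfModel l : ℤ) : ZMod p))
  have hF : Function.Surjective F := fun x => by
    obtain ⟨c, rfl⟩ := ZMod.intCast_surjective x
    exact ⟨MvPolynomial.C c, MvPolynomial.eval₂Hom_C _ _ _⟩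
  have h1 : (PP W m O).comap (TWD.Shap.pz m O) = RingHom.ker F := by
    have h2 : (evP W m O).comp (TWD.Shap.pz m O) =
        (ZMod.castHom (dvd_refl p) (ResidueField O)).comp F := by
      refine MvPolynomial.ringHom_ext (fun a => ?_) (fun l => ?_)
      · rw [RingHom.comp_apply, RingHom.comp_apply, MvPolynomial.map_C, evP_C]
        have h3 : F (MvPolynomial.C a) = (a : ZMod p) := MvPolynomial.eval₂Hom_C _ _ _
        rw [h3, map_intCast]
        exact map_intCast (residue O) a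
      · rw [RingHom.comp_apply, RingHom.comp_apply, MvPolynomial.map_X, evP_X]
        have h3 : F (MvPolynomial.X l) = ((W.apOfModel l : ℤ) : ZMod p) :=
          MvPolynomial.eval₂Hom_X' _ _ _
        rw [h3, map_intCast]
    ext x
    have h4 : evP W m O (TWD.Shap.pz m O x) =
        ZMod.castHom (dvd_refl p) (ResidueField O) (F x) := congrArg (fun g => g x) h2
    rw [Ideal.mem_comap, mem_PP, h4, RingHom.mem_ker]
    exact map_eq_zero_iff _ (ZMod.castHom (dvd_refl p) (ResidueField O)).injective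
  rw [h1]
  exact RingHom.ker_isMaximal_of_surjective _ hF

end Max

/-- **Exactness of `τ - 1` on the localised torsion.** -/
theorem exact_W (W : WeierstrassCurve ℤ) (hΔ : W.Δ ≠ 0) {n N r p m : ℕ} [NeZero n] (hnr : n = N * r)
    (hr : r.Prime) (hrN : ¬ r ∣ N) [hp : Fact p.Prime] (hpr : p ≠ r) (hp2 : p ≠ 2) (h2N : 2 ∣ N)
    (hr2 : r ≠ 2) (hm : m ≠ 0) (hn : n ∣ m) {O : Type} [CommRing O] [IsLocalRing O]
    [Finite (ResidueField O)] (hpO : (p : O) ∈ maximalIdeal O) (hE : NonEis n (PP W m O))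
    (hno : ¬ W.IsResiduallyModularOfLevel p N) {c : Qb} (hc : c ^ p = (r : Qb)) {τ : Γ}
    (hτ : τ ∈ (TWP.Pl ⟨r, hr⟩).inertiaSubgroupIn ℚ) (hτc : τ c ≠ c)
    (y : Loc (PP W m O) (KV m n p O hn)) (hy : Loc.map (PP W m O) (KV.galP τ) y = y) :
    ∃ z, Loc.map (PP W m O) (KV.galP τ) z - z = y := by
  have hm' : ∀ q : ℕ, q.Prime → q ∣ n → q ∣ m := fun q _ h => h.trans hn
  have h𝔪 := isMaximal_comap W (O := O) m hp.out hpO
  obtain ⟨e, k, he1, he2, he3⟩ := exists_idem_JT (n := n) p hm' hp.out.pos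
    ((PP W m O).comap (TWD.Shap.pz m O))
  have h0 : (p : ResidueField O) = 0 := by
    rw [← map_natCast (residue O), residue_eq_zero_iff]
    exact hpO
  have hchar : CharP (ResidueField O) p := (CharP.charP_iff_prime_eq_zero hp.out).mpr h0
  refine KV.exact_loc (n := n) (p := p) (hn := hn) hm' (e := e) τ (fun x hx hex hτx => ?_)
    (PP W m O) he3 he1 y hy
  subst hnr
  have hN0 : NeZero N := ⟨fun h => NeZero.ne (N * r) (by rw [h, zero_mul])⟩
  have hA : (TWP.Pl ⟨r, hr⟩).LiesOverPrime r := TWP.Pl_lies ⟨r, hr⟩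
  have i1 : IsAlgClosed (ResidueField (TWP.Pl ⟨r, hr⟩)) := isAlgClosed_residueField _
  have i2 : CharP (ResidueField (TWP.Pl ⟨r, hr⟩)) r := charP_residueField hr hA
  obtain ⟨NN, Z, sp, D⟩ := exists_locDat (m := m) hr hrN hp.out hpr hp2 h2N hr2 hm' hA
  obtain ⟨l₀, -, hl₀⟩ := hE
  refine exact_J hm' D ((PP W m O).comap (TWD.Shap.pz m O)) (fun l => W.apOfModel l) (fun l => ?_)
    ⟨l₀, fun h => hl₀ ?_⟩ (fun c hc h => no_class W hΔ hr hrN hp.out hm hn hA hno c hc h) hr hA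
    hp.out.pos ((Nat.coprime_primes hp.out hr).mpr hpr) he1 he2 hτ
    (fun x hx hτx σ hσ => ?_) hx hex hτx
  · rw [Ideal.mem_comap, map_sub, MvPolynomial.map_X, MvPolynomial.map_C]
    exact X_sub_C_mem_PP W m O l
  · rw [Ideal.mem_comap, map_sub, MvPolynomial.map_X, MvPolynomial.map_C] at h
    have h1 : (Int.castRingHom O) (((l₀ : ℕ) : ℤ) + 1) = ((l₀ : ℕ) : O) + 1 := by
      rw [map_add, map_one, map_natCast]
    rw [h1] at h
    exact h
  · refine tame_JT (q := ⟨r, hr⟩) hpr.symm (Dvd.intro_left N rfl) (fun h => hrN ?_) hc hτ hτc x hx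
      hτx σ hσ
    obtain ⟨d, hd⟩ := h
    refine ⟨d, ?_⟩
    have h1 : r * N = r * (r * d) := by
      rw [mul_comm r N, hd]
      ring
    exact Nat.eq_of_mul_eq_mul_left hr.pos h1

end Fermat.Agent.Ribet
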