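import Fermat.Agent.Ribet.Count
import Mathlib.Data.ZMod.Basic
import Mathlib.SetTheory.Cardinal.Finite

/-!
# The lower bound for the toric part
-/

set_option autoImplicit false

namespace Fermat.Agent.Ribet

variable {J : Type*} [AddCommGroup J]

/-- pigeonhole for subgroups -/
theorem card_le_of_slope {n : ℕ} [NeZero n] (K Z : AddSubgroup J) [Finite K] (s : K → ZMod n)
    (hs : ∀ x y : K, s x = s y → (x : J) - y ∈ Z) :
    Nat.card K ≤ n * Nat.card (K ⊓ Z : AddSubgroup J) := by
  classical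
  have hfin : Finite (K ⊓ Z : AddSubgroup J) :=
    Finite.of_injective (AddSubgroup.inclusion (inf_le_left : K ⊓ Z ≤ K))
      (AddSubgroup.inclusion_injective _)
  let b : ZMod n → K := fun v => if h : ∃ x, s x = v then h.choose else 0
  have hb : ∀ x, s (b (s x)) = s x := by
    intro x
    have h : ∃ y, s y = s x := ⟨x, rfl⟩
    have : b (s x) = h.choose := dif_pos h
    rw [this]
    exact h.choose_spec
  let f : K → ZMod n × (K ⊓ Z : AddSubgroup J) := fun x =>
    (s x, ⟨(x : J) - b (s x), K.sub_mem x.2 (b (s x)).2, hs _ _ (hb x).symm⟩)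
  have hf : Function.Injective f := by
    intro x y hxy
    have h1 : s x = s y := congrArg Prod.fst hxy
    have h2 : (x : J) - b (s x) = y - b (s y) :=
      congrArg (fun z : ZMod n × (K ⊓ Z : AddSubgroup J) => (z.2 : J)) hxy
    rw [h1] at h2
    exact Subtype.ext (sub_left_injective h2)
  have h := Nat.card_le_card_of_injective f hf
  rwa [Nat.card_prod, Nat.card_zmod] at h

/-- The fundamental inequality. -/
theorem ge_of_slope {n g g₁ t : ℕ} [NeZero n] (hg : g = 2 * g₁ + t) (V : AddSubgroup J) [Finite V]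
    (hV : Nat.card V = n ^ (2 * g)) (τ : J →+ J) (NN Z : AddSubgroup J)
    [Finite NN] (hNN : ∀ x ∈ V, τ x - x ∈ NN)
    (s : {x : V // τ x = x} → ZMod n)
    (hs : ∀ x y : {x : V // τ x = x}, s x = s y → (x.1.1 : J) - y.1.1 ∈ Z)
    {P : Type*} [AddCommGroup P] (sp : Z →+ P) (hker : ∀ z, sp z = 0 → (z : J) ∈ NN)
    (hfin : Finite sp.range) (hP : Nat.card sp.range ≤ n ^ (4 * g₁)) :
    n ^ (2 * t) ≤ 1 * n * Nat.card NN ^ 2 := by
  -- the kernel of `τ - 1`
  let K : AddSubgroup J :=
    { carrier := {x | x ∈ V ∧ τ x = x}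
      zero_mem' := ⟨V.zero_mem, map_zero τ⟩
      add_mem' := fun {x y} hx hy => ⟨V.add_mem hx.1 hy.1, by rw [map_add, hx.2, hy.2]⟩
      neg_mem' := fun {x} hx => ⟨V.neg_mem hx.1, by rw [map_neg, hx.2]⟩ }
  have hKV : K ≤ V := fun x hx => hx.1
  have hKfin : Finite K := Finite.of_injective (AddSubgroup.inclusion hKV)
    (AddSubgroup.inclusion_injective _)
  -- the map `τ - 1`
  let f : V →+ NN :=
    { toFun := fun x => ⟨τ x - x, hNN x x.2⟩
      map_zero' := by ext; simp
      map_add' := fun x y => by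
        apply Subtype.ext
        show τ ((x : J) + y) - ((x : J) + y) = (τ x - x) + (τ y - y)
        rw [map_add]; abel }
  have h1 : Nat.card V = Nat.card f.ker * Nat.card f.range := by
    rw [← AddSubgroup.card_mul_index f.ker, AddSubgroup.index_ker]
  have h2 : Nat.card f.ker ≤ Nat.card K := by
    refine Nat.card_le_card_of_injective
      (fun x => (⟨x.1.1, x.1.2, ?_⟩ : K)) ?_
    · have := congrArg Subtype.val (AddMonoidHom.mem_ker.mp x.2)
      exact sub_eq_zero.mp this
    · intro x y hxy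
      exact Subtype.ext (Subtype.ext (congrArg (fun z : K => (z : J)) hxy))
  have h3 : Nat.card f.range ≤ Nat.card NN :=
    Nat.card_le_card_of_injective _ (AddSubgroup.subtype_injective _)
  have h4 := card_le_of_slope (n := n) K Z (fun x => s ⟨⟨x.1, x.2.1⟩, x.2.2⟩)
    (fun x y hxy => hs _ _ hxy)
  -- the specialisation map
  have hkerfin : Finite sp.ker := Finite.of_injective
    (fun x : sp.ker => (⟨(x.1 : J), hker x.1 (AddMonoidHom.mem_ker.mp x.2)⟩ : NN))
    (fun x y hxy => Subtype.ext (Subtype.ext (congrArg (fun z : NN => (z : J)) hxy)))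
  have h5 : Nat.card sp.ker ≤ Nat.card NN := Nat.card_le_card_of_injective
    (fun x : sp.ker => (⟨(x.1 : J), hker x.1 (AddMonoidHom.mem_ker.mp x.2)⟩ : NN))
    (fun x y hxy => Subtype.ext (Subtype.ext (congrArg (fun z : NN => (z : J)) hxy)))
  have h6 : Nat.card Z = Nat.card sp.ker * Nat.card sp.range := by
    rw [← AddSubgroup.card_mul_index sp.ker, AddSubgroup.index_ker]
  have h7 : Finite Z := by
    apply Nat.finite_of_card_ne_zero
    rw [h6]
    exact mul_ne_zero Nat.card_pos.ne' Nat.card_pos.ne'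
  have h8 : Nat.card (K ⊓ Z : AddSubgroup J) ≤ Nat.card Z :=
    Nat.card_le_card_of_injective _ (AddSubgroup.inclusion_injective inf_le_right)
  have h9 : n ^ (2 * g) ≤ (n * (Nat.card NN * n ^ (4 * g₁))) * Nat.card NN := by
    rw [← hV, h1]
    refine Nat.mul_le_mul (h2.trans (h4.trans (Nat.mul_le_mul_left _ (h8.trans ?_)))) h3
    rw [h6]
    exact Nat.mul_le_mul h5 hP
  have h10 : 0 < n ^ (4 * g₁) := pow_pos (NeZero.pos n) _
  refine Nat.le_of_mul_le_mul_right (c := n ^ (4 * g₁)) ?_ h10
  calc n ^ (2 * t) * n ^ (4 * g₁) = n ^ (2 * g) := by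
        rw [← pow_add, hg]; congr 1; ring
    _ ≤ _ := h9
    _ = _ := by ring

end Fermat.Agent.Ribet
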