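import Fermat.Agent.Ribet.Count
import Mathlib.Data.ZMod.Basic
import Mathlib.SetTheory.Cardinal.Finite
import Mathlib.LinearAlgebra.LinearIndependent.Lemmas
import Mathlib.LinearAlgebra.Dimension.Finite
import Mathlib.LinearAlgebra.Dimension.Constructions
import Mathlib.LinearAlgebra.FreeModule.Finite.Basic
import Mathlib.FieldTheory.Fixed

/-!
# The lower bound for the toric part, by means of Frobenius and the Weil pairing
-/

set_option autoImplicit false

namespace Fermat.Agent.Ribet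

/-- counting along a homomorphism -/
theorem card_le_mul {A B : Type*} [AddCommGroup A] [AddCommGroup B] (S : AddSubgroup A)
    (f : A →+ B) (T : AddSubgroup B) (hT : ∀ x ∈ S, f x ∈ T) [Finite T] :
    Nat.card S ≤ Nat.card (S ⊓ f.ker : AddSubgroup A) * Nat.card T := by
  let h : S →+ T := (f.comp S.subtype).codRestrict T fun x => hT x x.2
  have h1 : Nat.card S = Nat.card h.ker * Nat.card h.range := by
    rw [← AddSubgroup.card_mul_index h.ker, AddSubgroup.index_ker]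
  have h2 : Nat.card h.range ≤ Nat.card T :=
    Nat.card_le_card_of_injective _ (AddSubgroup.subtype_injective _)
  have h3 : Nat.card h.ker = Nat.card (S ⊓ f.ker : AddSubgroup A) := by
    refine Nat.card_congr ⟨fun x => ⟨x.1.1, x.1.2, ?_⟩, fun x => ⟨⟨x.1, x.2.1⟩, ?_⟩,
      fun x => rfl, fun x => rfl⟩
    · exact congrArg Subtype.val (AddMonoidHom.mem_ker.mp x.2)
    · exact AddMonoidHom.mem_ker.mpr (Subtype.ext (AddMonoidHom.mem_ker.mp x.2.2))
  rw [h1, h3]
  exact Nat.mul_le_mul_left _ h2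

/-- The fundamental inequality. -/
theorem ge_of_frob {J J₁ : Type*} [AddCommGroup J] [AddCommGroup J₁] {n g g₁ t l C₁ C₂ : ℕ}
    (hn : 0 < n) (hg : g = 2 * g₁ + t) (V : AddSubgroup J) [Finite V]
    (hV : Nat.card V = n ^ (2 * g)) (V₁ : AddSubgroup J₁) [Finite V₁]
    (hV₁ : Nat.card V₁ = n ^ (2 * g₁)) (Φ : J →+ J) (Φ₁ : J₁ →+ J₁) (α β : J →+ J₁)
    (hαV : ∀ x ∈ V, α x ∈ V₁) (hβV : ∀ x ∈ V, β x ∈ V₁)
    (hα : ∀ x, α (Φ x) = Φ₁ (α x)) (hβ : ∀ x, β (Φ x) = Φ₁ (β x))
    (NN : AddSubgroup J) [Finite NN]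
    (h1 : ∀ x ∈ V, α x = 0 → β x = 0 → Φ (Φ x) - x ∈ NN)
    (W : AddSubgroup J₁) (hW : ∀ y ∈ V₁, Φ₁ (Φ₁ y) = l ^ 2 • y → y ∈ W)
    [Finite W] (hWC : Nat.card W ≤ C₁)
    (E₁ E₂ : AddSubgroup J) (hE₁ : ∀ x, x ∈ E₁ ↔ x ∈ V ∧ Φ (Φ x) = x)
    (hE₂ : ∀ x, x ∈ E₂ ↔ x ∈ V ∧ Φ (Φ x) = l ^ 2 • x)
    (h3 : Nat.card E₁ ≤ Nat.card E₂)
    (Z : AddSubgroup J) (hZ : ∀ x ∈ V, l ^ 2 • x = x → x ∈ Z) [Finite Z] (hZC : Nat.card Z ≤ C₂) :
    n ^ (2 * t) ≤ C₁ * C₁ * C₂ * Nat.card NN ^ 2 := by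
  -- `Kr`
  let Kr : AddSubgroup J := V ⊓ (α.prod β).ker
  have hKr : ∀ x, x ∈ Kr ↔ x ∈ V ∧ α x = 0 ∧ β x = 0 := by
    intro x
    rw [AddSubgroup.mem_inf, AddMonoidHom.mem_ker]
    constructor
    · rintro ⟨h, h'⟩; exact ⟨h, congrArg Prod.fst h', congrArg Prod.snd h'⟩
    · rintro ⟨h, h', h''⟩; exact ⟨h, Prod.ext h' h''⟩
  have hfinprod : Finite (V₁.prod V₁ : AddSubgroup (J₁ × J₁)) :=
    Finite.of_equiv _ (AddSubgroup.prodEquiv V₁ V₁).symm.toEquiv
  have hcardprod : ∀ U : AddSubgroup J₁, Nat.card (U.prod U : AddSubgroup (J₁ × J₁)) =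
      Nat.card U * Nat.card U := fun U => by
    rw [Nat.card_congr (AddSubgroup.prodEquiv U U).toEquiv, Nat.card_prod]
  have e1 : Nat.card V ≤ Nat.card Kr * (Nat.card V₁ * Nat.card V₁) := by
    rw [← hcardprod]
    exact card_le_mul V (α.prod β) (V₁.prod V₁) fun x hx => ⟨hαV x hx, hβV x hx⟩
  -- `Kr → NN`
  let D : J →+ J := Φ.comp Φ - AddMonoidHom.id J
  have hD : ∀ x, D x = Φ (Φ x) - x := fun x => rfl
  have e2 : Nat.card Kr ≤ Nat.card (Kr ⊓ D.ker : AddSubgroup J) * Nat.card NN :=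
    card_le_mul Kr D NN fun x hx => h1 x ((hKr x).mp hx).1 ((hKr x).mp hx).2.1 ((hKr x).mp hx).2.2
  have hE₁fin : Finite E₁ := Finite.of_injective
    (fun x : E₁ => (⟨x.1, ((hE₁ _).mp x.2).1⟩ : V))
    (fun x y hxy => Subtype.ext (congrArg (fun z : V => (z : J)) hxy))
  have e3 : Nat.card (Kr ⊓ D.ker : AddSubgroup J) ≤ Nat.card E₁ := by
    refine Nat.card_le_card_of_injective _ (AddSubgroup.inclusion_injective (H := Kr ⊓ D.ker) ?_)
    intro x hx
    exact (hE₁ x).mpr ⟨((hKr x).mp hx.1).1, sub_eq_zero.mp (AddMonoidHom.mem_ker.mp hx.2)⟩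
  -- `E₂`
  have hfinW : Finite (W.prod W : AddSubgroup (J₁ × J₁)) :=
    Finite.of_equiv _ (AddSubgroup.prodEquiv W W).symm.toEquiv
  have e4 : Nat.card E₂ ≤ Nat.card (E₂ ⊓ (α.prod β).ker : AddSubgroup J) *
      (Nat.card W * Nat.card W) := by
    rw [← hcardprod]
    refine card_le_mul E₂ (α.prod β) (W.prod W) fun x hx => ⟨?_, ?_⟩
    · have hx' := (hE₂ x).mp hx
      refine hW _ (hαV x hx'.1) ?_
      show Φ₁ (Φ₁ (α x)) = l ^ 2 • α x
      rw [← hα, ← hα, hx'.2, map_nsmul]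
    · have hx' := (hE₂ x).mp hx
      refine hW _ (hβV x hx'.1) ?_
      show Φ₁ (Φ₁ (β x)) = l ^ 2 • β x
      rw [← hβ, ← hβ, hx'.2, map_nsmul]
  set K₂ : AddSubgroup J := E₂ ⊓ (α.prod β).ker with hK₂
  have e5 : Nat.card K₂ ≤ Nat.card (K₂ ⊓ D.ker : AddSubgroup J) * Nat.card NN := by
    refine card_le_mul K₂ D NN fun x hx => ?_
    have hx1 := ((hE₂ x).mp hx.1).1
    have hx2 := AddMonoidHom.mem_ker.mp hx.2
    exact h1 x hx1 (congrArg Prod.fst hx2) (congrArg Prod.snd hx2)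
  have e6 : Nat.card (K₂ ⊓ D.ker : AddSubgroup J) ≤ Nat.card Z := by
    refine Nat.card_le_card_of_injective _ (AddSubgroup.inclusion_injective (H := K₂ ⊓ D.ker) ?_)
    intro x hx
    have hx1 := (hE₂ x).mp hx.1.1
    refine hZ x hx1.1 ?_
    rw [← hx1.2]
    exact sub_eq_zero.mp (AddMonoidHom.mem_ker.mp hx.2)
  -- conclusion
  have hpos : 0 < n ^ (2 * g₁) * n ^ (2 * g₁) := by positivity
  have e7 : n ^ (2 * g) ≤ (C₁ * C₁ * C₂ * Nat.card NN ^ 2) * (n ^ (2 * g₁) * n ^ (2 * g₁)) := by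
    calc n ^ (2 * g) = Nat.card V := hV.symm
      _ ≤ Nat.card Kr * (Nat.card V₁ * Nat.card V₁) := e1
      _ ≤ (Nat.card E₁ * Nat.card NN) * (n ^ (2 * g₁) * n ^ (2 * g₁)) := by
          rw [hV₁]
          exact Nat.mul_le_mul_right _ (e2.trans (Nat.mul_le_mul_right _ e3))
      _ ≤ (C₁ * C₁ * C₂ * Nat.card NN ^ 2) * (n ^ (2 * g₁) * n ^ (2 * g₁)) := by
          refine Nat.mul_le_mul_right _ ?_
          calc Nat.card E₁ * Nat.card NN ≤ (Nat.card K₂ * (Nat.card W * Nat.card W)) *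
              Nat.card NN := Nat.mul_le_mul_right _ (h3.trans e4)
            _ ≤ ((C₂ * Nat.card NN) * (C₁ * C₁)) * Nat.card NN := by
              refine Nat.mul_le_mul_right _ (Nat.mul_le_mul ?_ (Nat.mul_le_mul hWC hWC))
              exact e5.trans (Nat.mul_le_mul_right _ (e6.trans hZC))
            _ = _ := by ring
  refine Nat.le_of_mul_le_mul_right ?_ hpos
  calc n ^ (2 * t) * (n ^ (2 * g₁) * n ^ (2 * g₁)) = n ^ (2 * g) := by
        rw [← pow_add, ← pow_add, hg]; congr 1; ring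
    _ ≤ _ := e7

/-- characters of a finite group with values in a field -/
theorem card_hom_le {H K : Type*} [AddCommGroup H] [Finite H] [Field K] :
    Finite (H →+ Additive Kˣ) ∧ Nat.card (H →+ Additive Kˣ) ≤ Nat.card H := by
  classical
  have : Fintype H := Fintype.ofFinite H
  let e : (H →+ Additive Kˣ) → (Multiplicative H →* K) := fun f =>
    { toFun := fun x => ((Additive.toMul (f (Multiplicative.toAdd x)) : Kˣ) : K)
      map_one' := by simp
      map_mul' := fun x y => by simp }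
  have he : Function.Injective e := by
    intro f f' hff
    ext x
    have := congrArg (fun h : Multiplicative H →* K => h (Multiplicative.ofAdd x)) hff
    exact this
  have hli := linearIndependent_monoidHom (Multiplicative H) K
  have hfin : Finite (Multiplicative H →* K) := hli.finite
  refine ⟨Finite.of_injective e he, ?_⟩
  refine (Nat.card_le_card_of_injective e he).trans ?_
  have : Fintype (Multiplicative H →* K) := Fintype.ofFinite _
  have h1 := hli.fintype_card_le_finrank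
  rw [Nat.card_eq_fintype_card, Nat.card_eq_fintype_card]
  refine h1.trans ?_
  rw [Module.finrank_pi]
  exact le_of_eq (Fintype.card_congr Multiplicative.toAdd)

/-- lower bound for orthogonal complements -/
theorem card_le_card_perp {V K : Type*} [AddCommGroup V] [Finite V] [Field K]
    (e : V →+ V →+ Additive Kˣ) (H : AddSubgroup V) (P : AddSubgroup V)
    (hP : ∀ y, (∀ x ∈ H, e x y = 0) → y ∈ P) : Nat.card V ≤ Nat.card H * Nat.card P := by
  let f : V →+ (H →+ Additive Kˣ) :=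
    { toFun := fun y => (e.flip y).comp H.subtype
      map_zero' := by ext x; simp
      map_add' := fun y y' => by ext x; simp }
  obtain ⟨hfin, hcard⟩ := card_hom_le (H := H) (K := K)
  have h1 : Nat.card V = Nat.card f.ker * Nat.card f.range := by
    rw [← AddSubgroup.card_mul_index f.ker, AddSubgroup.index_ker]
  have h2 : Nat.card f.range ≤ Nat.card H :=
    (Nat.card_le_card_of_injective _ (AddSubgroup.subtype_injective _)).trans hcard
  have h3 : Nat.card f.ker ≤ Nat.card P := by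
    refine Nat.card_le_card_of_injective _ (AddSubgroup.inclusion_injective (H := f.ker) ?_)
    intro y hy
    refine hP y fun x hx => ?_
    exact DFunLike.congr_fun (AddMonoidHom.mem_ker.mp hy) (⟨x, hx⟩ : H)
  rw [h1, mul_comm]
  exact Nat.mul_le_mul h2 h3

/-- duality between the kernels of `Φ ^ 2 - 1` and `Φ ^ 2 - l ^ 2` -/
theorem card_ker_le {V K : Type*} [AddCommGroup V] [Finite V] [Field K]
    (e : V →+ V →+ Additive Kˣ) (u u' : V →+ V) (h : ∀ x y, e (u x) y = e x (u' y))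
    (hnd : ∀ y, (∀ x, e x y = 0) → y = 0) : Nat.card u.ker ≤ Nat.card u'.ker := by
  have h1 : Nat.card V ≤ Nat.card u.range * Nat.card u'.ker := by
    refine card_le_card_perp e u.range u'.ker fun y hy => ?_
    rw [AddMonoidHom.mem_ker]
    apply hnd
    intro x
    rw [← h]
    exact hy _ ⟨x, rfl⟩
  have h2 : Nat.card V = Nat.card u.ker * Nat.card u.range := by
    rw [← AddSubgroup.card_mul_index u.ker, AddSubgroup.index_ker]
  rw [h2, mul_comm] at h1
  exact Nat.le_of_mul_le_mul_left h1 Nat.card_pos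

end Fermat.Agent.Ribet
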