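import Fermat.Agent.Ribet.JExact
import Mathlib.LinearAlgebra.TensorProduct.Tower
import Mathlib.RingTheory.LocalRing.ResidueField.Basic

/-!
# `k ⊗ J₀(n)[p]` as a Hecke and Galois module
-/

set_option autoImplicit false
set_option linter.unusedSectionVars false
set_option linter.style.haveILetI false

noncomputable section

open AlgebraicCurve Module ModularCurve IsLocalRing
open scoped TensorProduct

namespace Fermat.Agent.Ribet

open Fermat.Agent.MzGal Fermat.Agent.TW

local notation "Qb" => AlgebraicClosure ℚ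
local notation "Γ" => (AlgebraicClosure ℚ ≃ₐ[ℚ] AlgebraicClosure ℚ)

/-- the `p`-torsion of `J₀(n)` -/
def JT (n p : ℕ) [NeZero n] : AddSubgroup (JZero n) where
  carrier := {x | p • x = 0}
  zero_mem' := smul_zero p
  add_mem' {x y} hx hy := by
    show p • (x + y) = 0
    rw [nsmul_add, show p • x = 0 from hx, show p • y = 0 from hy, add_zero]
  neg_mem' {x} hx := by
    show p • (-x) = 0
    rw [neg_nsmul, show p • x = 0 from hx, neg_zero]

theorem mem_JT {n p : ℕ} [NeZero n] {x : JZero n} : x ∈ JT n p ↔ p • x = 0 := Iff.rfl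

section ops

variable {n : ℕ} [NeZero n] (p : ℕ)

/-- restriction of an endomorphism to the torsion -/
def resT (f : JZero n →+ JZero n) : JT n p →ₗ[ℤ] JT n p :=
  AddMonoidHom.toIntLinearMap
    { toFun := fun x => ⟨f (x : JZero n), by
        rw [mem_JT, ← map_nsmul, mem_JT.mp x.2, map_zero]⟩
      map_zero' := Subtype.ext (map_zero f)
      map_add' := fun x y => Subtype.ext (map_add f _ _) }

@[simp] theorem coe_resT (f : JZero n →+ JZero n) (x : JT n p) :
    ((resT p f x : JT n p) : JZero n) = f x := rfl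

theorem resT_comm {f g : JZero n →+ JZero n} (h : ∀ x, f (g x) = g (f x)) :
    resT p f ∘ₗ resT p g = resT p g ∘ₗ resT p f :=
  LinearMap.ext fun x => Subtype.ext (h x)

end ops

variable (m n : ℕ) (hn : n ∣ m) (p : ℕ) [NeZero n] (O : Type) [CommRing O] [IsLocalRing O]

/-- `k ⊗ J₀(n)[p]`, as a module over the polynomial ring in the `T_l`, `l ∤ m` -/
def KV (_ : n ∣ m) : Type := ResidueField O ⊗[ℤ] JT n p

instance : AddCommGroup (KV m n p O hn) :=
  inferInstanceAs (AddCommGroup (ResidueField O ⊗[ℤ] JT n p))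

instance : Module O (KV m n p O hn) :=
  inferInstanceAs (Module O (ResidueField O ⊗[ℤ] JT n p))

namespace KV

variable {m n p O} {hn}

/-- pure tensors -/
def tm (hn : n ∣ m) (a : ResidueField O) (x : JT n p) : KV m n p O hn := a ⊗ₜ[ℤ] x

theorem smul_tm (o : O) (a : ResidueField O) (x : JT n p) :
    o • tm hn a x = tm hn (residue O o * a) x := by
  show o • (a ⊗ₜ[ℤ] x) = (residue O o * a) ⊗ₜ[ℤ] x
  rw [TensorProduct.smul_tmul', Algebra.smul_def]
  rfl

theorem tm_add_left (a b : ResidueField O) (x : JT n p) :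
    tm hn (a + b) x = tm hn a x + tm hn b x := TensorProduct.add_tmul _ _ _

theorem tm_add_right (a : ResidueField O) (x y : JT n p) :
    tm hn a (x + y) = tm hn a x + tm hn a y := TensorProduct.tmul_add _ _ _

theorem tm_zero (a : ResidueField O) : tm hn a (0 : JT n p) = 0 := TensorProduct.tmul_zero _ _

theorem tm_zsmul (a : ResidueField O) (c : ℤ) (x : JT n p) :
    tm hn a (c • x) = tm hn (c • a) x := by
  show a ⊗ₜ[ℤ] (c • x) = (c • a) ⊗ₜ[ℤ] x
  rw [TensorProduct.smul_tmul]

@[elab_as_elim]
theorem induction {P : KV m n p O hn → Prop} (x : KV m n p O hn) (h0 : P 0)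
    (h1 : ∀ a x, P (tm hn a x)) (h2 : ∀ x y, P x → P y → P (x + y)) : P x :=
  TensorProduct.induction_on (motive := P) x h0 h1 h2

/-- functoriality, additive form -/
def liftA (f : JT n p →ₗ[ℤ] JT n p) : KV m n p O hn →+ KV m n p O hn :=
  (TensorProduct.map (LinearMap.id : ResidueField O →ₗ[ℤ] ResidueField O) f).toAddMonoidHom

/-- functoriality -/
def lift (f : JT n p →ₗ[ℤ] JT n p) : Module.End O (KV m n p O hn) where
  toFun := liftA f
  map_add' := map_add _
  map_smul' o x := by
    refine induction x ?_ (fun a x => ?_) fun x y hx hy => ?_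
    · rw [smul_zero, map_zero, smul_zero]
    · rw [smul_tm]
      show tm hn (residue O o * a) (f x) = o • tm hn a (f x)
      rw [smul_tm]
    · rw [smul_add, map_add, map_add, hx, hy, smul_add]

theorem lift_tm (f : JT n p →ₗ[ℤ] JT n p) (a : ResidueField O) (x : JT n p) :
    lift (O := O) (hn := hn) f (tm hn a x) = tm hn a (f x) := rfl

theorem end_ext {f g : Module.End O (KV m n p O hn)} (h : ∀ a x, f (tm hn a x) = g (tm hn a x)) :
    f = g := by
  refine LinearMap.ext fun x => ?_
  refine induction x ?_ h fun x y hx hy => ?_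
  · rw [map_zero, map_zero]
  · rw [map_add, map_add, hx, hy]

theorem lift_mul (f g : JT n p →ₗ[ℤ] JT n p) :
    lift (O := O) (hn := hn) f * lift g = lift (f ∘ₗ g) := end_ext fun _ _ => rfl

theorem lift_one : lift (O := O) (hn := hn) (LinearMap.id : JT n p →ₗ[ℤ] JT n p) = 1 :=
  end_ext fun _ _ => rfl

theorem lift_add (f g : JT n p →ₗ[ℤ] JT n p) :
    lift (O := O) (hn := hn) (f + g) = lift f + lift g := end_ext fun a x => by
  rw [lift_tm, LinearMap.add_apply, LinearMap.add_apply, lift_tm, lift_tm, tm_add_right]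

theorem lift_sub (f g : JT n p →ₗ[ℤ] JT n p) :
    lift (O := O) (hn := hn) (f - g) = lift f - lift g := by
  rw [eq_sub_iff_add_eq, ← lift_add, sub_add_cancel]

/-- the Hecke operators -/
def T (l : Pr m) : Module.End O (KV m n p O hn) := lift (resT p (Tj l))

theorem prime_not_dvd (hn : n ∣ m) (l : Pr m) : ¬ l.1 ∣ n := fun h => l.2.2 (h.trans hn)

theorem Tj_comm (hn : n ∣ m) (l l' : Pr m) (x : JZero n) : Tj l (Tj l' x) = Tj l' (Tj l x) :=
  LinearMap.congr_fun (heckeOperatorBar_comm n ⟨l.1, l.2.1⟩ ⟨l'.1, l'.2.1⟩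
    (prime_not_dvd hn l')) x

theorem T_comm (l l' : Pr m) : (T l : Module.End O (KV m n p O hn)) * T l' = T l' * T l := by
  rw [T, T, lift_mul, lift_mul, resT_comm p (Tj_comm hn l l')]

instance instModulePoly : Module (TPoly m O) (KV m n p O hn) :=
  Module.compHom _ (polyEnd (T (O := O) (n := n) (p := p) (hn := hn)) T_comm).toRingHom

theorem smul_def (P : TPoly m O) (x : KV m n p O hn) :
    P • x = polyEnd (T (O := O) (n := n) (p := p) (hn := hn)) T_comm P x := rfl

theorem X_smul (l : Pr m) (x : KV m n p O hn) : (MvPolynomial.X l : TPoly m O) • x = T l x := by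
  rw [smul_def, polyEnd_X]

theorem C_smul (a : O) (x : KV m n p O hn) : (MvPolynomial.C a : TPoly m O) • x = a • x := by
  rw [smul_def, polyEnd_C]
  rfl

instance instScalarTower : IsScalarTower O (TPoly m O) (KV m n p O hn) where
  smul_assoc a P x := by
    rw [smul_def, smul_def, map_smul]
    rfl

/-- an operator commuting with the Hecke operators is linear over the polynomial ring -/
def polyLin (f : Module.End O (KV m n p O hn)) (hf : ∀ l x, f (T l x) = T l (f x)) :
    KV m n p O hn →ₗ[TPoly m O] KV m n p O hn where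
  toFun := f
  map_add' := map_add f
  map_smul' P x := polyEnd_map T T_comm T T_comm f hf P x

@[simp] theorem polyLin_apply (f : Module.End O (KV m n p O hn)) (hf : ∀ l x, f (T l x) = T l (f x))
    (x : KV m n p O hn) : polyLin f hf x = f x := rfl

/-- the action of integral polynomials -/
theorem map_smul_tm (hm : ∀ q : ℕ, q.Prime → q ∣ n → q ∣ m) (P : TPoly m ℤ) (a : ResidueField O)
    (x : JT n p) :
    (MvPolynomial.map (Int.castRingHom O) P : TPoly m O) • tm hn a x =
      tm hn a ⟨ren hm P • (x : JZero n), MazLQ.hsmul_tors _ x.2⟩ := by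
  induction P using MvPolynomial.induction_on generalizing x with
  | C c =>
    rw [MvPolynomial.map_C, C_smul]
    have h1 : (⟨ren hm (MvPolynomial.C c) • (x : JZero n), MazLQ.hsmul_tors _ x.2⟩ : JT n p) =
        c • x := Subtype.ext (ren_int_smul hm c x)
    rw [h1, tm_zsmul, smul_tm]
    congr 1
    rw [zsmul_eq_mul]
    exact congrArg (· * a) (map_intCast (residue O) c)
  | add P Q hP hQ =>
    rw [map_add, add_smul, hP, hQ, ← tm_add_right]
    congr 1
    apply Subtype.ext
    show ren hm P • (x : JZero n) + ren hm Q • (x : JZero n) = ren hm (P + Q) • (x : JZero n)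
    rw [map_add, add_smul]
  | mul_X P l hP =>
    rw [map_mul, MvPolynomial.map_X, mul_smul, X_smul]
    have h1 : T l (tm hn a x) = tm (O := O) hn a (resT p (Tj l) x) := rfl
    rw [h1, hP]
    congr 1
    apply Subtype.ext
    show ren hm P • (Tj l (x : JZero n)) = ren hm (P * MvPolynomial.X l) • (x : JZero n)
    rw [map_mul, mul_smul, ren_X_smul]

/-- the Galois action -/
def gal (σ : Γ) : Module.End O (KV m n p O hn) :=
  lift (resT p (DistribSMul.toAddMonoidHom (JZero n) σ))

theorem gal_tm (σ : Γ) (a : ResidueField O) (x : JT n p) :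
    gal (O := O) (hn := hn) σ (tm hn a x) =
      tm hn a (resT p (DistribSMul.toAddMonoidHom (JZero n) σ) x) := rfl

theorem gal_one : gal (O := O) (hn := hn) (n := n) (p := p) 1 = 1 := end_ext fun a x => by
  rw [gal_tm]
  congr 1
  exact Subtype.ext (one_smul Γ (x : JZero n))

theorem gal_mul (σ τ : Γ) : gal (O := O) (hn := hn) (n := n) (p := p) (σ * τ) =
    gal σ * gal τ := end_ext fun a x => by
  rw [Module.End.mul_apply, gal_tm, gal_tm, gal_tm]
  congr 1
  exact Subtype.ext (mul_smul σ τ (x : JZero n))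

theorem gal_T (σ : Γ) (l : Pr m) (x : KV m n p O hn) : gal σ (T l x) = T l (gal σ x) := by
  have h : gal (O := O) (hn := hn) (n := n) (p := p) σ * T l = T l * gal σ := by
    rw [gal, T, lift_mul, lift_mul, resT_comm]
    intro x
    exact (GalJ.heckeOperatorBar_smul n ⟨l.1, l.2.1⟩ σ x).symm
  exact LinearMap.congr_fun h x

/-- the Galois action, linear over the polynomial ring -/
def galP (σ : Γ) : KV m n p O hn →ₗ[TPoly m O] KV m n p O hn :=
  polyLin (gal σ) (gal_T σ)

end KV

end Fermat.Agent.Ribet
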