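import Fermat.Agent.Ribet.Conc
import Fermat.Agent.Ribet.JExact
import Fermat.Agent.Ribet.Bound
import Fermat.Agent.BadRed.LocalPkgQb
import Fermat.Agent.BadRed.SpMap
import Fermat.Agent.PIC.CharP
import Fermat.Agent.NewPoint.Final

/-!
# The local data at a prime exactly dividing the level: transport to `J₀(N r)`
-/

set_option autoImplicit false
set_option linter.unusedSectionVars false
set_option linter.style.haveILetI false

noncomputable section

open AlgebraicCurve Module ModularCurve HahnSeries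

namespace Fermat.Agent.Ribet

open Fermat.Agent.FunField Fermat.Agent.WeilPairing Fermat.Agent.MzGal Fermat.Agent.TW
  Fermat.Agent.BadRed Fermat.Agent.Degen Fermat.Agent.HeckeRed Fermat.Agent.PIC
  Fermat.Agent.AtkinLehner Fermat.Agent.Igusa

local notation "Qb" => AlgebraicClosure ℚ
local notation "Γ" => (AlgebraicClosure ℚ ≃ₐ[ℚ] AlgebraicClosure ℚ)

section Inputs

variable {L : Type} [Field L] [IsAlgClosed L] {k F₁ : Type} [Field k] [IsAlgClosed k]
  [Field F₁] [Algebra k F₁] [IsFF k F₁] {M : ℕ} [NeZero M]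

/-- Hecke equivariance of the specialisation map -/
def SpEquiv (T : TwoVal L k (modularFunctionFieldFullC L M) F₁) {n : ℕ} (hn : n ≠ 0)
    (Tc : ∀ l : ℕ, [NeZero l] → Pic0 k F₁ →+ Pic0 k F₁) : Prop :=
  ∀ (l : ℕ) (_ : l.Prime) (_ : ¬ l ∣ M) [NeZero l] [NeZero (M * l)]
    (α' β' : modularFunctionFieldFullC L M →ₐ[L] modularFunctionFieldFullC L (M * l))
    (_ : ∀ x, (α' x : LaurentSeries L) = x)
    (_ : ∀ x, (β' x : LaurentSeries L) = qExpand L l (x : LaurentSeries L))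
    (z : T.Zn n), ∃ h : pushPic α' (pullPic β' (z : Pic0 L _)) ∈ T.Zn n,
      TwoVal.sp hn ⟨_, h⟩ = (Tc l (TwoVal.sp hn z).1, Tc l (TwoVal.sp hn z).2)

/-- inertia-invariant torsion classes specialise up to Eisenstein operators -/
def EisInv (T : TwoVal L k (modularFunctionFieldFullC L M) F₁) (n : ℕ)
    (I : Set (SemilinearAut L (modularFunctionFieldFullC L M))) : Prop :=
  ∀ (l : ℕ) (_ : l.Prime) (_ : ¬ l ∣ M) [NeZero l] [NeZero (M * l)]
    (α' β' : modularFunctionFieldFullC L M →ₐ[L] modularFunctionFieldFullC L (M * l))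
    (_ : ∀ x, (α' x : LaurentSeries L) = x)
    (_ : ∀ x, (β' x : LaurentSeries L) = qExpand L l (x : LaurentSeries L))
    (y : Pic0 L (modularFunctionFieldFullC L M)), n • y = 0 → (∀ g ∈ I, g • y = y) →
      pushPic α' (pullPic β' y) - (l + 1) • y ∈ T.Zn n

end Inputs

/-- coefficientwise inertia -/
def inertS (A : ValuationSubring Qb) (E : IntermediateField Qb (LaurentSeries Qb)) :
    Set (SemilinearAut Qb E) :=
  {g | ∃ σ ∈ A.inertiaSubgroupIn ℚ, IsCoeff ((σ : Γ) : Qb ≃+* Qb) g}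

variable {A : ValuationSubring Qb} {N r p : ℕ} [NeZero N] [NeZero (N * r)] [Fact r.Prime]
  (hA : A.LiesOverPrime r) (hrN : ¬ r ∣ N) [Fact p.Prime] (hpr : p ≠ r)
  [IsAlgClosed (IsLocalRing.ResidueField A)] [CharP (IsLocalRing.ResidueField A) r]
  [IsLocalHom (IsLocalRing.residue A)]

variable (A N r) in
/-- the two valuations -/
abbrev TT (hA : A.LiesOverPrime r) (hrN : ¬ r ∣ N) :
    TwoVal Qb (IsLocalRing.ResidueField A) (modularFunctionFieldFullC Qb (N * r))
      (modularFunctionFieldFullC (IsLocalRing.ResidueField A) N) :=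
  twoVal A (IsLocalRing.residue A) IsLocalRing.residue_surjective
    (archA (Fact.out : r.Prime) hA) N r hrN

variable (A N) in
/-- Hecke operators in characteristic `r` -/
abbrev Tk (l : ℕ) [NeZero l] := heckeC (IsLocalRing.ResidueField A) N l

include hpr in
/-- **Transport.** -/
theorem exists_loc_aux (hp0 : p ≠ 0) (hsp : SpEquiv (TT A N r hA hrN) hp0 (fun l _ => Tk A N l))
    (heis : EisInv (TT A N r hA hrN) p (inertS A _))
    {E E₀ : IntermediateField Qb (LaurentSeries Qb)} [IsFF Qb E] [IsFF Qb E₀]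
    (hE : E = modularFunctionFieldFullC Qb (N * r)) (hE₀ : E₀ = modularFunctionFieldFullC Qb N)
    (α β : E₀ →ₐ[Qb] E) (hα : ∀ x, (α x : LaurentSeries Qb) = x)
    (hβ : ∀ x, (β x : LaurentSeries Qb) =
      (haveI : NeZero r := ⟨(Fact.out : r.Prime).ne_zero⟩; qExpand Qb r (x : LaurentSeries Qb)))
    (w : E ≃ₐ[Qb] E) (h1 : ∀ x, w (α x) = β x) (h2 : ∀ x, w (β x) = α x)
    {σ₀ : Γ} (hσ₀ : A.IsFrobeniusAt σ₀ r) (g : SemilinearAut Qb E)
    (hg : IsCoeff ((σ₀ : Γ) : Qb ≃+* Qb) g) (g₀ : SemilinearAut Qb E₀)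
    (hg₀ : IsCoeff ((σ₀ : Γ) : Qb ≃+* Qb) g₀) {D : ℕ} (hD : 0 < D)
    (hW : ∀ (b : ℕ) (y : Pic0 Qb E₀), p ^ b • y = 0 → g₀ • g₀ • y = r ^ 2 • y → D • y = 0) :
    ∃ (NN Z : AddSubgroup (Pic0 Qb E)) (sp : Z →+
      Pic0 (IsLocalRing.ResidueField A) (modularFunctionFieldFullC (IsLocalRing.ResidueField A) N) ×
      Pic0 (IsLocalRing.ResidueField A) (modularFunctionFieldFullC (IsLocalRing.ResidueField A) N)),
      IsLocNN A (IsLocalRing.residue A) r p α β w NN ∧
      (∀ x ∈ NN, ∀ y ∈ NN, weil p x y = 1) ∧ (∀ z : Z, sp z = 0 → (z : Pic0 Qb E) ∈ NN) ∧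
      ∀ (l : ℕ) (_ : l.Prime) (_ : ¬ l ∣ N * r) [NeZero l]
        (E' : IntermediateField Qb (LaurentSeries Qb)) [IsFF Qb E']
        (_ : E' = modularFunctionFieldFullC Qb (N * r * l)) (α' β' : E →ₐ[Qb] E')
        (_ : ∀ x, (α' x : LaurentSeries Qb) = x)
        (_ : ∀ x, (β' x : LaurentSeries Qb) = qExpand Qb l (x : LaurentSeries Qb)),
        (∀ z : Z, ∃ h : pushPic α' (pullPic β' (z : Pic0 Qb E)) ∈ Z,
          sp ⟨_, h⟩ = (Tk A N l (sp z).1, Tk A N l (sp z).2)) ∧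
        ∀ y : Pic0 Qb E, p • y = 0 → (∀ g ∈ inertS A E, g • y = y) →
          pushPic α' (pullPic β' y) - (l + 1) • y ∈ Z := by
  subst hE hE₀
  have hr : r.Prime := Fact.out
  have hp : p.Prime := Fact.out
  have i3 : NeZero r := ⟨hr.ne_zero⟩
  have hN : (N : IsLocalRing.ResidueField A) ≠ 0 := fun h =>
    hrN ((CharP.cast_eq_zero_iff _ r N).mp h)
  have hpk : (p : IsLocalRing.ResidueField A) ≠ 0 := fun h =>
    hpr ((Nat.prime_dvd_prime_iff_eq hr hp).mp ((CharP.cast_eq_zero_iff _ r p).mp h)).symm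
  let d : CP.DecAut A (IsLocalRing.residue A) :=
    { σ := (σ₀ : Qb ≃+* Qb)
      τ := MulSemiringAction.toRingAut (A.decompositionSubgroup ℚ) (IsLocalRing.ResidueField A)
        ⟨σ₀, hσ₀.mem_decompositionSubgroup⟩
      mem_iff := fun a => (mem_iff_decomp hσ₀.mem_decompositionSubgroup a).symm
      res := residue_decomp hσ₀.mem_decompositionSubgroup }
  have hd : CP.IsFrob d r := fun a => hσ₀.smul_residue_eq a
  refine ⟨(TT A N r hA hrN).NN p, (TT A N r hA hrN).Zn p, TwoVal.sp hp0, ?_, ?_, ?_, ?_⟩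
  · rw [eq_ww N r hrN α β hα hβ w h1 h2]
    exact isLocNN_full A _ _ _ N r hrN (Cusps.genusFF_residue A N hN) d hd hpk α β hα hβ
  · intro x hx y hy
    refine weil_NN_full A _ _ _ N r hrN (Cusps.genusFF_residue A N hN) d hd hp hpk α β hα hβ
      hg hg₀ (fun M ζ hζ => ?_) hD hW hx hy
    apply Units.ext
    show σ₀ (ζ : Qb) = ((ζ ^ r : Qbˣ) : Qb)
    rw [Units.val_pow_eq_pow_val]
    refine QuadRep.frobenius_smul_root hr hA hσ₀ (pow_pos hp.pos M)
      (Nat.Coprime.pow_left _ ((Nat.coprime_primes hp hr).mpr hpr)) _ ?_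
    rw [← Units.val_pow_eq_pow_val, hζ, Units.val_one]
  · intro z hz
    exact TwoVal.mem_NN_of_sp_eq_zero hp0 hz
  · intro l hl hlM _ E' _ hE' α' β' hα' hβ'
    have i4 : NeZero (N * r * l) := ⟨mul_ne_zero (NeZero.ne _) hl.ne_zero⟩
    subst hE'
    exact ⟨hsp l hl hlM α' β' hα' hβ', heis l hl hlM α' β' hα' hβ'⟩

end Fermat.Agent.Ribet
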