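import Fermat.Agent.Ribet.LocAux
import Fermat.Agent.BadRed.SpecPkg
import Fermat.Agent.BadRed.ZnPush
import Fermat.Agent.NewPoint.Final
import Fermat.Agent.ZMZ.Spec
import Fermat.Agent.Cusps.GenusFinal

/-!
# The local data of `J₀(N r)` at `r`
-/

set_option autoImplicit false
set_option linter.unusedSectionVars false
set_option linter.style.haveILetI false

noncomputable section

open AlgebraicCurve Module ModularCurve HahnSeries

namespace Fermat.Agent.Ribet

open Fermat.Agent.FunField Fermat.Agent.WeilPairing Fermat.Agent.MzGal Fermat.Agent.TW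
  Fermat.Agent.BadRed Fermat.Agent.Degen Fermat.Agent.HeckeRed Fermat.Agent.PIC
  Fermat.Agent.AtkinLehner Fermat.Agent.Igusa Fermat.Agent.NewPoint Fermat.Agent.Tate

local notation "Qb" => AlgebraicClosure ℚ
local notation "Γ" => (AlgebraicClosure ℚ ≃ₐ[ℚ] AlgebraicClosure ℚ)

section Inputs

variable {A : ValuationSubring Qb} {N r p : ℕ} [NeZero N] [NeZero (N * r)] [Fact r.Prime]
  (hA : A.LiesOverPrime r) (hrN : ¬ r ∣ N)
  [IsAlgClosed (IsLocalRing.ResidueField A)] [CharP (IsLocalRing.ResidueField A) r]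
  [IsLocalHom (IsLocalRing.residue A)]

/-- specialisation commutes with the Hecke operators -/
theorem spEquiv (hp0 : p ≠ 0) :
    SpEquiv (TT A N r hA hrN) hp0 (fun l _ => Tk A N l) := by
  intro l hl hlM _ _ α' β' hα' hβ' z
  have i0 : Fact l.Prime := ⟨hl⟩
  have hlr : l ≠ r := fun h => hlM (h ▸ dvd_mul_left _ _)
  have h1 := sp_hecke A (IsLocalRing.residue A) IsLocalRing.residue_surjective
    (archA (Fact.out : r.Prime) hA) N r hrN hlr hp0 rfl α' β' hα' hβ'
    (HeckeRed.isIntegral_of_isFF α') (HeckeRed.isIntegral_of_isFF β') (finiteAlong_of_isFF α')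
    (HeckeRed.fundamentalIdentityAlong _ _ (finiteAlong_of_isFF β'))
    (HeckeRed.normFormulaAlong _ _) z.2
  rw [BadRed.correspondence_eq] at h1
  exact h1

/-- inertia invariants specialise up to Eisenstein operators -/
theorem eisInv (h2N : 2 ∣ N) (hr2 : r ≠ 2) (hp2 : ¬ 2 ∣ p) :
    EisInv (TT A N r hA hrN) p (inertS A _) := by
  intro l hl hlM _ _ α' β' hα' hβ' y hy hI
  have i0 : Fact l.Prime := ⟨hl⟩
  have hr : r.Prime := Fact.out
  have hlr : l ≠ r := fun h => hlM (h ▸ dvd_mul_left _ _)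
  have hlN : ¬ l ∣ N := fun h => hlM (h.mul_right r)
  have i1 : NeZero (N * 2) := ⟨mul_ne_zero (NeZero.ne N) two_ne_zero⟩
  have hN2 : ((N * 2 : ℕ) : IsLocalRing.ResidueField A) ≠ 0 := fun h => by
    rcases (hr.dvd_mul).mp ((CharP.cast_eq_zero_iff _ r _).mp h) with h | h
    · exact hrN h
    · exact hr2 ((Nat.prime_dvd_prime_iff_eq hr Nat.prime_two).mp h)
  obtain ⟨σ₀, hσ₀⟩ := Fermat.Agent.Frob.exists_isFrobeniusAt hr hA
  let d : CP.DecAut A (IsLocalRing.residue A) :=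
    { σ := (σ₀ : Qb ≃+* Qb)
      τ := MulSemiringAction.toRingAut (A.decompositionSubgroup ℚ) (IsLocalRing.ResidueField A)
        ⟨σ₀, hσ₀.mem_decompositionSubgroup⟩
      mem_iff := fun a => (mem_iff_decomp hσ₀.mem_decompositionSubgroup a).symm
      res := residue_decomp hσ₀.mem_decompositionSubgroup }
  have hd : CP.IsFrob d r := fun a => hσ₀.smul_residue_eq a
  have := hecke_sub_mem_Zn' (IsLocalRing.residue A) IsLocalRing.residue_surjective
    (archA hr hA) N r hrN hA hlr hlN α' β' hα' hβ'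
    (IsAlgClosed.lift (R := ℚ) (S := AlgebraicClosure ℚ) (M := ℂ)).toRingHom
    (Cusps.genusFF_residue A (N * 2) hN2) d hd h2N hr2 hp2 hy (fun g hg => by
      obtain ⟨σ, ⟨s, hs, rfl⟩, hg⟩ := hg
      exact hI g ⟨s, hs, hg⟩)
  exact this

end Inputs

/-- **The local data of `J₀(N r)`.** -/
theorem exists_locDat {N r p m : ℕ} [NeZero N] [NeZero (N * r)] (hr : r.Prime) (hrN : ¬ r ∣ N)
    (hp : p.Prime) (hpr : p ≠ r) (hp2 : p ≠ 2) (h2N : 2 ∣ N) (hr2 : r ≠ 2)
    (hm : ∀ q : ℕ, q.Prime → q ∣ N * r → q ∣ m)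
    {A : ValuationSubring Qb} (hA : A.LiesOverPrime r)
    [i1 : IsAlgClosed (IsLocalRing.ResidueField A)] [i2 : CharP (IsLocalRing.ResidueField A) r] :
    ∃ (NN Z : AddSubgroup (JZero (N * r))) (sp : Z →+
      Pic0 (IsLocalRing.ResidueField A) (modularFunctionFieldFullC (IsLocalRing.ResidueField A) N) ×
      Pic0 (IsLocalRing.ResidueField A) (modularFunctionFieldFullC (IsLocalRing.ResidueField A) N)),
      LocDat p m A NN Z sp (fun l => haveI : NeZero l.1 := ⟨l.2.1.ne_zero⟩; Tk A N l.1) := by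
  have i0 : Fact r.Prime := ⟨hr⟩
  have i3 : IsLocalHom (IsLocalRing.residue A) := inferInstance
  have i4 : Fact p.Prime := ⟨hp⟩
  have i5 : NeZero r := ⟨hr.ne_zero⟩
  have hp2' : ¬ 2 ∣ p := fun h =>
    hp2 ((Nat.prime_dvd_prime_iff_eq Nat.prime_two hp).mp h).symm
  obtain ⟨σ₀, hσ₀⟩ := Fermat.Agent.Frob.exists_isFrobeniusAt hr hA
  obtain ⟨w, h1, h2⟩ := exists_w_aux hr hrN (Igusa.modularFunctionFieldBar_eq (N * r))
    (Igusa.modularFunctionFieldBar_eq N) (heckeAlphaBar Qb N r) (heckeBetaBar Qb N r)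
    (coe_heckeAlphaBar N r) (coe_heckeBetaBar N r)
  obtain ⟨D, hD, hW⟩ := exists_bound_frob N r hr hrN
  obtain ⟨NN, Z, sp, H1, H2, H3, H4⟩ := exists_loc_aux hA hrN hpr hp.ne_zero
    (spEquiv hA hrN hp.ne_zero) (eisInv hA hrN h2N hr2 hp2')
    (E := modularFunctionFieldBar (N * r)) (E₀ := modularFunctionFieldBar N)
    (modularFunctionFieldBar_eq _) (modularFunctionFieldBar_eq _)
    (heckeAlphaBar Qb N r) (heckeBetaBar Qb N r)
    (coe_heckeAlphaBar N r) (coe_heckeBetaBar N r) w h1 h2 hσ₀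
    (arithmeticGalois (modularFunctionFieldFull (N * r)) σ₀) (isCoeff_galois (N * r) σ₀)
    (arithmeticGalois (modularFunctionFieldFull N) σ₀) (isCoeff_galois N σ₀) hD
    (fun b y hy hσy => hW p hpr (frobJ_of_packages (hasPackages_of_genusEq (Cusps.genusEq N)))
      A hA σ₀ hσ₀ b y hy hσy)
  refine ⟨NN, Z, sp, H2, H3, fun l z => ?_, fun l y hy hσ => ?_⟩
  · have i6 : NeZero l.1 := ⟨l.2.1.ne_zero⟩
    have hl : ¬ l.1 ∣ N * r := fun h => l.2.2 (hm _ l.2.1 h)
    obtain ⟨h, h'⟩ := (H4 l.1 l.2.1 hl (modularFunctionFieldBar (N * r * l.1))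
      (modularFunctionFieldBar_eq _) (heckeAlphaBar Qb (N * r) l.1) (heckeBetaBar Qb (N * r) l.1)
      (coe_heckeAlphaBar _ _) (coe_heckeBetaBar _ _)).1 z
    have h5 : Tj l (z : JZero (N * r)) = pushPic (heckeAlphaBar Qb (N * r) l.1)
        (pullPic (heckeBetaBar Qb (N * r) l.1) (z : JZero (N * r))) :=
      heckeOperatorAlong_apply (N * r) l.1 _
    rw [h5]
    exact ⟨h, h'⟩
  · have i6 : NeZero l.1 := ⟨l.2.1.ne_zero⟩
    have hl : ¬ l.1 ∣ N * r := fun h => l.2.2 (hm _ l.2.1 h)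
    have h := (H4 l.1 l.2.1 hl (modularFunctionFieldBar (N * r * l.1))
      (modularFunctionFieldBar_eq _) (heckeAlphaBar Qb (N * r) l.1) (heckeBetaBar Qb (N * r) l.1)
      (coe_heckeAlphaBar _ _) (coe_heckeBetaBar _ _)).2 y hy (by
        rintro g ⟨σ, hσ', hg⟩
        rw [ZMZ.isCoeff_unique hg (isCoeff_galois _ σ)]
        exact hσ σ hσ')
    have h5 : Tj l y = pushPic (heckeAlphaBar Qb (N * r) l.1)
        (pullPic (heckeBetaBar Qb (N * r) l.1) y) :=
      heckeOperatorAlong_apply (N * r) l.1 _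
    rw [h5]
    exact h

end Fermat.Agent.Ribet
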