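import Fermat.Agent.Ribet.Count
import Fermat.Agent.Ribet.Ineq2
import Fermat.Agent.Ribet.Isotropy
import Fermat.Agent.BadRed.PicLevel
import Fermat.Agent.BadRed.GlueCount
import Fermat.Agent.BadRed.SpMap
import Fermat.Agent.S27

/-!
# The tower of the groups `NN (q ^ b)`
-/

set_option autoImplicit false
set_option linter.unusedSectionVars false

noncomputable section

open AlgebraicCurve Module

namespace Fermat.Agent.Ribet

open Fermat.Agent.FunField Fermat.Agent.FunField.PlaceLemmas Fermat.Agent.BadRed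
  Fermat.Agent.Degen Fermat.Agent.HeckeRed

attribute [local instance] Fermat.Agent.WeilPairing.isCurveOver

variable {L k : Type} [Field L] [Field k] [IsAlgClosed L] [IsAlgClosed k] [CharZero L]
variable {F F₁ : Type} [Field F] [Field F₁] [Algebra L F] [Algebra k F₁] [IsFF L F] [IsFF k F₁]
  (T : TwoVal L k F F₁)

theorem NN_tor {n : ℕ} {x : Pic0 L F} (hx : x ∈ T.NN n) : n • x = 0 := by
  have h := Pic0.mem_torsion.1 (TwoVal.NN_le_torsion hx)
  rwa [natCast_zsmul] at h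

theorem NN_mono {n m : ℕ} {x : Pic0 L F} (hx : x ∈ T.NN n) : x ∈ T.NN (n * m) := by
  obtain ⟨D, rfl, f, hf, hfD, ⟨a, ha, har⟩, ⟨b, hb, hbr⟩⟩ := hx
  refine ⟨D, rfl, f ^ m, pow_ne_zero m hf, fun v => ?_, ⟨a, ha, ?_⟩, ⟨b, hb, ?_⟩⟩
  · rw [ord_pow, ← hfD]; push_cast; ring
  · rw [pow_mul]; exact har.pow m
  · rw [pow_mul]; exact hbr.pow m

theorem NN_sat {n m : ℕ} (hm : 0 < m) (hn : 0 < n) {x : Pic0 L F} (hx : x ∈ T.NN (n * m))
    (h0 : n • x = 0) : x ∈ T.NN n := by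
  obtain ⟨D, rfl, f, hf, hfD, ⟨a, ha, har⟩, ⟨b, hb, hbr⟩⟩ := hx
  obtain ⟨h, hh, hhD⟩ := exists_of_mem_torsion (n := n) (D := D)
    (Pic0.mem_torsion.2 (by rw [natCast_zsmul]; exact h0))
  have hhm : h ^ m ≠ 0 := pow_ne_zero m hh
  obtain ⟨c, hc, hfc⟩ := exists_const_of_ord (K := L) (f := f * (h ^ m)⁻¹)
    (mul_ne_zero hf (inv_ne_zero hhm)) (fun v => by
      rw [v.ord_mul hf (inv_ne_zero hhm), v.ord_inv, ord_pow, ← hfD, ← hhD]; push_cast; ring)
  have hfh : f = c • h ^ m := by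
    rw [Algebra.smul_def, ← hfc, inv_mul_cancel_right₀ hhm]
  have key : ∀ (V : ResVal T.A T.π F F₁) (a : F₁) (_ : a ≠ 0), V.HasRes f (a ^ (n * m)) →
      ∃ e : F₁, e ≠ 0 ∧ V.HasRes h (e ^ n) := by
    intro V a ha har
    obtain ⟨u, hu, hhu⟩ := ResVal.exists_hasRes (V := V) hh
    have h6 := (hhu.pow m).smul hc
    rw [← hfh] at h6
    obtain ⟨κ, hκ, hκy⟩ := h6.unique har (pow_ne_zero m hu) (pow_ne_zero _ ha)
    -- `(a ^ n / u) ^ m` is constant
    have hne : a ^ n * u⁻¹ ≠ 0 := mul_ne_zero (pow_ne_zero n ha) (inv_ne_zero hu)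
    obtain ⟨c', hc', hc''⟩ := exists_const_of_ord (K := k) (f := a ^ n * u⁻¹) hne (fun v => by
      have e1 : (m : ℤ) * v.ord (a ^ n * u⁻¹) = 0 := by
        rw [← ord_pow]
        have e2 : (a ^ n * u⁻¹) ^ m = algebraMap k F₁ κ := by
          rw [mul_pow, ← pow_mul, hκy, inv_pow, Algebra.smul_def,
            mul_inv_cancel_right₀ (pow_ne_zero m hu)]
        rw [e2]
        exact ord_algebraMap v κ
      exact (mul_eq_zero.mp e1).resolve_left (by exact_mod_cast hm.ne'))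
    obtain ⟨d, hd⟩ := IsAlgClosed.exists_pow_nat_eq (c'⁻¹) hn
    have hd0 : d ≠ 0 := by
      rintro rfl
      rw [zero_pow hn.ne'] at hd
      exact inv_ne_zero hc' hd.symm
    refine ⟨algebraMap k F₁ d * a, mul_ne_zero (by rwa [Ne, map_eq_zero]) ha, ?_⟩
    have h7 : (algebraMap k F₁ d * a) ^ n = u := by
      rw [mul_pow, ← map_pow, hd, map_inv₀, ← hc'']
      field_simp
    rw [h7]
    exact hhu
  exact ⟨D, rfl, h, hh, hhD, key T.V₁ a ha har, key T.V₂ b hb hbr⟩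

variable {T} {P : FrobPencil T.toRData} {g g₁ : ℤ}

theorem tower_NN (H : FrobPencil.Hyp P g g₁) {q : ℕ} (hq : q.Prime) (hqk : (q : k) ≠ 0) :
    Tower q (fun b => T.NN (q ^ b)) where
  tor b x hx := NN_tor T hx
  mono b x hx := by
    show x ∈ T.NN (q ^ (b + 1))
    rw [pow_succ]
    exact NN_mono T hx
  sat b x hx h0 := by
    have h1 : x ∈ T.NN (q ^ b * q) := by rw [← pow_succ]; exact hx
    exact NN_sat T hq.pos (pow_pos hq.pos b) h1 h0
  fin b := (TwoVal.card_NN_le H (by rw [Nat.cast_pow]; exact pow_ne_zero b hqk)).1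

end Fermat.Agent.Ribet
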