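import Mathlib.Algebra.MonoidAlgebra.Basic
import Mathlib.LinearAlgebra.Matrix.Adjugate
import Mathlib.LinearAlgebra.Matrix.Trace
import Mathlib.LinearAlgebra.Matrix.Determinant.Basic
import Mathlib.Data.Matrix.Basis
import Mathlib.RingTheory.Ideal.Maps
import Mathlib.Tactic.NoncommRing
import Mathlib.Tactic.LinearCombination

/-!
# Cayley-Hamilton modules and transfer of exactness
-/

set_option autoImplicit false

noncomputable section

namespace Fermat.Agent.Ribet

open Matrix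

variable {B : Type*} [CommRing B] {G : Type*} [Group G] {X : Type*} [AddCommGroup X] [Module B X]
  (ρ : G →* Module.End B X) (r : G →* Matrix (Fin 2) (Fin 2) B)

/-- action of the group ring on the module -/
def phi : MonoidAlgebra B G →ₐ[B] Module.End B X := MonoidAlgebra.lift B _ G ρ

/-- action of the group ring on the matrices -/
def rr : MonoidAlgebra B G →ₐ[B] Matrix (Fin 2) (Fin 2) B := MonoidAlgebra.lift B _ G r

/-- the dual action -/
def psi : MonoidAlgebra B G →ₗ[B] Module.End B X :=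
  (LinearMap.toSpanSingleton B (Module.End B X) 1) ∘ₗ (Matrix.traceLinearMap (Fin 2) B B) ∘ₗ
    (rr r).toLinearMap - (phi ρ).toLinearMap

theorem psi_apply (y : MonoidAlgebra B G) :
    psi ρ r y = ((rr r y).trace) • (1 : Module.End B X) - phi ρ y := rfl

theorem phi_of (g : G) : phi ρ (MonoidAlgebra.of B G g) = ρ g := MonoidAlgebra.lift_of _ _

theorem rr_of (g : G) : rr r (MonoidAlgebra.of B G g) = r g := MonoidAlgebra.lift_of _ _

variable {ρ r} (hES : ∀ g, ρ g + (r g).det • ρ g⁻¹ = (r g).trace • (1 : Module.End B X))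

include hES

theorem psi_of (g : G) : psi ρ r (MonoidAlgebra.of B G g) = (r g).det • ρ g⁻¹ := by
  rw [psi_apply, rr_of, phi_of, ← hES]
  abel

/-- antimultiplicativity -/
theorem psi_mul (y z : MonoidAlgebra B G) : psi ρ r (y * z) = psi ρ r z * psi ρ r y := by
  induction y using MonoidAlgebra.induction_on with
  | of g =>
    induction z using MonoidAlgebra.induction_on with
    | of h =>
      rw [← map_mul, psi_of hES, psi_of hES, psi_of hES, map_mul, Matrix.det_mul, mul_inv_rev,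
        map_mul, smul_mul_smul_comm, mul_comm (r g).det]
    | add z z' hz hz' => rw [mul_add, map_add, map_add, hz, hz', add_mul]
    | smul b z hz => rw [mul_smul_comm, map_smul, map_smul, hz, smul_mul_assoc]
  | add y y' hy hy' => rw [add_mul, map_add, map_add, hy, hy', mul_add]
  | smul b y hy => rw [smul_mul_assoc, map_smul, map_smul, hy, mul_smul_comm]

/-- **The kernel of `B[G] → M₂(B)` acts trivially.** -/
theorem phi_eq_zero (h2 : IsUnit (2 : B)) (hsurj : Function.Surjective (rr r))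
    {y : MonoidAlgebra B G} (hy : rr r y = 0) : phi ρ y = 0 := by
  have hcen : ∀ (b : B) (u : Module.End B X), u * (b • 1) = (b • 1) * u := fun b u => by
    rw [mul_smul_comm, smul_mul_assoc, mul_one, one_mul]
  -- `(*)`
  have key : ∀ y' : MonoidAlgebra B G, rr r y' = 0 → psi ρ r y' = - phi ρ y' := by
    intro y' hy'
    rw [psi_apply, hy', Matrix.trace_zero, zero_smul, zero_sub]
  have star : ∀ z, phi ρ y * phi ρ z = psi ρ r z * phi ρ y := by
    intro z
    have h1 := psi_mul hES y z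
    rw [key y hy, key (y * z) (by rw [map_mul, hy, zero_mul]), map_mul] at h1
    rw [mul_neg] at h1
    exact neg_injective h1
  obtain ⟨z₁, hz₁⟩ := hsurj (Matrix.single 0 1 1)
  obtain ⟨z₂, hz₂⟩ := hsurj (Matrix.single 1 0 1)
  set c := z₁ * z₂ - z₂ * z₁ with hc
  have hcR : rr r c = Matrix.single 0 0 1 - Matrix.single 1 1 1 := by
    rw [hc, map_sub, map_mul, map_mul, hz₁, hz₂, Matrix.single_mul_single_same,
      Matrix.single_mul_single_same, mul_one]
  have hc0 : phi ρ c * phi ρ y = 0 := by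
    have e1 : phi ρ y * phi ρ (z₁ * z₂) = psi ρ r z₁ * (psi ρ r z₂ * phi ρ y) := by
      rw [map_mul, ← mul_assoc, star, mul_assoc, star]
    have e2 : phi ρ y * phi ρ (z₁ * z₂) = psi ρ r z₂ * (psi ρ r z₁ * phi ρ y) := by
      rw [star, psi_mul hES, mul_assoc]
    have e3 : psi ρ r z₁ * psi ρ r z₂ - psi ρ r z₂ * psi ρ r z₁ = phi ρ c := by
      rw [psi_apply, psi_apply, hc, map_sub, map_mul, map_mul]
      have h3 := hcen ((rr r z₁).trace) (phi ρ z₂)
      have h4 := hcen ((rr r z₂).trace) (phi ρ z₁)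
      have h5 := hcen ((rr r z₂).trace) (((rr r z₁).trace) • (1 : Module.End B X))
      simp only [sub_mul, mul_sub]
      rw [h3, h4, h5]
      abel
    rw [← e3, sub_mul, mul_assoc, mul_assoc, ← e1, ← e2, sub_self]
  have htr : (rr r c).trace = 0 := by
    rw [hcR]
    simp [Matrix.trace_fin_two, Matrix.single]
  have hw1 : rr r (c * c) = 1 := by
    rw [map_mul, hcR]
    ext i j
    fin_cases i <;> fin_cases j <;> simp [Matrix.mul_apply, Matrix.single]
  have hpsic : psi ρ r c = - phi ρ c := by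
    rw [psi_apply, htr, zero_smul, zero_sub]
  have hw2 : psi ρ r (c * c) = phi ρ (c * c) := by
    rw [psi_mul hES, hpsic, neg_mul_neg, map_mul]
  have hw3 : phi ρ (c * c) = 1 := by
    have e1 := psi_apply ρ r (c * c)
    rw [hw2, hw1] at e1
    have e2 : (1 : Matrix (Fin 2) (Fin 2) B).trace = 2 := by
      rw [Matrix.trace_one, Fintype.card_fin]
      norm_num
    rw [e2] at e1
    have e3 : (2 : B) • phi ρ (c * c) = (2 : B) • (1 : Module.End B X) := by
      rw [two_smul]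
      nth_rewrite 1 [e1]
      abel
    obtain ⟨u, hu⟩ := h2
    have e4 := congrArg (fun x => (↑(u⁻¹) : B) • x) e3
    simp only [smul_smul, ← hu, Units.inv_mul, one_smul] at e4
    exact e4
  calc phi ρ y = phi ρ (c * c) * phi ρ y := by rw [hw3, one_mul]
    _ = phi ρ c * (phi ρ c * phi ρ y) := by rw [map_mul, mul_assoc]
    _ = 0 := by rw [hc0, mul_zero]

/-- **The matrix ring acts.** -/
theorem exists_theta (h2 : IsUnit (2 : B)) (hsurj : Function.Surjective (rr r)) :
    ∃ Θ : Matrix (Fin 2) (Fin 2) B →+* Module.End B X,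
      (∀ g, Θ (r g) = ρ g) ∧ ∀ (b : B) (m : Matrix (Fin 2) (Fin 2) B), Θ (b • m) = b • Θ m := by
  let f : MonoidAlgebra B G →+* Matrix (Fin 2) (Fin 2) B := (rr r).toRingHom
  have hker : RingHom.ker f ≤ RingHom.ker (phi ρ).toRingHom := fun y hy =>
    phi_eq_zero hES h2 hsurj hy
  choose s hs using hsurj
  let Θ : Matrix (Fin 2) (Fin 2) B →+* Module.End B X :=
    RingHom.liftOfRightInverse f s hs ⟨(phi ρ).toRingHom, hker⟩
  have hΘ : ∀ y, Θ (rr r y) = phi ρ y := fun y =>
    RingHom.liftOfRightInverse_comp_apply f s hs ⟨(phi ρ).toRingHom, hker⟩ y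
  refine ⟨Θ, fun g => ?_, fun b m => ?_⟩
  · rw [← rr_of r g, hΘ, phi_of]
  · have h1 : b • m = rr r (b • s m) := by
      rw [map_smul]
      congr 1
      exact (hs m).symm
    rw [h1, hΘ, map_smul, ← hΘ]
    congr 2
    exact hs m

omit hES in
/-- **Transfer of exactness.** -/
theorem exact_of_theta (Θ : Matrix (Fin 2) (Fin 2) B →+* Module.End B X)
    (hΘ : ∀ (b : B) (m : Matrix (Fin 2) (Fin 2) B), Θ (b • m) = b • Θ m)
    (n : Matrix (Fin 2) (Fin 2) B) (hn : ∀ x, Θ n x = 0 → ∃ z, Θ n z = x) {m₁ m₂ : X}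
    (h1 : n 0 0 • m₁ + n 0 1 • m₂ = 0) (h2 : n 1 0 • m₁ + n 1 1 • m₂ = 0) :
    ∃ u₁ u₂ : X, n 0 0 • u₁ + n 0 1 • u₂ = m₁ ∧ n 1 0 • u₁ + n 1 1 • u₂ = m₂ := by
  set E : Fin 2 → Fin 2 → Module.End B X := fun i j => Θ (Matrix.single i j 1) with hE
  have hmul : ∀ i j k, ∀ x, E i j (E j k x) = E i k x := by
    intro i j k x
    rw [← Module.End.mul_apply]
    show (Θ (Matrix.single i j 1) * Θ (Matrix.single j k 1)) x = _
    rw [← map_mul, Matrix.single_mul_single_same, mul_one]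
  have hmul0 : ∀ i j j' k, j ≠ j' → ∀ x, E i j (E j' k x) = 0 := by
    intro i j j' k hjj x
    rw [← Module.End.mul_apply]
    show (Θ (Matrix.single i j 1) * Θ (Matrix.single j' k 1)) x = _
    rw [← map_mul, Matrix.single_mul_single_of_ne (h := hjj), map_zero, LinearMap.zero_apply]
  have hone : ∀ x, E 0 0 x + E 1 1 x = x := by
    intro x
    rw [← LinearMap.add_apply]
    show (Θ (Matrix.single 0 0 1) + Θ (Matrix.single 1 1 1)) x = _
    rw [← map_add]
    have : Matrix.single 0 0 1 + Matrix.single 1 1 1 = (1 : Matrix (Fin 2) (Fin 2) B) := by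
      ext i j
      fin_cases i <;> fin_cases j <;> simp [Matrix.single]
    rw [this, map_one, Module.End.one_apply]
  have hΘn : ∀ x, Θ n x = n 0 0 • E 0 0 x + n 0 1 • E 0 1 x + n 1 0 • E 1 0 x +
      n 1 1 • E 1 1 x := by
    intro x
    have hn' : n = n 0 0 • Matrix.single 0 0 1 + n 0 1 • Matrix.single 0 1 1 +
        n 1 0 • Matrix.single 1 0 1 + n 1 1 • Matrix.single 1 1 1 := by
      ext i j
      fin_cases i <;> fin_cases j <;> simp [Matrix.single]
    conv_lhs => rw [hn']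
    rw [map_add, map_add, map_add, hΘ, hΘ, hΘ, hΘ]
    rfl
  have z01 : (0 : Fin 2) ≠ 1 := by decide
  have z10 : (1 : Fin 2) ≠ 0 := by decide
  -- the two auxiliary vectors
  have ha : Θ n (E 0 0 m₁ + E 1 0 m₂) = 0 := by
    rw [hΘn]
    simp only [map_add, hmul, hmul0 _ _ _ _ z01, hmul0 _ _ _ _ z10, add_zero, zero_add]
    have e1 : E 0 0 (n 0 0 • m₁ + n 0 1 • m₂) = 0 := by rw [h1, map_zero]
    have e2 : E 1 0 (n 1 0 • m₁ + n 1 1 • m₂) = 0 := by rw [h2, map_zero]
    rw [map_add, map_smul, map_smul] at e1 e2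
    rw [e1, zero_add, e2]
  have ha' : Θ n (E 0 1 m₁ + E 1 1 m₂) = 0 := by
    rw [hΘn]
    simp only [map_add, hmul, hmul0 _ _ _ _ z01, hmul0 _ _ _ _ z10, add_zero, zero_add]
    have e1 : E 0 1 (n 0 0 • m₁ + n 0 1 • m₂) = 0 := by rw [h1, map_zero]
    have e2 : E 1 1 (n 1 0 • m₁ + n 1 1 • m₂) = 0 := by rw [h2, map_zero]
    rw [map_add, map_smul, map_smul] at e1 e2
    rw [e1, zero_add, e2]
  obtain ⟨b, hb⟩ := hn _ ha
  obtain ⟨b', hb'⟩ := hn _ ha'
  refine ⟨E 0 0 b + E 1 0 b', E 0 1 b + E 1 1 b', ?_, ?_⟩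
  · have e1 : E 0 0 (Θ n b) + E 1 0 (Θ n b') = m₁ := by
      rw [hb, hb', map_add, map_add, hmul, hmul0 _ _ _ _ z01, hmul, hmul0 _ _ _ _ z01, add_zero,
        add_zero]
      exact hone m₁
    rw [← e1, hΘn, hΘn]
    simp only [map_add, map_smul, hmul, hmul0 _ _ _ _ z01, hmul0 _ _ _ _ z10, add_zero, zero_add,
      smul_zero, smul_add]
    abel
  · have e1 : E 0 1 (Θ n b) + E 1 1 (Θ n b') = m₂ := by
      rw [hb, hb', map_add, map_add, hmul0 _ _ _ _ z10, hmul, hmul0 _ _ _ _ z10, hmul, zero_add,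
        zero_add]
      exact hone m₂
    rw [← e1, hΘn, hΘn]
    simp only [map_add, map_smul, hmul, hmul0 _ _ _ _ z01, hmul0 _ _ _ _ z10, add_zero, zero_add,
      smul_zero, smul_add]
    abel

/-- **Transfer**, combined. -/
theorem exact_transfer (h2 : IsUnit (2 : B)) (hsurj : Function.Surjective (rr r)) (τ : G)
    (hτ : ∀ x : X, ρ τ x = x → ∃ z, ρ τ z - z = x) {m₁ m₂ : X}
    (h1 : (r τ - 1) 0 0 • m₁ + (r τ - 1) 0 1 • m₂ = 0)
    (h2' : (r τ - 1) 1 0 • m₁ + (r τ - 1) 1 1 • m₂ = 0) :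
    ∃ u₁ u₂ : X, (r τ - 1) 0 0 • u₁ + (r τ - 1) 0 1 • u₂ = m₁ ∧
      (r τ - 1) 1 0 • u₁ + (r τ - 1) 1 1 • u₂ = m₂ := by
  obtain ⟨Θ, hΘr, hΘ⟩ := exists_theta hES h2 hsurj
  have hn : ∀ x, Θ (r τ - 1) x = ρ τ x - x := fun x => by
    rw [map_sub, map_one, hΘr, LinearMap.sub_apply, Module.End.one_apply]
  refine exact_of_theta Θ hΘ (r τ - 1) (fun x hx => ?_) h1 h2'
  rw [hn, sub_eq_zero] at hx
  obtain ⟨z, hz⟩ := hτ x hx
  exact ⟨z, by rw [hn, hz]⟩

end Fermat.Agent.Ribet
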